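import Fermat.Agent.ResidualThree.Kernel.AutKernel

/-!
# Composition of test functions

The kernel of the composition is the composition of the kernels, also after periodisation.
-/

noncomputable section

open IsDedekindDomain NumberField MeasureTheory Filter Topology
open scoped ENNReal NNReal ComplexConjugate

namespace Fermat.Agent.ResidualThree

namespace H3

theorem compKernel_of_not_pos (k₁ k₂ : ℝ → ℂ) {c : ℝ} (hc : c ≤ 0) : compKernel k₁ k₂ c = 0 := by
  rw [compKernel, max_eq_left ((min_le_left c 1).trans hc)]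
  simp

/-- Composition of radial kernels is commutative. -/
theorem integral_kernel_comp_comm (k₁ k₂ : ℝ → ℂ) (p r : H3) :
    ∫ q, k₁ (coshDist p q) * k₂ (coshDist q r) ∂vol =
      ∫ q, k₂ (coshDist p q) * k₁ (coshDist q r) ∂vol := by
  obtain ⟨g₁, hp, hr⟩ := exists_smul_axis p r
  obtain ⟨g₂, hr', hp'⟩ := exists_smul_axis r p
  rw [coshDist_comm r p] at hp'
  have hgp : (g₂⁻¹ * g₁) • p = r := by rw [mul_smul, hp, ← hr', inv_smul_smul]
  have hgr : (g₂⁻¹ * g₁) • r = p := by rw [mul_smul, hr, ← hp', inv_smul_smul]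
  rw [← integral_smul_gl (g₂⁻¹ * g₁) (fun q => k₂ (coshDist p q) * k₁ (coshDist q r))]
  refine integral_congr_ae (Eventually.of_forall fun q => ?_)
  simp only
  have e₁ : coshDist ((g₂⁻¹ * g₁) • q) r = coshDist q p := by
    conv_lhs => rw [← hgp]
    rw [coshDist_smul]
  have e₂ : coshDist p ((g₂⁻¹ * g₁) • q) = coshDist r q := by
    conv_lhs => rw [← hgr]
    rw [coshDist_smul]
  rw [e₁, e₂, coshDist_comm q p, coshDist_comm r q, mul_comm]

end H3

variable {F : Type} [Field F] [NumberField F] {U : Level F}

namespace TestMonomial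

variable (f g : TestMonomial U)

theorem integrable_arch_mul (w : InfinitePlace F) (p r : H3) :
    Integrable (fun q => f.arch w (H3.coshDist p q) * g.arch w (H3.coshDist q r)) H3.vol := by
  obtain ⟨M, -, hM⟩ := f.arch_radius w
  have hc : Continuous fun q : H3 => f.arch w (H3.coshDist p q) * g.arch w (H3.coshDist q r) :=
    ((f.continuous_arch w).comp (continuous_const.prodMk continuous_id)).mul
      ((g.continuous_arch w).comp (continuous_id.prodMk continuous_const))
  exact hc.integrable_of_hasCompactSupport (HasCompactSupport.intro (H3.isCompact_ball p M)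
    fun q hq => by
      by_contra h
      exact hq (hM _ (left_ne_zero_of_mul h)))

theorem integrable_arch (w : InfinitePlace F) (r : H3) :
    Integrable (fun q => g.arch w (H3.coshDist q r)) H3.vol := by
  obtain ⟨M, -, hM⟩ := g.arch_radius w
  have hc : Continuous fun q : H3 => g.arch w (H3.coshDist q r) :=
    (g.continuous_arch w).comp (continuous_id.prodMk continuous_const)
  exact hc.integrable_of_hasCompactSupport (HasCompactSupport.intro (H3.isCompact_ball r M)
    fun q hq => by
      by_contra h
      exact hq (show H3.coshDist r q ≤ M by rw [H3.coshDist_comm]; exact hM _ h))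

theorem integral_norm_arch_coshDist (w : InfinitePlace F) (p : H3) :
    ∫ q, ‖g.arch w (H3.coshDist q p)‖ ∂H3.vol =
      ∫ q, ‖g.arch w (H3.coshDist q H3.base)‖ ∂H3.vol := by
  rw [← H3.integral_smul_gl (H3.upTo p) (fun q => ‖g.arch w (H3.coshDist q p)‖)]
  refine integral_congr_ae (Eventually.of_forall fun q => ?_)
  simp only
  rw [show H3.coshDist (H3.upTo p • q) p = H3.coshDist (H3.upTo p • q) (H3.upTo p • H3.base) by
    rw [H3.upTo_smul_base], H3.coshDist_smul]

/-- The finite part of a composition. -/
def convFin (x : Gf F) : ℂ := ∑' y : Ωf U, f.fin y.out * g.fin (y.out⁻¹ * x)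

theorem convFin_eq (x z : Gf F) :
    ∑' y : Ωf U, f.fin (x⁻¹ * y.out) * g.fin (y.out⁻¹ * z) = convFin f g (x⁻¹ * z) := by
  rw [convFin, ← (MulAction.toPerm x : Equiv.Perm (Ωf U)).tsum_eq]
  refine tsum_congr fun y => ?_
  obtain ⟨j, hj⟩ := QuotientGroup.mk_out_eq_mul U.group (x * y.out)
  have e : (MulAction.toPerm x : Equiv.Perm (Ωf U)) y = ((x * y.out : Gf F) : Ωf U) := by
    conv_lhs => rw [← QuotientGroup.out_eq' y]
    rfl
  rw [e, hj]
  have h1 := f.biinvariant 1 j y.out (one_mem _) j.2
  have h2 := g.biinvariant (j : Gf F)⁻¹ 1 (y.out⁻¹ * (x⁻¹ * z)) (inv_mem j.2) (one_mem _)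
  rw [one_mul] at h1
  rw [mul_one] at h2
  rw [show x⁻¹ * (x * y.out * (j : Gf F)) = y.out * j by group, h1,
    show (x * y.out * (j : Gf F))⁻¹ * z = (j : Gf F)⁻¹ * (y.out⁻¹ * (x⁻¹ * z)) by group, h2]

/-- The composition of two monomials. -/
def conv : TestMonomial U where
  fin := convFin f g
  biinvariant j₁ j₂ x h₁ h₂ := by
    rw [show j₁ * x * j₂ = j₁⁻¹⁻¹ * (x * j₂) by group, ← convFin_eq, convFin]
    refine tsum_congr fun y => ?_
    have h3 := f.biinvariant j₁⁻¹⁻¹ 1 y.out (inv_mem (inv_mem h₁)) (one_mem _)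
    have h4 := g.biinvariant 1 j₂ (y.out⁻¹ * x) (one_mem _) h₂
    rw [mul_one] at h3
    rw [one_mul] at h4
    rw [h3, ← mul_assoc y.out⁻¹ x j₂, h4]
  finite_support := by
    refine (f.finite_support.biUnion fun y _ =>
      g.finite_support.image fun z => y.out • z).subset fun x hx => ?_
    obtain ⟨y, hy⟩ : ∃ y : Ωf U, f.fin y.out * g.fin (y.out⁻¹ * x.out) ≠ 0 := by
      by_contra hne
      push Not at hne
      exact hx (by rw [convFin, tsum_congr hne, tsum_zero])
    refine Set.mem_biUnion (x := y) (left_ne_zero_of_mul hy)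
      ⟨((y.out⁻¹ * x.out : Gf F) : Ωf U), ?_, ?_⟩
    · rw [Set.mem_ofPred_eq, g.fin_out]; exact right_ne_zero_of_mul hy
    · show ((y.out * (y.out⁻¹ * x.out) : Gf F) : Ωf U) = x
      rw [mul_inv_cancel_left, QuotientGroup.out_eq']
  arch w := H3.compKernel (f.arch w) (g.arch w)
  arch_support w := by
    obtain ⟨M₁, -, hM₁⟩ := f.arch_radius w
    obtain ⟨M₂, -, hM₂⟩ := g.arch_radius w
    refine HasCompactSupport.intro
      (K := Set.Icc 0 (Real.cosh (Real.arcosh M₁ + Real.arcosh M₂))) isCompact_Icc fun c hc => ?_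
    rcases le_or_gt c 0 with h0 | h0
    · exact H3.compKernel_of_not_pos _ _ h0
    have hbig : Real.cosh (Real.arcosh M₁ + Real.arcosh M₂) < c := by
      by_contra hle
      exact hc ⟨h0.le, not_lt.mp hle⟩
    have hc1 : 1 ≤ c := (Real.one_le_cosh _).trans hbig.le
    set r := H3.ofLog (0, Real.arcosh c) with hr
    have hd : H3.coshDist H3.base r = c := by
      rw [hr, H3.coshDist_base_axis, Real.cosh_arcosh hc1]
    rw [H3.compKernel, max_eq_left hc1]
    refine mul_eq_zero_of_right _ (integral_eq_zero_of_ae (Eventually.of_forall fun q => ?_))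
    by_contra hne
    simp only [Pi.zero_apply] at hne
    have hd1 := H3.hdist_le_arcosh (hM₁ _ (left_ne_zero_of_mul hne))
    have hd2 := H3.hdist_le_arcosh (hM₂ _ (right_ne_zero_of_mul hne))
    have h3 := (H3.hdist_triangle H3.base q r).trans (add_le_add hd1 hd2)
    have h4 : Real.cosh (H3.hdist H3.base r) ≤ Real.cosh (Real.arcosh M₁ + Real.arcosh M₂) :=
      Real.cosh_le_cosh.mpr (by
        rw [abs_of_nonneg (H3.hdist_nonneg _ _)]
        exact h3.trans (le_abs_self _))
    rw [H3.cosh_hdist, hd] at h4
    exact absurd h4 (not_le.mpr hbig)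
  arch_lipschitz w := by
    obtain ⟨C, hC⟩ := f.arch_lipschitz w
    refine ⟨|C| * ∫ q, ‖g.arch w (H3.coshDist q H3.base)‖ ∂H3.vol, fun p s r => ?_⟩
    rw [← H3.integral_kernel_comp, ← H3.integral_kernel_comp,
      ← integral_sub (f.integrable_arch_mul g w p s) (f.integrable_arch_mul g w r s)]
    rw [← g.integral_norm_arch_coshDist w s, mul_right_comm, ← integral_const_mul]
    refine norm_integral_le_of_norm_le ((g.integrable_arch w s).norm.const_mul _)
      (Eventually.of_forall fun q => ?_)
    rw [← sub_mul, norm_mul]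
    exact mul_le_mul_of_nonneg_right ((hC p q r).trans
      (mul_le_mul_of_nonneg_right (le_abs_self C) (Real.sqrt_nonneg _))) (norm_nonneg _)

theorem integral_kernel_mul_kernel (s t : Spc U) :
    ∫ y, f.kernel s y * g.kernel y t ∂volSpc U = (f.conv g).kernel s t := by
  set A : Ωf U → ℂ := fun ξ => f.fin (s.1.out⁻¹ * ξ.out) * g.fin (ξ.out⁻¹ * t.1.out) with hA
  have hAfin : {ξ : Ωf U | A ξ ≠ 0}.Finite := by
    refine (f.finite_support.image fun z => s.1.out • z).subset fun ξ hξ => ?_
    refine ⟨((s.1.out⁻¹ * ξ.out : Gf F) : Ωf U), ?_, ?_⟩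
    · rw [Set.mem_ofPred_eq, f.fin_out]; exact left_ne_zero_of_mul hξ
    · show ((s.1.out * (s.1.out⁻¹ * ξ.out) : Gf F) : Ωf U) = ξ
      rw [mul_inv_cancel_left, QuotientGroup.out_eq']
  have hint : ∫ ξ, A ξ ∂(Measure.count : Measure (Ωf U)) = ∑' ξ, A ξ := by
    have hi : Integrable A (Measure.count : Measure (Ωf U)) := by
      refine ⟨(measurable_of_countable A).aestronglyMeasurable, ?_⟩
      rw [hasFiniteIntegral_iff_enorm, lintegral_count,
        tsum_eq_sum (s := hAfin.toFinset) fun ξ hξ => by
          rw [Set.Finite.mem_toFinset, Set.mem_ofPred_eq, not_not] at hξ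
          rw [hξ, enorm_zero]]
      exact ENNReal.sum_lt_top.mpr fun ξ _ => enorm_lt_top
    rw [integral_countable hi]
    exact tsum_congr fun ξ => by rw [measureReal_def, Measure.count_singleton]; simp
  have e : ∀ y : Spc U, f.kernel s y * g.kernel y t = A y.1 *
      ∏ w, (f.arch w (H3.coshDist (s.2 w) (y.2 w)) * g.arch w (H3.coshDist (y.2 w) (t.2 w))) := by
    intro y
    rw [TestMonomial.kernel, TestMonomial.kernel, Finset.prod_mul_distrib]
    simp only [hA]
    ring
  rw [integral_congr_ae (Eventually.of_forall e), volSpc,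
    integral_prod_mul A (fun p : Hyp F => ∏ w,
      (f.arch w (H3.coshDist (s.2 w) (p w)) * g.arch w (H3.coshDist (p w) (t.2 w)))), hint,
    integral_fintype_prod_eq_prod (μ := fun _ : InfinitePlace F => H3.vol) (fun w q =>
      f.arch w (H3.coshDist (s.2 w) q) * g.arch w (H3.coshDist q (t.2 w)))]
  simp only [H3.integral_kernel_comp, hA, convFin_eq]
  rfl

/-- Commutation of the finite parts gives commutation of the kernels. -/
theorem kernel_conv_comm (h : ∀ x, convFin f g x = convFin g f x) (s t : Spc U) :
    (f.conv g).kernel s t = (g.conv f).kernel s t := by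
  show convFin f g _ * ∏ w, H3.compKernel (f.arch w) (g.arch w) _ =
    convFin g f _ * ∏ w, H3.compKernel (g.arch w) (f.arch w) _
  rw [h]
  congr 1
  refine Finset.prod_congr rfl fun w _ => ?_
  rw [← H3.integral_kernel_comp, ← H3.integral_kernel_comp, H3.integral_kernel_comp_comm]

end TestMonomial

/-- The composition of test functions. -/
def convFun (f g : TestFun U) : TestFun U := f.flatMap fun a => g.map a.conv

theorem kernel_convFun (f g : TestFun U) (s t : Spc U) :
    ∫ y, kernel f s y * kernel g y t ∂volSpc U = kernel (convFun f g) s t := by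
  have hint : ∀ (f g : TestFun U),
      Integrable (fun y => kernel f s y * kernel g y t) (volSpc U) := fun f g => by
    obtain ⟨D, -, hD⟩ := kernel_bound g
    exact integrable_kernel_mul f s (Measurable.comp (g := fun z : Spc U × Spc U =>
      kernel g z.1 z.2)
      (f := fun y : Spc U => (y, t)) (measurable_kernel g) (measurable_id.prodMk measurable_const))
      fun _ _ _ _ _ _ => ⟨D, fun y _ => hD y t⟩
  induction f with
  | nil => simp [convFun, kernel_nil]
  | cons a f ih =>
    rw [convFun, List.flatMap_cons, kernel_append, ← convFun, ← ih]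
    have ha : ∫ y, kernel [a] s y * kernel g y t ∂volSpc U = kernel (g.map a.conv) s t := by
      clear ih
      induction g with
      | nil => simp [kernel_nil]
      | cons b g ihg =>
        rw [List.map_cons, kernel_cons, ← ihg, ← a.integral_kernel_mul_kernel b]
        have hb : ∀ y, kernel [a] s y * kernel (b :: g) y t =
            a.kernel s y * b.kernel y t + kernel [a] s y * kernel g y t := fun y => by
          rw [kernel_cons b, kernel_cons a, kernel_nil]; ring
        rw [integral_congr_ae (Eventually.of_forall hb)]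
        refine integral_add ?_ (hint _ _)
        simpa [kernel_cons, kernel_nil] using hint [a] [b]
    rw [← ha, ← integral_add (hint _ _) (hint _ _)]
    refine integral_congr_ae (Eventually.of_forall fun y => ?_)
    simp only [kernel_cons, kernel_nil]
    ring

/-- Composition of automorphic kernels. -/
theorem autKernel_convFun [IsTotallyComplex F] (W : QuotientWeight U) (f g : TestFun U)
    (s t : Spc U) :
    ∫ y, autKernel f s y * autKernel g y t ∂Kernel.qMeas W = autKernel (convFun f g) s t := by
  obtain ⟨X, c, B, R, hX, hc, hs⟩ := exists_mem_boxSet s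
  obtain ⟨Y, d, B', R', hY, hd, ht⟩ := exists_mem_boxSet t
  obtain ⟨X', c', B'', R'', hX', hc', hsup⟩ := exists_box_supset f hX hc B R
  obtain ⟨G, hG⟩ := exists_finset_translates g hX' hY hc' hd B'' B' R'' R'
  have hm : ∀ t', Measurable fun y => kernel g y t' := fun t' =>
    Measurable.comp (g := fun z : Spc U × Spc U => kernel g z.1 z.2)
      (f := fun y : Spc U => (y, t')) (measurable_kernel g) (measurable_id.prodMk measurable_const)
  have hint : ∀ γ : PGLF F, Integrable (fun y => kernel f s y * kernel g y (γ • t)) (volSpc U) :=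
    fun γ => by
      obtain ⟨D, -, hD⟩ := kernel_bound g
      exact integrable_kernel_mul f s (hm _) fun _ _ _ _ _ _ => ⟨D, fun y _ => hD y _⟩
  have hoff : ∀ γ ∉ G, ∀ y, kernel f s y * kernel g y (γ • t) = 0 := fun γ hγ y => by
    by_contra hne
    exact hγ (hG y (hsup s hs y (left_ne_zero_of_mul hne)) t ht γ (right_ne_zero_of_mul hne))
  rw [Kernel.integral_autKernel_mul W f s (φ := fun y => autKernel g y t)
    (Measurable.comp (g := fun z : Spc U × Spc U => autKernel g z.1 z.2)
      (f := fun y : Spc U => (y, t)) (measurable_autKernel g)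
        (measurable_id.prodMk measurable_const))
    (fun γ y => autKernel_smul_left g γ y t) (autKernel_bound_left g t)]
  have e : ∀ y, kernel f s y * autKernel g y t =
      ∑ γ ∈ G, kernel f s y * kernel g y (γ • t) := fun y => by
    rw [autKernel, ← tsum_mul_left]
    exact tsum_eq_sum fun γ hγ => hoff γ hγ y
  rw [integral_congr_ae (Eventually.of_forall e), integral_finsetSum G fun γ _ => hint γ, autKernel,
    tsum_eq_sum (s := G) fun γ hγ => by
      rw [← kernel_convFun]
      simp [hoff γ hγ]]
  exact Finset.sum_congr rfl fun γ _ => kernel_convFun f g s _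

end Fermat.Agent.ResidualThree
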