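import Fermat.Agent.ResidualThree.Automorphic.Periods
import Fermat.Agent.ResidualThree.Automorphic.SiegelFinite
import Fermat.Agent.ResidualThree.Automorphic.TestFun

/-!
# Upper triangular elements between two points high in the cusp

They are counted by lattice points in a box, and translations by multiples of a period fix given
finitely many classes of the finite part.
-/

noncomputable section

open IsDedekindDomain NumberField Matrix Module
open scoped WithZero

namespace Fermat.Agent.ResidualThree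

variable {F : Type} [Field F] [NumberField F] {U : Level F}

namespace Kernel

theorem card_basisIx [IsTotallyComplex F] :
    Fintype.card (BasisIx F) = 2 * Fintype.card (InfinitePlace F) := by
  rw [← finrank_eq_card_basis (archBasis F), Module.finrank_pi_fintype,
    Complex.finrank_real_complex,
    Finset.sum_const, Finset.card_univ, smul_eq_mul, mul_comm]

/-- The coordinates of a point are bounded by its size. -/
theorem exists_coord_bound [IsTotallyComplex F] :
    ∃ K : ℝ, 0 ≤ K ∧ ∀ (x : InfinitePlace F → ℂ) i, |(archBasis F).repr x i| ≤ K * ‖x‖ := by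
  set Lc := LinearMap.toContinuousLinearMap (archBasis F).equivFun.toLinearMap
  refine ⟨‖Lc‖, norm_nonneg _, fun x i => ?_⟩
  have h := (norm_le_pi_norm (Lc x) i).trans (Lc.le_opNorm x)
  simpa [Lc, Real.norm_eq_abs] using h

theorem repr_archEmbed [IsTotallyComplex F] (β : 𝓞 F) (i : BasisIx F) :
    (archBasis F).repr (archEmbed F (β : F)) i = ((RingOfIntegers.basis F).repr β i : ℝ) := by
  have e : archEmbed F (β : F) =
      ∑ j, ((RingOfIntegers.basis F).repr β j : ℝ) • archBasis F j := by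
    conv_lhs => rw [← (RingOfIntegers.basis F).sum_repr β]
    rw [show ∀ x : 𝓞 F, (x : F) = algebraMap (𝓞 F) F x from fun _ => rfl, map_sum, map_sum]
    refine Finset.sum_congr rfl fun j _ => ?_
    rw [archBasis_apply, integralBasis_apply, zsmul_eq_mul, map_mul, map_intCast, map_mul,
      map_intCast]
    funext w
    simp [Complex.real_smul]
  rw [e, Basis.repr_sum_self]

/-- The upper triangular elements between two given classes with bounded diagonal and a box
condition on the translation: at most a constant times the number of lattice points. -/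
theorem exists_upGL_count_single [IsTotallyComplex F] (ω ω' : Ωf U) (M : ℝ) :
    ∃ C : ℝ, 0 ≤ C ∧ ∀ Y : ℝ, 1 ≤ Y → ∃ G : Finset (PGLF F),
      (G.card : ℝ) ≤ C * Y ^ (2 * Fintype.card (InfinitePlace F)) ∧
      ∀ (a : Fˣ) (t : F), upGL a 1 t • ω = ω' →
        (∀ w : InfinitePlace F, ‖w.embedding (a : F)‖ ≤ M ∧ ‖w.embedding t‖ ≤ M * Y) →
          ((upGL a 1 t : GL (Fin 2) F) : PGLF F) ∈ G := by
  classical
  obtain ⟨Ba, Bt, hBa, hBt, hval⟩ := exists_valuation_bounds ω ω'
  obtain ⟨m, hm, hmv⟩ := exists_nat_valuation_le Bt hBt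
  obtain ⟨K, hK0, hK⟩ := exists_coord_bound (F := F)
  set Fa : Set Fˣ := Units.val ⁻¹'
    {x : F | (∀ v : FPlace F, v.valuation F x ≤ WithZero.exp (Ba v)) ∧
      ∀ w : InfinitePlace F, ‖w.embedding x‖ ≤ M} with hFa
  have hFafin : Fa.Finite := (finite_bounded_elements Ba hBa M).preimage Units.val_injective.injOn
  set d := Fintype.card (BasisIx F) with hd
  set K' : ℝ := 2 * (K * (m * |M|)) + 3
  refine ⟨hFafin.toFinset.card * K' ^ d, by positivity, fun Y hY => ?_⟩
  set N : ℕ := ⌈K * (m * |M|) * Y⌉₊ with hN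
  refine ⟨(hFafin.toFinset ×ˢ Fintype.piFinset fun _ : BasisIx F => Finset.Icc (-(N : ℤ)) N).image
    fun q => ((upGL q.1 1 (((∑ i, q.2 i • RingOfIntegers.basis F i : 𝓞 F) : F) / m) :
      GL (Fin 2) F) : PGLF F), ?_, fun a t hg hw => ?_⟩
  · refine (Nat.cast_le.mpr Finset.card_image_le).trans ?_
    rw [Finset.card_product, Fintype.card_piFinset, Finset.prod_const, Finset.card_univ,
      Int.card_Icc,
      ← card_basisIx, ← hd, show ((N : ℤ) + 1 - -(N : ℤ)).toNat = 2 * N + 1 by omega, mul_assoc,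
      ← mul_pow]
    push_cast
    refine mul_le_mul_of_nonneg_left (pow_le_pow_left₀ (by positivity) ?_ d) (Nat.cast_nonneg _)
    have h1 : (N : ℝ) ≤ K * (m * |M|) * Y + 1 := (Nat.ceil_lt_add_one (by positivity)).le
    nlinarith
  · have hv := hval a t hg
    obtain ⟨β, hβ⟩ := HeightOneSpectrum.mem_integers_of_valuation_le_one F ((m : F) * t) fun v => by
      rw [map_mul]
      refine (mul_le_mul' (hmv v) (hv v).2).trans (le_of_eq ?_)
      rw [← WithZero.exp_add, neg_add_cancel, WithZero.exp_zero]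
    refine Finset.mem_image.mpr ⟨(a, fun i => (RingOfIntegers.basis F).repr β i), ?_, ?_⟩
    · refine Finset.mem_product.mpr ⟨hFafin.mem_toFinset.mpr ⟨fun v => (hv v).1.le,
        fun w => (hw w).1⟩, Fintype.mem_piFinset.mpr fun i => Finset.mem_Icc.mpr ?_⟩
      have hsmall : ‖archEmbed F (β : F)‖ ≤ m * |M| * Y := by
        refine (pi_norm_le_iff_of_nonneg (by positivity)).mpr fun w => ?_
        rw [show ((β : 𝓞 F) : F) = (m : F) * t from hβ, archEmbed_apply, map_mul, map_natCast,
          norm_mul, Complex.norm_natCast, mul_assoc]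
        exact mul_le_mul_of_nonneg_left ((hw w).2.trans
          (mul_le_mul_of_nonneg_right (le_abs_self M) (zero_le_one.trans hY))) (Nat.cast_nonneg m)
      have h1 := (hK (archEmbed F (β : F)) i).trans (mul_le_mul_of_nonneg_left hsmall hK0)
      rw [repr_archEmbed, ← mul_assoc] at h1
      have h2 : |((RingOfIntegers.basis F).repr β i : ℝ)| ≤ (N : ℝ) :=
        h1.trans (le_of_le_of_eq (Nat.le_ceil _) rfl)
      rw [← abs_le]
      exact_mod_cast h2
    · simp only [Basis.sum_repr]
      rw [show ((β : 𝓞 F) : F) = (m : F) * t from hβ,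
        mul_div_cancel_left₀ t (Nat.cast_ne_zero.mpr hm.ne')]

/-- A common version for finite sets of classes. -/
theorem exists_upGL_count [IsTotallyComplex F] {X X' : Set (Ωf U)} (hX : X.Finite) (hX' : X'.Finite)
    (M : ℝ) :
    ∃ C : ℝ, 0 ≤ C ∧ ∀ Y : ℝ, 1 ≤ Y → ∃ G : Finset (PGLF F),
      (G.card : ℝ) ≤ C * Y ^ (2 * Fintype.card (InfinitePlace F)) ∧
      ∀ (a : Fˣ) (t : F), ∀ ω ∈ X, upGL a 1 t • ω ∈ X' →
        (∀ w : InfinitePlace F, ‖w.embedding (a : F)‖ ≤ M ∧ ‖w.embedding t‖ ≤ M * Y) →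
          ((upGL a 1 t : GL (Fin 2) F) : PGLF F) ∈ G := by
  classical
  choose C hC0 hC using fun q : Ωf U × Ωf U => exists_upGL_count_single q.1 q.2 M
  refine ⟨∑ q ∈ hX.toFinset ×ˢ hX'.toFinset, C q, Finset.sum_nonneg fun q _ => hC0 q,
    fun Y hY => ?_⟩
  choose G hcard hG using fun q => hC q Y hY
  refine ⟨(hX.toFinset ×ˢ hX'.toFinset).biUnion G, ?_, fun a t ω hω hω' hw => ?_⟩
  · refine (Nat.cast_le.mpr Finset.card_biUnion_le).trans ?_
    push_cast
    rw [Finset.sum_mul]
    exact Finset.sum_le_sum fun q _ => hcard q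
  · exact Finset.mem_biUnion.mpr ⟨(ω, upGL a 1 t • ω),
      Finset.mem_product.mpr ⟨hX.mem_toFinset.mpr hω, hX'.mem_toFinset.mpr hω'⟩,
      hG _ a t rfl hw⟩

omit [NumberField F] in
/-- The class of an upper triangular element has a representative with lower entry one. -/
theorem exists_affine_of_borel {γ : PGLF F} (hγ : γ ∈ borelClasses F) :
    ∃ (a : Fˣ) (t : F), γ = ((upGL a 1 t : GL (Fin 2) F) : PGLF F) := by
  obtain ⟨g, hg, rfl⟩ := hγ
  obtain ⟨a, d, t, rfl⟩ := eq_upGL_of_apply_eq_zero hg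
  exact ⟨a * d⁻¹, t * ((d⁻¹ : Fˣ) : F), (mk_upGL_eq a d t).symm⟩

/-- Some multiple of the integers translates trivially on given classes. -/
theorem exists_fixing_period {X : Set (Ωf U)} (hX : X.Finite) :
    ∃ m : ℕ, 0 < m ∧ ∀ ω ∈ X, ∀ (b : 𝓞 F) (g : GL (Fin 2) F),
      (g : Matrix (Fin 2) (Fin 2) F) = !![1, (m : F) * (b : F); 0, 1] → g • ω = ω := by
  classical
  choose N hN using fun ω : Ωf U => exists_smallAt U ω.out
  obtain ⟨m, hm, hmN⟩ := exists_nat_le_exp (∑ ω ∈ hX.toFinset, N ω)
  refine ⟨m, hm, fun ω hω b g hg => ?_⟩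
  have he : g = unipHom F ((m : F) * (b : F)) := Units.ext (by rw [hg, coe_unipHom])
  rw [he]
  conv_lhs => rw [← QuotientGroup.out_eq' ω]
  show ((diag F (unipHom F ((m : F) * (b : F))) * ω.out : Gf F) : Ωf U) = ω
  conv_rhs => rw [← QuotientGroup.out_eq' ω]
  rw [eq_comm, QuotientGroup.eq]
  intro v
  show (ω.out.1 v)⁻¹ * (toLocal v (unipHom F ((m : F) * (b : F))) * ω.out.1 v) ∈ U.J v
  rw [toLocal_unipHom, ← mul_assoc]
  refine hN ω v _ ?_
  rw [valv_algebraMap, map_mul]
  refine ((mul_le_of_le_one_right' (v.valuation_le_one b)).trans (hmN v)).trans ?_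
  rw [WithZero.exp_le_exp, neg_le_neg_iff, Nat.cast_le, Finsupp.finsetSum_apply]
  exact Finset.single_le_sum (f := fun q => N q v) (fun _ _ => Nat.zero_le _)
    (hX.mem_toFinset.mpr hω)

end Kernel

end Fermat.Agent.ResidualThree
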