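import Fermat.Agent.ResidualThree.Kernel.AutKernel
import Fermat.Agent.ResidualThree.Kernel.CuspCount

/-!
# Growth of the automorphic kernel of a test function which kills constants

High in the cusp the periodised kernel is its Borel part.  That part has mean zero over a period
box and each of its terms moves little over the box, so the kernel grows strictly slower than the
volume of the box of translations.
-/

noncomputable section

open IsDedekindDomain NumberField MeasureTheory Filter Topology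
open scoped ENNReal NNReal

namespace Fermat.Agent.ResidualThree

variable {F : Type} [Field F] [NumberField F] {U : Level F}

namespace Kernel

/-- Two products of bounded factors differ by at most the sum of the differences. -/
theorem norm_prod_sub_prod_le {ι : Type*} (S : Finset ι) {a b : ι → ℂ} {B : ℝ} (hB : 1 ≤ B)
    (ha : ∀ i, ‖a i‖ ≤ B) (hb : ∀ i, ‖b i‖ ≤ B) :
    ‖∏ i ∈ S, a i - ∏ i ∈ S, b i‖ ≤ B ^ S.card * ∑ i ∈ S, ‖a i - b i‖ := by
  classical
  induction S using Finset.induction_on with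
  | empty => simp
  | @insert j S hj ih =>
    rw [Finset.prod_insert hj, Finset.prod_insert hj, Finset.sum_insert hj,
      Finset.card_insert_of_notMem hj]
    have hP : ‖∏ i ∈ S, b i‖ ≤ B ^ S.card := by
      rw [norm_prod, ← Finset.prod_const]
      exact Finset.prod_le_prod (fun i _ => norm_nonneg _) fun i _ => hb i
    have e : a j * ∏ i ∈ S, a i - b j * ∏ i ∈ S, b i =
        a j * (∏ i ∈ S, a i - ∏ i ∈ S, b i) + (a j - b j) * ∏ i ∈ S, b i := by ring
    rw [e]
    have hB0 : 0 ≤ B := zero_le_one.trans hB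
    calc ‖a j * (∏ i ∈ S, a i - ∏ i ∈ S, b i) + (a j - b j) * ∏ i ∈ S, b i‖
        ≤ B * (B ^ S.card * ∑ i ∈ S, ‖a i - b i‖) + ‖a j - b j‖ * B ^ S.card := by
          refine (norm_add_le _ _).trans ?_
          rw [norm_mul, norm_mul]
          exact add_le_add (mul_le_mul (ha j) ih (norm_nonneg _) hB0)
            (mul_le_mul_of_nonneg_left hP (norm_nonneg _))
      _ ≤ B ^ (S.card + 1) * (‖a j - b j‖ + ∑ i ∈ S, ‖a i - b i‖) := by
          rw [pow_succ, mul_add]
          nlinarith [norm_nonneg (a j - b j), pow_nonneg hB0 S.card,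
            mul_le_mul_of_nonneg_left hB (mul_nonneg (pow_nonneg hB0 S.card)
              (norm_nonneg (a j - b j)))]

end Kernel

/-- Neighbours under a test function are at bounded distance. -/
theorem exists_radius (f : TestFun U) {X : Set (Ωf U)} (hX : X.Finite) :
    ∃ (X' : Set (Ωf U)) (M : ℝ), X'.Finite ∧ 1 ≤ M ∧
      ∀ s t : Spc U, s.1 ∈ X → kernel f s t ≠ 0 →
        t.1 ∈ X' ∧ ∀ w, H3.coshDist (s.2 w) (t.2 w) ≤ M := by
  induction f with
  | nil => exact ⟨∅, 1, Set.finite_empty, le_rfl, fun s t _ h => absurd rfl h⟩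
  | cons a f ih =>
    choose M₀ hM₁ hM₀ using a.arch_radius
    obtain ⟨X₂, M₂, hX₂, hM₂, h₂⟩ := ih
    have hsum : ∀ w, M₀ w ≤ ∑ w, M₀ w := fun w =>
      Finset.single_le_sum (fun w _ => zero_le_one.trans (hM₁ w)) (Finset.mem_univ w)
    refine ⟨(⋃ ξ ∈ X, (fun η => ξ.out • η) '' {y : Ωf U | a.fin y.out ≠ 0}) ∪ X₂,
      max M₂ (∑ w, M₀ w), (hX.biUnion fun ξ _ => a.finite_support.image _).union hX₂,
      hM₂.trans (le_max_left _ _), fun s t hs ht => ?_⟩
    by_cases ha : a.kernel s t = 0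
    · rw [kernel_cons, ha, zero_add] at ht
      exact ⟨Or.inr (h₂ s t hs ht).1, fun w => ((h₂ s t hs ht).2 w).trans (le_max_left _ _)⟩
    · change a.fin _ * _ ≠ 0 at ha
      rw [mul_ne_zero_iff, Finset.prod_ne_zero_iff] at ha
      refine ⟨Or.inl (Set.mem_biUnion hs ⟨((s.1.out⁻¹ * t.1.out : Gf F) : Ωf U), ?_, ?_⟩),
        fun w => ((hM₀ w _ (ha.2 w (Finset.mem_univ w))).trans (hsum w)).trans (le_max_right _ _)⟩
      · rw [Set.mem_ofPred_eq, a.fin_out]; exact ha.1
      · show ((s.1.out * (s.1.out⁻¹ * t.1.out) : Gf F) : Ωf U) = t.1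
        rw [mul_inv_cancel_left, QuotientGroup.out_eq']

/-- Neighbours under a test function have comparable horospherical coordinates. -/
theorem exists_near (f : TestFun U) {X : Set (Ωf U)} (hX : X.Finite) :
    ∃ (X' : Set (Ωf U)) (M : ℝ), X'.Finite ∧ 1 ≤ M ∧
      ∀ s t : Spc U, s.1 ∈ X → kernel f s t ≠ 0 → t.1 ∈ X' ∧ ∀ w,
        (t.2 w).y ≤ M * (s.2 w).y ∧ (s.2 w).y ≤ M * (t.2 w).y ∧
          ‖(s.2 w).z - (t.2 w).z‖ ≤ M * (s.2 w).y := by
  obtain ⟨X', M, hX', hM, h⟩ := exists_radius f hX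
  refine ⟨X', 2 * M, hX', by linarith, fun s t hs ht => ⟨(h s t hs ht).1, fun w => ?_⟩⟩
  obtain ⟨h1, h2, h3⟩ := H3.bounds_of_coshDist_le ((h s t hs ht).2 w)
  have hp := (s.2 w).y_pos
  have hM0 : (0 : ℝ) ≤ 2 * M := by linarith
  refine ⟨h1, h2, ?_⟩
  have h4 : ‖(s.2 w).z - (t.2 w).z‖ ^ 2 ≤ (2 * M * (s.2 w).y) ^ 2 :=
    h3.trans ((mul_le_mul_of_nonneg_left h1 (mul_nonneg hM0 hp.le)).trans (le_of_eq (by ring)))
  exact (abs_le_of_sq_le_sq' h4 (mul_nonneg hM0 hp.le)).2

theorem TestMonomial.exists_lipschitz (f : TestMonomial U) :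
    ∃ C : ℝ, 0 ≤ C ∧ ∀ (ω : Ωf U) (p p' : Hyp F) (t : Spc U),
      ‖f.kernel (ω, p) t - f.kernel (ω, p') t‖ ≤
        C * ∑ w, Real.sqrt (H3.coshDist (p w) (p' w) - 1) := by
  choose L hL using f.arch_lipschitz
  choose D hD using f.arch_bound
  obtain ⟨C₀, hC₀⟩ := f.fin_bound
  set B := 1 + ∑ w, |D w|
  have hB : ∀ w p q, ‖f.arch w (H3.coshDist p q)‖ ≤ B := fun w p q =>
    ((hD w p q).trans (le_abs_self _)).trans ((Finset.single_le_sum
      (fun w _ => abs_nonneg (D w)) (Finset.mem_univ w)).trans (le_add_of_nonneg_left zero_le_one))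
  have hB1 : 1 ≤ B := le_add_of_nonneg_right (Finset.sum_nonneg fun w _ => abs_nonneg _)
  refine ⟨|C₀| * (B ^ Fintype.card (InfinitePlace F) * ∑ w, |L w|), by positivity,
    fun ω p p' t => ?_⟩
  simp only [TestMonomial.kernel]
  rw [← mul_sub, norm_mul, mul_assoc]
  refine mul_le_mul ((hC₀ _).trans (le_abs_self _)) ?_ (norm_nonneg _) (abs_nonneg _)
  refine (Kernel.norm_prod_sub_prod_le Finset.univ hB1 (fun w => hB w _ _)
    fun w => hB w _ _).trans ?_
  rw [Finset.card_univ, mul_assoc]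
  refine mul_le_mul_of_nonneg_left ?_ (pow_nonneg (zero_le_one.trans hB1) _)
  rw [Finset.mul_sum]
  refine Finset.sum_le_sum fun w _ => (hL w _ _ _).trans ?_
  exact mul_le_mul_of_nonneg_right ((le_abs_self _).trans
    (Finset.single_le_sum (fun w _ => abs_nonneg (L w)) (Finset.mem_univ w))) (Real.sqrt_nonneg _)

/-- Kernels of test functions are Lipschitz in the archimedean variable. -/
theorem exists_kernel_lipschitz (f : TestFun U) :
    ∃ C : ℝ, 0 ≤ C ∧ ∀ (ω : Ωf U) (p p' : Hyp F) (t : Spc U),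
      ‖kernel f (ω, p) t - kernel f (ω, p') t‖ ≤
        C * ∑ w, Real.sqrt (H3.coshDist (p w) (p' w) - 1) := by
  induction f with
  | nil => exact ⟨0, le_rfl, fun ω p p' t => by simp [kernel_nil]⟩
  | cons a f ih =>
    obtain ⟨C, hC0, hC⟩ := a.exists_lipschitz
    obtain ⟨D, hD0, hD⟩ := ih
    refine ⟨C + D, add_nonneg hC0 hD0, fun ω p p' t => ?_⟩
    rw [kernel_cons, kernel_cons, add_sub_add_comm, add_mul]
    exact (norm_add_le _ _).trans (add_le_add (hC ω p p' t) (hD ω p p' t))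

theorem continuous_kernel_left (f : TestFun U) (ω : Ωf U) (t : Spc U) :
    Continuous fun p : Hyp F => kernel f (ω, p) t := by
  induction f with
  | nil => exact continuous_const (y := (0 : ℂ))
  | cons a f ih =>
    simp only [kernel_cons]
    refine Continuous.add ?_ ih
    simp only [TestMonomial.kernel]
    refine continuous_const.mul (continuous_finsetProd _ fun w _ => ?_)
    exact Continuous.comp (g := fun z : H3 × H3 => a.arch w (H3.coshDist z.1 z.2))
      (f := fun p : Hyp F => (p w, t.2 w)) (a.continuous_arch w)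
      ((continuous_apply w).prodMk continuous_const)

theorem norm_boxPt_le (m : ℕ) : ∃ P : ℝ, 0 ≤ P ∧ ∀ r ∈ Set.Icc (0 : BasisIx F → ℝ) 1,
    ∀ w, ‖boxPt (F := F) m r w‖ ≤ P := by
  refine ⟨∑ w : InfinitePlace F, ∑ i : BasisIx F,
    ‖(m : ℂ) * w.embedding (RingOfIntegers.basis F i : F)‖, by positivity, fun r hr w => ?_⟩
  refine le_trans ?_ (Finset.single_le_sum (f := fun w : InfinitePlace F => ∑ i : BasisIx F,
    ‖(m : ℂ) * w.embedding (RingOfIntegers.basis F i : F)‖) (fun _ _ => by positivity)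
    (Finset.mem_univ w))
  refine (norm_sum_le _ _).trans (Finset.sum_le_sum fun i _ => ?_)
  rw [norm_mul, Complex.norm_real, Real.norm_eq_abs]
  exact mul_le_of_le_one_left (norm_nonneg _) (abs_le.mpr
    ⟨by linarith [hr.1 i, (show (0 : ℝ) ≤ 1 from zero_le_one),
      show (0 : BasisIx F → ℝ) i = 0 from rfl], hr.2 i⟩)

theorem sqrt_coshDist_shift_le (p : H3) (b : ℂ) :
    Real.sqrt (H3.coshDist p ⟨p.z + b, p.y, p.y_pos⟩ - 1) ≤ ‖b‖ / p.y := by
  have hy := p.y_pos
  rw [Real.sqrt_le_left (div_nonneg (norm_nonneg b) hy.le)]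
  have e : H3.coshDist p ⟨p.z + b, p.y, p.y_pos⟩ - 1 = ‖b‖ ^ 2 / (2 * p.y ^ 2) := by
    simp only [H3.coshDist, sub_add_cancel_left, Complex.normSq_eq_norm_sq, norm_neg]
    field_simp
    ring
  rw [e, div_pow, div_le_div_iff₀ (by positivity) (by positivity)]
  nlinarith [mul_nonneg (sq_nonneg ‖b‖) (sq_nonneg p.y)]

/-- One place of the count: an affine map taking a neighbour of `z` to a neighbour of `z + δ` has
bounded slope and a translation in a box of size `Y`. -/
theorem affine_box_of_near {M R P Y ys yt : ℝ} {zs zt δ a b : ℂ} (hM : 1 ≤ M) (hP0 : 0 ≤ P)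
    (hY1 : 1 ≤ Y) (hyt : 0 < yt) (hzs : ‖zs‖ ≤ |R|) (hδ : ‖δ‖ ≤ P) (hysle : ys ≤ Y)
    (t2 : ys ≤ M * yt) (t3 : ‖zs - zt‖ ≤ M * ys) (u1 : ‖a‖ * yt ≤ M * ys)
    (u3 : ‖zs + δ - (a * zt + b)‖ ≤ M * ys) :
    ‖a‖ ≤ (1 + M * M) * (|R| + P + M) + M * M ∧
      ‖b‖ ≤ ((1 + M * M) * (|R| + P + M) + M * M) * Y := by
  have hMM : 0 ≤ M * M := mul_self_nonneg M
  have ha : ‖a‖ ≤ M * M := by
    refine le_of_mul_le_mul_right ?_ hyt
    exact u1.trans ((mul_le_mul_of_nonneg_left t2 (zero_le_one.trans hM)).trans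
      (le_of_eq (mul_assoc _ _ _).symm))
  have hzt : ‖zt‖ ≤ |R| + M * Y :=
    (norm_le_norm_add_norm_sub _ _).trans (add_le_add hzs
      (t3.trans (mul_le_mul_of_nonneg_left hysle (zero_le_one.trans hM))))
  have hzu : ‖a * zt + b‖ ≤ |R| + P + M * Y :=
    (norm_le_norm_add_norm_sub _ _).trans (add_le_add
      ((norm_add_le _ _).trans (add_le_add hzs hδ))
      (u3.trans (mul_le_mul_of_nonneg_left hysle (zero_le_one.trans hM))))
  refine ⟨ha.trans (le_add_of_nonneg_left (mul_nonneg (by linarith)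
    (by linarith [abs_nonneg R]))), ?_⟩
  calc ‖b‖ = ‖(a * zt + b) - a * zt‖ := by rw [add_sub_cancel_left]
    _ ≤ (|R| + P + M * Y) + M * M * (|R| + M * Y) := by
        refine (norm_sub_le _ _).trans (add_le_add hzu ?_)
        rw [norm_mul]
        exact mul_le_mul ha hzt (norm_nonneg _) hMM
    _ ≤ ((1 + M * M) * (|R| + P + M) + M * M) * Y := by
        linarith [mul_nonneg (add_nonneg (add_nonneg (abs_nonneg R) hP0)
            (mul_nonneg hMM (abs_nonneg R))) (sub_nonneg.mpr hY1),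
          mul_nonneg (mul_nonneg hMM (add_nonneg hP0 zero_le_one)) (zero_le_one.trans hY1)]

/-- A value is at most as large as its distance to a function of mean zero on the unit cube. -/
theorem norm_le_of_setIntegral_eq_zero {ι : Type*} [Fintype ι] {g : (ι → ℝ) → ℂ}
    (hg : Continuous g) (h0 : ∫ r in Set.Icc (0 : ι → ℝ) 1, g r = 0) {x : ℂ} {D : ℝ}
    (hD : ∀ r ∈ Set.Icc (0 : ι → ℝ) 1, ‖x - g r‖ ≤ D) : ‖x‖ ≤ D := by
  have hfin : volume (Set.Icc (0 : ι → ℝ) 1) < ⊤ := isCompact_Icc.measure_lt_top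
  have hvol : volume.real (Set.Icc (0 : ι → ℝ) 1) = 1 := by
    rw [measureReal_def, Real.volume_Icc_pi_toReal zero_le_one]
    simp
  have hx : x = ∫ r in Set.Icc (0 : ι → ℝ) 1, (x - g r) := by
    rw [integral_sub (integrableOn_const (C := x) hfin.ne) hg.continuousOn.integrableOn_Icc, h0,
      sub_zero, setIntegral_const, hvol, one_smul]
  rw [hx]
  refine (norm_setIntegral_le_of_norm_le_const hfin hD).trans ?_
  rw [hvol, mul_one]

variable [IsTotallyComplex F]

/-- High in the cusp the automorphic kernel is its Borel part. -/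
theorem autKernel_eq_borel (f : TestFun U) {X : Set (Ωf U)} (hX : X.Finite) :
    ∃ T : ℝ, ∀ s : Spc U, s.1 ∈ X → (∀ w, T ≤ (s.2 w).y) → ∀ t, kernel f s t ≠ 0 →
      autKernel f s t = ∑' γ : borelClasses F, kernel f s ((γ : PGLF F) • t) := by
  obtain ⟨X', M, hX', hM, hnear⟩ := exists_near f hX
  obtain ⟨δ, hδ0, hδ⟩ : ∃ δ : ℝ, 0 < δ ∧ ∀ ω ∈ X', δ ≤ topFin ω.out := by
    rcases X'.eq_empty_or_nonempty with h | h
    · exact ⟨1, one_pos, by simp [h]⟩
    · obtain ⟨ω₀, -, hω₀⟩ := Set.exists_min_image X' (fun ω => topFin ω.out) hX' h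
      exact ⟨topFin ω₀.out, topFin_pos _, hω₀⟩
  refine ⟨M * (1 + δ⁻¹), fun s hs hy t ht => ?_⟩
  have high : ∀ u, kernel f s u ≠ 0 → 1 < spcHeight (topRow F) u := by
    intro u hu
    obtain ⟨hu1, hu2⟩ := hnear s u hs hu
    have hyu : ∀ w, 1 + δ⁻¹ ≤ (u.2 w).y := fun w =>
      le_of_mul_le_mul_left ((hy w).trans (hu2 w).2.1) (zero_lt_one.trans_le hM)
    show 1 < height (topRow F) u.1.out u.2
    rw [height_topRow]
    have h1 : (1 : ℝ) < δ * (1 + δ⁻¹) := by
      rw [mul_add, mul_one, mul_inv_cancel₀ hδ0.ne']; linarith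
    have hd : 0 < δ⁻¹ := inv_pos.mpr hδ0
    have h2 : 1 + δ⁻¹ ≤ ∏ w, (u.2 w).y ^ 2 := by
      refine le_trans ?_ (Finset.prod_le_prod (f := fun _ : InfinitePlace F => (1 + δ⁻¹) ^ 2)
        (fun _ _ => sq_nonneg _) fun w _ => pow_le_pow_left₀ (by positivity) (hyu w) 2)
      rw [Finset.prod_const, Finset.card_univ, ← pow_mul]
      exact le_self_pow₀ (by linarith) (mul_ne_zero two_ne_zero Fintype.card_ne_zero)
    exact h1.trans_le (mul_le_mul (hδ _ hu1) h2 (by positivity) (topFin_pos _).le)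
  rw [autKernel]
  symm
  refine tsum_subtype_eq_of_support_subset (f := fun γ : PGLF F => kernel f s (γ • t))
    fun γ hγ => ?_
  refine ⟨γ.out, ?_, QuotientGroup.out_eq' γ⟩
  refine upper_of_one_lt_spcHeight (s := t) (high t ht) ?_
  rw [← Kernel.pgl_smul_eq]
  exact high _ hγ

/-- The Borel part grows at most like the power `2r - 1` of each height, `r` the number of places:
one less than the count of the lattice translations in reach. -/
theorem exists_borel_bound (f : TestFun U) (hf : KillsConstant f) {X : Set (Ωf U)} (hX : X.Finite)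
    {c : ℝ} (hc : 0 < c) (A R : ℝ) :
    ∃ C : ℝ, 0 ≤ C ∧ ∀ s ∈ siegelSet U X c A R, ∀ t, kernel f s t ≠ 0 → ∀ w₀ : InfinitePlace F,
      ‖∑' γ : borelClasses F, kernel f s ((γ : PGLF F) • t)‖ ≤
        C * (s.2 w₀).y ^ (2 * Fintype.card (InfinitePlace F) - 1) := by
  classical
  obtain ⟨X', M, hX', hM, hnear⟩ := exists_near f hX
  obtain ⟨m, hm, hfix⟩ := Kernel.exists_fixing_period (U := U) hX
  obtain ⟨P, hP0, hP⟩ := norm_boxPt_le (F := F) m
  obtain ⟨L, hL0, hL⟩ := exists_kernel_lipschitz f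
  set M' : ℝ := (1 + M * M) * (|R| + P + M) + M * M with hM'
  obtain ⟨C, hC0, hC⟩ := Kernel.exists_upGL_count hX' hX' M'
  set r := Fintype.card (InfinitePlace F) with hr
  set Q : ℝ := c⁻¹ + |A|
  refine ⟨C * Q ^ (2 * r) * (L * (r * (P * |A|))), by positivity, fun s hs t ht w₀ => ?_⟩
  set y₀ := (s.2 w₀).y
  have hy0 : 0 < y₀ := (s.2 w₀).y_pos
  set Y : ℝ := 1 + |A| * y₀ with hY
  have hY1 : 1 ≤ Y := le_add_of_nonneg_right (by positivity)
  have hysle : ∀ w, (s.2 w).y ≤ Y := fun w =>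
    (((hs.2 w).2.2 w₀).trans (mul_le_mul_of_nonneg_right (le_abs_self A) hy0.le)).trans
      (le_add_of_nonneg_left zero_le_one)
  obtain ⟨G, hGcard, hG⟩ := hC Y hY1
  set sr : (BasisIx F → ℝ) → Spc U := fun r' => (s.1, horoShift (boxPt m r') s.2) with hsr
  have hsupp : ∀ r' ∈ Set.Icc (0 : BasisIx F → ℝ) 1, ∀ γ ∈ borelClasses F,
      kernel f (sr r') (γ • t) ≠ 0 → γ ∈ G := by
    intro r' hr' γ hγ hk
    obtain ⟨a, b, rfl⟩ := Kernel.exists_affine_of_borel hγ
    rw [mk_smul_spc] at hk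
    obtain ⟨ht1, ht2⟩ := hnear s t hs.1 ht
    obtain ⟨hu1, hu2⟩ := hnear (sr r') _ hs.1 hk
    refine hG a b t.1 ht1 hu1 fun w => ?_
    obtain ⟨u1, u2, u3⟩ := hu2 w
    obtain ⟨t1, t2, t3⟩ := ht2 w
    have hz : ((upGL a 1 b • t).2 w).z = w.embedding (a : F) * (t.2 w).z + w.embedding b :=
      upGL_smul_z a b t.2 w
    have hyv : ((upGL a 1 b • t).2 w).y = ‖w.embedding (a : F)‖ * (t.2 w).y :=
      upGL_smul_y a b t.2 w
    rw [hyv] at u1
    rw [hz] at u3
    exact affine_box_of_near hM hP0 hY1 (t.2 w).y_pos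
      ((hs.2 w).1.trans (le_abs_self R)) (hP r' hr' w) (hysle w) t2 t3 u1 u3
  set GB : Finset (borelClasses F) := G.subtype (· ∈ borelClasses F) with hGB
  have hP' : ∀ r' ∈ Set.Icc (0 : BasisIx F → ℝ) 1,
      ∑' γ : borelClasses F, kernel f (sr r') ((γ : PGLF F) • t) =
        ∑ γ ∈ GB, kernel f (sr r') ((γ : PGLF F) • t) := fun r' hr' =>
    tsum_eq_sum fun γ hγ => by_contra fun h =>
      hγ (Finset.mem_subtype.mpr (hsupp r' hr' γ γ.2 h))
  set q : (BasisIx F → ℝ) → ℂ := fun r' => ∑ γ ∈ GB, kernel f (sr r') ((γ : PGLF F) • t) with hq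
  have hqc : Continuous q := continuous_finsetSum _ fun γ _ =>
    (continuous_kernel_left f s.1 _).comp
      (continuous_horoShift.comp ((continuous_boxPt m).prodMk continuous_const))
  have hint : ∫ r' in Set.Icc (0 : BasisIx F → ℝ) 1, q r' = 0 := by
    rw [← hf s t m hm (hfix s.1 hs.1)]
    exact setIntegral_congr_fun measurableSet_Icc fun r' hr' => (hP' r' hr').symm
  have hs0 : sr 0 = s := by
    rw [hsr]
    refine Prod.ext rfl ?_
    show horoShift (boxPt m 0) s.2 = s.2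
    rw [show boxPt (F := F) m 0 = 0 by funext w; simp [boxPt], horoShift_zero]
  have h0mem : (0 : BasisIx F → ℝ) ∈ Set.Icc (0 : BasisIx F → ℝ) 1 := ⟨le_rfl, zero_le_one⟩
  have hval : ∑' γ : borelClasses F, kernel f s ((γ : PGLF F) • t) = q 0 := by
    rw [hq]
    simp only
    rw [← hP' 0 h0mem, hs0]
  have hyw : ∀ w, P / (s.2 w).y ≤ P * |A| / y₀ := by
    intro w
    rw [div_le_div_iff₀ (s.2 w).y_pos hy0, mul_assoc]
    exact mul_le_mul_of_nonneg_left (((hs.2 w₀).2.2 w).trans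
      (mul_le_mul_of_nonneg_right (le_abs_self A) (s.2 w).y_pos.le)) hP0
  have hdiff : ∀ r' ∈ Set.Icc (0 : BasisIx F → ℝ) 1,
      ‖q 0 - q r'‖ ≤ C * Y ^ (2 * r) * (L * (r * (P * |A| / y₀))) := by
    intro r' hr'
    rw [hq]
    simp only
    rw [← Finset.sum_sub_distrib]
    refine (norm_sum_le _ _).trans ((Finset.sum_le_card_nsmul GB _ (L * (r * (P * |A| / y₀)))
      fun γ _ => ?_).trans ?_)
    · rw [hs0]
      refine (hL s.1 s.2 _ _).trans (mul_le_mul_of_nonneg_left ?_ hL0)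
      refine le_trans (Finset.sum_le_card_nsmul _ _ (P * |A| / y₀) fun w _ => ?_)
        (le_of_eq (by rw [Finset.card_univ, ← hr, nsmul_eq_mul]))
      refine ((sqrt_coshDist_shift_le (s.2 w) (boxPt m r' w)).trans ?_).trans (hyw w)
      exact div_le_div_of_nonneg_right (hP r' hr' w) (s.2 w).y_pos.le
    · rw [nsmul_eq_mul]
      refine mul_le_mul_of_nonneg_right (le_trans ?_ hGcard) (by positivity)
      rw [Nat.cast_le, hGB, Finset.card_subtype]
      exact Finset.card_filter_le _ _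
  rw [hval]
  refine (norm_le_of_setIntegral_eq_zero hqc hint hdiff).trans ?_
  have hYy : Y ≤ Q * y₀ := by
    rw [hY, show Q * y₀ = c⁻¹ * y₀ + |A| * y₀ from add_mul _ _ _]
    refine add_le_add ?_ le_rfl
    rw [inv_mul_eq_div, one_le_div hc]
    exact (hs.2 w₀).2.1
  obtain ⟨k, hk⟩ : ∃ k, 2 * r = k + 1 := Nat.exists_eq_succ_of_ne_zero
    (mul_ne_zero two_ne_zero Fintype.card_ne_zero)
  calc C * Y ^ (2 * r) * (L * (r * (P * |A| / y₀)))
      ≤ C * (Q * y₀) ^ (2 * r) * (L * (r * (P * |A| / y₀))) :=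
        mul_le_mul_of_nonneg_right (mul_le_mul_of_nonneg_left
          (pow_le_pow_left₀ (zero_le_one.trans hY1) hYy _) hC0) (by positivity)
    _ = C * Q ^ (2 * r) * (L * (r * (P * |A|))) * y₀ ^ (2 * r - 1) := by
        rw [hk, Nat.add_sub_cancel, mul_pow, pow_succ y₀]
        linear_combination (C * Q ^ (k + 1) * (L * (r * (P * |A|))) * y₀ ^ k) *
          mul_inv_cancel₀ hy0.ne'

/-- The growth of the automorphic kernel of a test function which kills constants. -/
theorem exists_cusp_bound (f : TestFun U) (hf : KillsConstant f) {X : Set (Ωf U)} (hX : X.Finite)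
    {c : ℝ} (hc : 0 < c) (A R : ℝ) :
    ∃ C : ℝ, 0 ≤ C ∧ ∀ s ∈ siegelSet U X c A R, ∀ t, ∀ w₀ : InfinitePlace F,
      ‖autKernel f s t‖ ≤ C * (s.2 w₀).y ^ (2 * Fintype.card (InfinitePlace F) - 1) := by
  obtain ⟨T, hT⟩ := autKernel_eq_borel f hX
  obtain ⟨C, hC0, hC⟩ := exists_borel_bound f hf hX hc A R
  obtain ⟨X', c', B', R', hX', hc', hsup⟩ := exists_box_supset f hX hc (A * T) R
  obtain ⟨D, hD⟩ := autKernel_bound_box f hX hX' hc hc' (A * T) B' R R'
  set k := 2 * Fintype.card (InfinitePlace F) - 1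
  refine ⟨C + |D| / c ^ k, by positivity, fun s hs t w₀ => ?_⟩
  have hy := (s.2 w₀).y_pos
  have hk0 : 0 ≤ (s.2 w₀).y ^ k := pow_nonneg hy.le k
  by_cases hall : ∃ γ : PGLF F, kernel f s (γ • t) ≠ 0
  · obtain ⟨γ, hγ⟩ := hall
    rw [← autKernel_smul_right f γ s t]
    by_cases hhigh : ∀ w, T ≤ (s.2 w).y
    · rw [hT s hs.1 hhigh _ hγ]
      exact (hC s hs _ hγ w₀).trans (mul_le_mul_of_nonneg_right
        (le_add_of_nonneg_right (div_nonneg (abs_nonneg D) (pow_nonneg hc.le k))) hk0)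
    · push Not at hhigh
      obtain ⟨w₁, hw₁⟩ := hhigh
      have hbox : s ∈ boxSet U X c (A * T) R := ⟨hs.1, fun w => ⟨(hs.2 w).1, (hs.2 w).2.1, by
        have h1 := (hs.2 w).2.2 w₁
        have hA : 0 ≤ A := by
          have h2 := (hs.2 w).2.2 w
          nlinarith [(s.2 w).y_pos]
        exact h1.trans (mul_le_mul_of_nonneg_left hw₁.le hA)⟩⟩
      refine ((hD s hbox _ (hsup s hbox _ hγ)).trans (le_abs_self D)).trans ?_
      refine le_trans ?_ (mul_le_mul_of_nonneg_right (le_add_of_nonneg_left hC0) hk0)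
      rw [div_mul_eq_mul_div, le_div_iff₀ (pow_pos hc k)]
      exact mul_le_mul_of_nonneg_left (pow_le_pow_left₀ hc.le (hs.2 w₀).2.1 k) (abs_nonneg D)
  · push Not at hall
    rw [autKernel, tsum_congr hall, tsum_zero, norm_zero]
    positivity

end Fermat.Agent.ResidualThree
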