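import Fermat.Agent.ResidualThree.Kernel.HSOp

/-!
# Kernel operators as integrals

The operator of a square-integrable kernel as an integral, its adjoint, composition with a measure
preserving substitution, and commutation.
-/

noncomputable section

open MeasureTheory Filter Topology
open scoped ComplexConjugate InnerProductSpace ENNReal

namespace Fermat.Agent.ResidualThree.Kernel

variable {X : Type*} [MeasurableSpace X] {μ : Measure X} [SigmaFinite μ]

omit [SigmaFinite μ] in
theorem integrable_tens_mul (g h : Lp ℂ 2 μ) (K : Lp ℂ 2 (μ.prod μ)) :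
    Integrable (fun z : X × X => conj (g z.1) * h z.2 * K z) (μ.prod μ) := by
  refine (L2.integrable_inner (𝕜 := ℂ) (tens g h) K).congr ?_
  filter_upwards [coeFn_tens g h] with z hz
  rw [RCLike.inner_apply, hz, map_mul, Complex.conj_conj]
  ring

omit [SigmaFinite μ] in
theorem inner_tens_eq_integral (g h : Lp ℂ 2 μ) (K : Lp ℂ 2 (μ.prod μ)) :
    ⟪tens g h, K⟫_ℂ = ∫ z, conj (g z.1) * h z.2 * K z ∂μ.prod μ := by
  rw [L2.inner_def]
  refine integral_congr_ae ?_
  filter_upwards [coeFn_tens g h] with z hz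
  rw [RCLike.inner_apply, hz, map_mul, Complex.conj_conj]
  ring

/-- The operator of a kernel is integration against the kernel. -/
theorem coeFn_opK (K : Lp ℂ 2 (μ.prod μ)) (v : Lp ℂ 2 μ) :
    opK K v =ᵐ[μ] fun x => ∫ y, K (x, y) * v y ∂μ := by
  have key : ∀ s (hs : MeasurableSet s) (hμ : μ s ≠ ∞),
      IntegrableOn (fun x => ∫ y, K (x, y) * v y ∂μ) s μ ∧
        ∫ x in s, opK K v x ∂μ = ∫ x in s, ∫ y, K (x, y) * v y ∂μ ∂μ := by
    intro s hs hμ
    set g := indicatorConstLp 2 hs hμ (1 : ℂ) with hg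
    have hF := integrable_tens_mul g v K
    have hae : ∀ᵐ x ∂μ, ∫ y, conj (g x) * v y * K (x, y) ∂μ =
        s.indicator (fun x => ∫ y, K (x, y) * v y ∂μ) x := by
      filter_upwards [indicatorConstLp_coeFn (p := 2) (hs := hs) (hμs := hμ) (c := (1 : ℂ))]
        with x hx
      rw [hg, hx]
      by_cases h : x ∈ s <;> simp [h, mul_comm]
    refine ⟨?_, ?_⟩
    · rw [← integrable_indicator_iff hs]
      exact hF.integral_prod_left.congr hae
    · rw [← L2.inner_indicatorConstLp_one hs hμ, ← hg, inner_opK, inner_tens_eq_integral,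
        integral_prod _ hF, integral_congr_ae hae, integral_indicator hs]
  refine ae_eq_of_forall_setIntegral_eq_of_sigmaFinite (fun s hs hμ => ?_)
    (fun s hs hμ => (key s hs hμ.ne).1) fun s hs hμ => (key s hs hμ.ne).2
  have : IsFiniteMeasure (μ.restrict s) := ⟨by rwa [Measure.restrict_apply_univ]⟩
  exact ((Lp.memLp (opK K v)).restrict s).integrable (by norm_num)

theorem memLp_adjK (K : Lp ℂ 2 (μ.prod μ)) :
    MemLp (fun z : X × X => conj (K z.swap)) 2 (μ.prod μ) :=
  ((Lp.memLp K).comp_measurePreserving Measure.measurePreserving_swap).star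

/-- The adjoint kernel. -/
def adjK (K : Lp ℂ 2 (μ.prod μ)) : Lp ℂ 2 (μ.prod μ) := (memLp_adjK K).toLp _

theorem coeFn_adjK (K : Lp ℂ 2 (μ.prod μ)) :
    adjK K =ᵐ[μ.prod μ] fun z => conj (K z.swap) := MemLp.coeFn_toLp _

theorem inner_tens_adjK (g h : Lp ℂ 2 μ) (K : Lp ℂ 2 (μ.prod μ)) :
    ⟪tens g h, adjK K⟫_ℂ = ⟪K, tens h g⟫_ℂ := by
  have e : (fun z : X × X => conj (g z.1) * h z.2 * adjK K z) =ᵐ[μ.prod μ]
      fun z => conj (conj (h z.swap.1) * g z.swap.2 * K z.swap) := by
    filter_upwards [coeFn_adjK K] with z hz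
    rw [hz]
    simp only [Prod.fst_swap, Prod.snd_swap, map_mul, Complex.conj_conj]
    ring
  rw [← inner_conj_symm K, inner_tens_eq_integral, inner_tens_eq_integral, integral_congr_ae e,
    integral_prod_swap (fun z : X × X => conj (conj (h z.1) * g z.2 * K z)), integral_conj]

theorem inner_opK_adjK (K : Lp ℂ 2 (μ.prod μ)) (v w : Lp ℂ 2 μ) :
    ⟪opK (adjK K) v, w⟫_ℂ = ⟪v, opK K w⟫_ℂ := by
  rw [← inner_conj_symm, inner_opK, inner_tens_adjK, inner_conj_symm, inner_opK]

theorem opK_adjK (K : Lp ℂ 2 (μ.prod μ)) :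
    opK (adjK K) = ContinuousLinearMap.adjoint (opK K) :=
  (ContinuousLinearMap.eq_adjoint_iff _ _).mpr (inner_opK_adjK K)

/-- The kernel with the second variable substituted. -/
def substK (σ : X → X) (hσ : MeasurePreserving σ μ μ) (K : Lp ℂ 2 (μ.prod μ)) :
    Lp ℂ 2 (μ.prod μ) :=
  Lp.compMeasurePreservingₗᵢ ℂ (Prod.map id σ) ((MeasurePreserving.id μ).prod hσ) K

theorem coeFn_substK (σ : X → X) (hσ : MeasurePreserving σ μ μ) (K : Lp ℂ 2 (μ.prod μ)) :
    substK σ hσ K =ᵐ[μ.prod μ] fun z => K (z.1, σ z.2) :=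
  Lp.coeFn_compMeasurePreserving K ((MeasurePreserving.id μ).prod hσ)

/-- Composition with a measure preserving map, as an operator on `L²`. -/
def substOp (τ : X → X) (hτ : MeasurePreserving τ μ μ) : Lp ℂ 2 μ →L[ℂ] Lp ℂ 2 μ :=
  (Lp.compMeasurePreservingₗᵢ ℂ τ hτ).toContinuousLinearMap

omit [SigmaFinite μ] in
theorem coeFn_substOp (τ : X → X) (hτ : MeasurePreserving τ μ μ) (v : Lp ℂ 2 μ) :
    substOp τ hτ v =ᵐ[μ] fun x => v (τ x) :=
  Lp.coeFn_compMeasurePreserving v hτ

theorem opK_substK {σ τ : X → X} (hσ : MeasurePreserving σ μ μ) (hτ : MeasurePreserving τ μ μ)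
    (hinv : ∀ x, τ (σ x) = x) (K : Lp ℂ 2 (μ.prod μ)) :
    opK (substK σ hσ K) = (opK K).comp (substOp τ hτ) := by
  refine ContinuousLinearMap.ext fun v => ext_inner_left ℂ fun g => ?_
  rw [ContinuousLinearMap.comp_apply, inner_opK, inner_opK]
  have e : tens g v = Lp.compMeasurePreservingₗᵢ ℂ (Prod.map id σ)
      ((MeasurePreserving.id μ).prod hσ) (tens g (substOp τ hτ v)) := by
    refine Lp.ext ((coeFn_tens g v).trans
      (Filter.EventuallyEq.trans ?_ (coeFn_substK σ hσ _).symm))
    filter_upwards [((MeasurePreserving.id μ).prod hσ).quasiMeasurePreserving.ae_eq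
        (coeFn_tens g (substOp τ hτ v)),
      Measure.quasiMeasurePreserving_snd.ae_eq
        (hσ.quasiMeasurePreserving.ae_eq (coeFn_substOp τ hτ v))] with z h1 h2
    change tens g (substOp τ hτ v) (z.1, σ z.2) =
      g z.1 * conj (substOp τ hτ v (σ z.2)) at h1
    change substOp τ hτ v (σ z.2) = v (τ (σ z.2)) at h2
    rw [h1, h2, hinv]
  rw [e]
  exact LinearIsometry.inner_map_map (𝕜 := ℂ) (E := Lp ℂ 2 (μ.prod μ)) (E' := Lp ℂ 2 (μ.prod μ))
    (Lp.compMeasurePreservingₗᵢ ℂ (Prod.map id σ) ((MeasurePreserving.id μ).prod hσ)) _ _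

/-- The trace pairing of two kernels, the second one twisted by `σ`. -/
theorem inner_adjK_substK (σ : X → X) (hσ : MeasurePreserving σ μ μ)
    (K₁ K₂ : Lp ℂ 2 (μ.prod μ)) :
    ⟪adjK K₁, substK σ hσ K₂⟫_ℂ = ∫ z, K₁ z * K₂ (z.2, σ z.1) ∂μ.prod μ := by
  rw [L2.inner_def, ← integral_prod_swap (fun z : X × X => K₁ z * K₂ (z.2, σ z.1))]
  refine integral_congr_ae ?_
  filter_upwards [coeFn_adjK K₁, coeFn_substK σ hσ K₂] with z h1 h2
  rw [RCLike.inner_apply, h1, h2, Complex.conj_conj, Prod.fst_swap, Prod.snd_swap]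
  exact mul_comm _ _

/-- The absolute value of a square-integrable function. -/
def absFn {Y : Type*} [MeasurableSpace Y] {ν : Measure Y} (v : Lp ℂ 2 ν) : Lp ℂ 2 ν :=
  ((Lp.memLp v).norm.ofReal (K := ℂ)).toLp _

theorem coeFn_absFn {Y : Type*} [MeasurableSpace Y] {ν : Measure Y} (v : Lp ℂ 2 ν) :
    absFn v =ᵐ[ν] fun y => ((‖v y‖ : ℝ) : ℂ) := MemLp.coeFn_toLp _

/-- The bilinear pairing through a composition of two kernel operators. -/
theorem inner_opK_comp (K₁ K₂ : Lp ℂ 2 (μ.prod μ)) (w v : Lp ℂ 2 μ) :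
    ⟪w, opK K₁ (opK K₂ v)⟫_ℂ =
      ∫ z : X × X, conj (w z.1) * v z.2 * (∫ y, K₁ (z.1, y) * K₂ (y, z.2) ∂μ) ∂μ.prod μ := by
  set F : (X × X) × X → ℂ :=
    fun p => conj (w p.1.1) * K₁ p.1 * (K₂ (p.1.2, p.2) * v p.2) with hF
  have hFm : AEStronglyMeasurable F ((μ.prod μ).prod μ) := by
    have m1 : AEStronglyMeasurable (fun p : (X × X) × X => conj (w p.1.1) * K₁ p.1)
        ((μ.prod μ).prod μ) :=
      ((Complex.continuous_conj.comp_aestronglyMeasurable
        (Lp.aestronglyMeasurable w).comp_fst).mul (Lp.aestronglyMeasurable K₁)).comp_fst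
    have m2 : AEStronglyMeasurable (fun p : (X × X) × X => K₂ (p.1.2, p.2))
        ((μ.prod μ).prod μ) :=
      (Lp.aestronglyMeasurable K₂).comp_quasiMeasurePreserving
        (f := fun p : (X × X) × X => (p.1.2, p.2))
        (Measure.quasiMeasurePreserving_snd.comp
          (measurePreserving_prodAssoc μ μ μ).quasiMeasurePreserving)
    exact m1.mul (m2.mul (Lp.aestronglyMeasurable v).comp_snd)
  have hsec : ∀ᵐ y ∂μ, Integrable (fun z => K₂ (y, z) * v z) μ := by
    have h1 := ((memLp_two_iff_integrable_sq_norm (Lp.aestronglyMeasurable K₂)).mp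
      (Lp.memLp K₂)).prod_right_ae
    filter_upwards [h1, (Lp.aestronglyMeasurable K₂).prodMk_left] with y hy hy'
    exact ((memLp_two_iff_integrable_sq_norm hy').mpr hy).integrable_mul (Lp.memLp v)
  have hFi : Integrable F ((μ.prod μ).prod μ) := by
    rw [integrable_prod_iff hFm]
    refine ⟨?_, ?_⟩
    · filter_upwards [Measure.quasiMeasurePreserving_snd.ae hsec] with p hp
      exact hp.const_mul (conj (w p.1) * K₁ p)
    · have hG : ∀ᵐ y ∂μ, opK (absFn K₂) (absFn v) y =
          ((∫ z, ‖K₂ (y, z) * v z‖ ∂μ : ℝ) : ℂ) := by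
        filter_upwards [coeFn_opK (absFn K₂) (absFn v),
          Measure.ae_ae_of_ae_prod (coeFn_absFn K₂)] with y h1 h2
        rw [h1, ← integral_complex_ofReal]
        refine integral_congr_ae ?_
        filter_upwards [h2, coeFn_absFn v] with z h3 h4
        rw [h3, h4]; simp
      refine ((integrable_tens_mul (absFn w) (opK (absFn K₂) (absFn v)) (absFn K₁)).norm).congr ?_
      filter_upwards [Measure.quasiMeasurePreserving_fst.ae (coeFn_absFn w),
        Measure.quasiMeasurePreserving_snd.ae hG, coeFn_absFn K₁] with p h1 h2 h3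
      rw [h1, h2, h3]
      simp only [hF, norm_mul, RCLike.norm_conj, Complex.norm_real, norm_norm,
        Real.norm_of_nonneg (integral_nonneg fun z => mul_nonneg (norm_nonneg _) (norm_nonneg _))]
      rw [mul_right_comm, ← integral_const_mul]
  have hassoc := measurePreserving_prodAssoc μ μ μ
  have hFi' : Integrable (F ∘ MeasurableEquiv.prodAssoc.symm) (μ.prod (μ.prod μ)) :=
    hassoc.symm.integrable_comp_emb MeasurableEquiv.prodAssoc.symm.measurableEmbedding |>.mpr hFi
  calc ⟪w, opK K₁ (opK K₂ v)⟫_ℂ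
      = ∫ p : X × X, conj (w p.1) * opK K₂ v p.2 * K₁ p ∂μ.prod μ := by
        rw [inner_opK, inner_tens_eq_integral]
    _ = ∫ p : X × X, ∫ z, F (p, z) ∂μ ∂μ.prod μ := by
        refine integral_congr_ae ?_
        filter_upwards [Measure.quasiMeasurePreserving_snd.ae_eq (coeFn_opK K₂ v)] with p hp
        simp only [Function.comp_apply] at hp
        rw [hp]
        simp only [hF]
        rw [integral_const_mul]
        ring
    _ = ∫ x, ∫ y, ∫ z, F ((x, y), z) ∂μ ∂μ ∂μ := integral_prod _ hFi.integral_prod_left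
    _ = ∫ x, ∫ z, ∫ y, F ((x, y), z) ∂μ ∂μ ∂μ := by
        refine integral_congr_ae ?_
        filter_upwards [hFi'.prod_right_ae] with x hx
        exact integral_integral_swap (f := fun y z => F ((x, y), z)) hx
    _ = _ := by
        have e : ∀ x z, ∫ y, F ((x, y), z) ∂μ =
            conj (w x) * v z * ∫ y, K₁ (x, y) * K₂ (y, z) ∂μ := by
          intro x z
          rw [← integral_const_mul]
          exact integral_congr_ae (Eventually.of_forall fun y => by simp only [hF]; ring)
        simp only [e]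
        refine (integral_prod (fun z : X × X =>
          conj (w z.1) * v z.2 * ∫ y, K₁ (z.1, y) * K₂ (y, z.2) ∂μ) ?_).symm
        have h1 : Integrable (fun q : X × (X × X) => F ((q.1, q.2.1), q.2.2))
            (μ.prod (μ.prod μ)) := hFi'
        have hs := (MeasurePreserving.id μ).prod
          (Measure.measurePreserving_swap (μ := μ) (ν := μ))
        have h2 : Integrable (fun q : X × (X × X) => F ((q.1, q.2.2), q.2.1))
            (μ.prod (μ.prod μ)) :=
          (hs.integrable_comp h1.aestronglyMeasurable).mpr h1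
        have h3 : Integrable (fun q : (X × X) × X => F ((q.1.1, q.2), q.1.2))
            ((μ.prod μ).prod μ) :=
          (hassoc.integrable_comp h2.aestronglyMeasurable).mpr h2
        exact h3.integral_prod_left.congr (Eventually.of_forall fun p => e p.1 p.2)

/-- Two kernel operators commute when their composed kernels agree. -/
theorem opK_commute {K₁ K₂ : Lp ℂ 2 (μ.prod μ)}
    (h : ∀ᵐ z : X × X ∂μ.prod μ, ∫ y, K₁ (z.1, y) * K₂ (y, z.2) ∂μ =
      ∫ y, K₂ (z.1, y) * K₁ (y, z.2) ∂μ) :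
    Commute (opK K₁) (opK K₂) :=
  ContinuousLinearMap.ext fun v => ext_inner_left ℂ fun w => by
    rw [mul_apply_eq_comp, mul_apply_eq_comp, inner_opK_comp,
      inner_opK_comp]
    refine integral_congr_ae ?_
    filter_upwards [h] with z hz
    rw [hz]

end Fermat.Agent.ResidualThree.Kernel
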