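import Fermat.Agent.ResidualThree.Kernel.Conv
import Fermat.Agent.ResidualThree.Kernel.CuspBound
import Fermat.Agent.ResidualThree.Kernel.Integral

/-!
# Automorphic kernels as Hilbert–Schmidt operators

A test function which kills constants has a square integrable automorphic kernel on the quotient;
adjoints, commutation and the trace pairing of these kernels.
-/

noncomputable section

open IsDedekindDomain NumberField MeasureTheory Filter Topology
open scoped ENNReal NNReal ComplexConjugate

namespace Fermat.Agent.ResidualThree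

variable {F : Type} [Field F] [NumberField F] {U : Level F}

namespace TestMonomial

theorem exists_l1_bound (f : TestMonomial U) :
    ∃ C : ℝ≥0∞, C ≠ ⊤ ∧ ∀ s : Spc U, ∫⁻ t, ‖f.kernel s t‖ₑ ∂volSpc U ≤ C := by
  have hsum : ∑' y : Ωf U, ‖f.fin y.out‖ₑ ≠ ⊤ := by
    rw [tsum_eq_sum (s := f.finite_support.toFinset) fun y hy => by
      rw [Set.Finite.mem_toFinset, Set.mem_ofPred_eq, not_not] at hy
      rw [hy, enorm_zero]]
    exact (ENNReal.sum_lt_top.mpr fun y _ => enorm_lt_top).ne
  refine ⟨(∑' y : Ωf U, ‖f.fin y.out‖ₑ) *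
      ENNReal.ofReal (∏ w, ∫ q, ‖f.arch w (H3.coshDist q H3.base)‖ ∂H3.vol),
    ENNReal.mul_ne_top hsum ENNReal.ofReal_ne_top, fun s => ?_⟩
  set A : Ωf U → ℝ≥0∞ := fun ξ => ‖f.fin (s.1.out⁻¹ * ξ.out)‖ₑ with hA
  set B : Hyp F → ℂ := fun p => ∏ w, f.arch w (H3.coshDist (s.2 w) (p w)) with hB
  have hBi : Integrable B (Measure.pi fun _ : InfinitePlace F => H3.vol) := by
    refine Integrable.fintype_prod (f := fun w q => f.arch w (H3.coshDist (s.2 w) q)) fun w => ?_
    refine (f.integrable_arch w (s.2 w)).congr (Eventually.of_forall fun q => ?_)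
    simp only
    rw [H3.coshDist_comm]
  have e : ∀ t : Spc U, ‖f.kernel s t‖ₑ = A t.1 * ‖B t.2‖ₑ := fun t => enorm_mul _ _
  rw [lintegral_congr e, volSpc,
    lintegral_prod_mul (measurable_of_countable A).aemeasurable hBi.aestronglyMeasurable.enorm]
  refine mul_le_mul' (le_of_eq ?_) (le_of_eq ?_)
  · rw [lintegral_count, ← (MulAction.toPerm s.1.out : Equiv.Perm (Ωf U)).tsum_eq]
    refine tsum_congr fun y => ?_
    have e2 : (MulAction.toPerm s.1.out : Equiv.Perm (Ωf U)) y =
        ((s.1.out * y.out : Gf F) : Ωf U) := by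
      conv_lhs => rw [← QuotientGroup.out_eq' y]
      rfl
    obtain ⟨j, hj⟩ := QuotientGroup.mk_out_eq_mul U.group (s.1.out * y.out)
    have h := f.biinvariant 1 j y.out (one_mem _) j.2
    rw [one_mul] at h
    rw [e2, hA]
    simp only
    rw [hj, show s.1.out⁻¹ * (s.1.out * y.out * (j : Gf F)) = y.out * j by group, h]
  · rw [← ofReal_integral_norm_eq_lintegral_enorm hBi]
    congr 1
    simp only [hB, norm_prod]
    rw [integral_fintype_prod_eq_prod (μ := fun _ : InfinitePlace F => H3.vol)
      (fun w q => ‖f.arch w (H3.coshDist (s.2 w) q)‖)]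
    refine Finset.prod_congr rfl fun w _ => ?_
    rw [← f.integral_norm_arch_coshDist w (s.2 w)]
    exact integral_congr_ae (Eventually.of_forall fun q => by simp only [H3.coshDist_comm])

end TestMonomial

theorem exists_l1_bound (f : TestFun U) :
    ∃ C : ℝ≥0∞, C ≠ ⊤ ∧ ∀ s : Spc U, ∫⁻ t, ‖kernel f s t‖ₑ ∂volSpc U ≤ C := by
  induction f with
  | nil => exact ⟨0, ENNReal.zero_ne_top, fun s => by simp [kernel_nil]⟩
  | cons a f ih =>
    obtain ⟨C, hC, hC'⟩ := a.exists_l1_bound
    obtain ⟨D, hD, hD'⟩ := ih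
    refine ⟨C + D, ENNReal.add_ne_top.mpr ⟨hC, hD⟩, fun s => ?_⟩
    have hm : Measurable fun t => ‖a.kernel s t‖ₑ :=
      (Measurable.comp (g := fun z : Spc U × Spc U => a.kernel z.1 z.2)
        (f := fun t : Spc U => (s, t)) a.measurable_kernel
        (measurable_const.prodMk measurable_id)).enorm
    refine le_trans (lintegral_mono (g := fun t => ‖a.kernel s t‖ₑ + ‖kernel f s t‖ₑ)
      fun t => ?_) ?_
    · rw [kernel_cons]; exact enorm_add_le _ _
    · rw [lintegral_add_left hm]; exact add_le_add (hC' s) (hD' s)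

namespace Kernel

/-- Unfolding of nonnegative functions. -/
theorem lintegral_unfold (W : QuotientWeight U) {h : Spc U → ℝ≥0∞} (hm : Measurable h) :
    ∫⁻ s, ∑' γ : PGLF F, h (γ • s) ∂qMeas W = ∫⁻ s, h s ∂volSpc U := by
  have hw : Measurable fun s => (W.w s : ℝ≥0∞) :=
    measurable_coe_nnreal_ennreal.comp W.measurable
  have hterm : ∀ γ : PGLF F, Measurable fun s => (W.w s : ℝ≥0∞) * h (γ • s) := fun γ =>
    hw.mul (hm.comp (measurable_const_smul γ))
  rw [lintegral_qMeas W (f := fun s => ∑' γ : PGLF F, h (γ • s))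
    (Measurable.tsum fun γ => hm.comp (measurable_const_smul γ))]
  simp_rw [← ENNReal.tsum_mul_left]
  rw [lintegral_tsum fun γ => (hterm γ).aemeasurable]
  have hmove : ∀ γ : PGLF F, ∫⁻ s, (W.w s : ℝ≥0∞) * h (γ • s) ∂volSpc U =
      ∫⁻ s, (W.w (γ⁻¹ • s) : ℝ≥0∞) * h s ∂volSpc U := fun γ => by
    rw [← Orbital.lintegral_comp_smul γ⁻¹ _ (hterm γ)]
    exact lintegral_congr fun s => by rw [smul_inv_smul]
  rw [tsum_congr hmove, ← lintegral_tsum fun γ =>
    Measurable.aemeasurable (f := fun s => (W.w (γ⁻¹ • s) : ℝ≥0∞) * h s)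
      ((hw.comp (measurable_const_smul γ⁻¹)).mul hm)]
  refine lintegral_congr_ae (W.sum_eq.mono fun s hs => ?_)
  simp only
  rw [ENNReal.tsum_mul_right, ← (Equiv.inv (PGLF F)).tsum_eq]
  simp [hs]

variable [IsTotallyComplex F]

omit [IsTotallyComplex F] in
/-- The majorant of the kernel is integrable on Siegel sets. -/
theorem lintegral_siegel_pow_ne_top {X : Set (Ωf U)} (hX : X.Finite) {c : ℝ} (hc : 0 < c)
    (A R : ℝ) (w₀ : InfinitePlace F) :
    ∫⁻ s in siegelSet U X c A R,
      ENNReal.ofReal ((s.2 w₀).y ^ (2 * Fintype.card (InfinitePlace F) - 1)) ∂volSpc U ≠ ⊤ := by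
  classical
  set r := Fintype.card (InfinitePlace F) with hr
  set a : ℝ := 2 - (r : ℝ)⁻¹ with ha
  have hr1 : (1 : ℝ) ≤ r := by
    exact_mod_cast Nat.one_le_iff_ne_zero.mpr Fintype.card_ne_zero
  have ha0 : 0 ≤ a := by
    have := inv_le_one_of_one_le₀ hr1
    linarith
  have ha2 : a - 3 < -1 := by
    have : (0 : ℝ) < (r : ℝ)⁻¹ := by positivity
    linarith
  have har : a * r = ((2 * r - 1 : ℕ) : ℝ) := by
    rw [Nat.cast_sub (by
      have := Fintype.card_pos (α := InfinitePlace F)
      omega), Nat.cast_mul, Nat.cast_ofNat, Nat.cast_one, ha, sub_mul,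
      inv_mul_cancel₀ (by positivity)]
  -- the majorant on each coordinate
  set g : ℂ × ℝ → ℝ := (Metric.closedBall (0 : ℂ) R ×ˢ Set.Ici c).indicator
    fun q => (|A| * q.2) ^ a with hg
  have hgint : Integrable (fun q : H3 => g (H3.toPair q)) H3.vol := by
    have hm : Measurable g :=
      (Measurable.pow_const (measurable_const.mul measurable_snd) a).indicator
      (measurableSet_closedBall.prod measurableSet_Ici)
    refine ⟨(hm.comp H3.measurableEmbedding_toPair.measurable).aestronglyMeasurable, ?_⟩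
    rw [hasFiniteIntegral_iff_enorm, H3.lintegral_vol (fun q => ‖g q‖ₑ)]
    have hint : IntegrableOn (fun y : ℝ => |A| ^ a * y ^ (a - 3)) (Set.Ici c) :=
      ((integrableOn_Ici_iff_integrableOn_Ioi).mpr (integrableOn_Ioi_rpow_of_lt ha2 hc)).const_mul _
    set D : ℝ → ℝ≥0∞ := fun y => ‖|A| ^ a * y ^ (a - 3)‖ₑ with hD
    refine lt_of_le_of_lt ((setLIntegral_le_lintegral _ _).trans (lintegral_mono
      (g := (Metric.closedBall (0 : ℂ) R ×ˢ Set.Ici c).indicator fun q => D q.2) fun q => ?_)) ?_
    · by_cases hq : q ∈ Metric.closedBall (0 : ℂ) R ×ˢ Set.Ici c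
      · simp only [hg, hD, Set.indicator_of_mem hq]
        have hy : 0 < q.2 := hc.trans_le hq.2
        rw [H3.volDensity, ← Real.enorm_of_nonneg (inv_nonneg.mpr (pow_nonneg hy.le 3)),
          ← enorm_mul]
        refine le_of_eq (congrArg (fun x : ℝ => ‖x‖ₑ) ?_)
        have e : q.2 ^ (a - 3) = q.2 ^ a / q.2 ^ (3 : ℕ) := by
          rw [← Real.rpow_natCast q.2 3, ← Real.rpow_sub hy]; norm_num
        rw [Real.mul_rpow (abs_nonneg A) hy.le, e]
        ring
      · simp [hg, Set.indicator_of_notMem hq]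
    · rw [lintegral_indicator (measurableSet_closedBall.prod measurableSet_Ici),
        Measure.volume_eq_prod, ← Measure.prod_restrict]
      have hDm : Measurable D :=
        (measurable_const.mul (Measurable.pow_const measurable_id _)).enorm
      rw [lintegral_prod (fun q : ℂ × ℝ => D q.2) (hDm.comp measurable_snd).aemeasurable]
      simp only [lintegral_const, Measure.restrict_apply_univ]
      exact ENNReal.mul_lt_top hint.2 measure_closedBall_lt_top
  set gg : Spc U → ℝ := fun s =>
    X.indicator 1 s.1 * ∏ w, g (H3.toPair (s.2 w)) with hgg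
  have hggi : Integrable gg (volSpc U) := by
    rw [volSpc]
    refine Integrable.mul_prod (f := X.indicator (1 : Ωf U → ℝ))
      (g := fun p : Hyp F => ∏ w, g (H3.toPair (p w))) ?_
      (Integrable.fintype_prod (f := fun _ q => g (H3.toPair q)) fun _ => hgint)
    rw [integrable_indicator_iff (by trivial : MeasurableSet X)]
    exact integrableOn_const (Measure.count_apply_lt_top.mpr hX).ne
  refine ne_top_of_le_ne_top hggi.2.ne ?_
  rw [← lintegral_indicator (measurableSet_siegelSet U X c A R)]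
  refine lintegral_mono fun s => ?_
  by_cases hs : s ∈ siegelSet U X c A R
  · rw [Set.indicator_of_mem hs, hgg]
    simp only
    rw [Set.indicator_of_mem hs.1, Pi.one_apply, one_mul]
    have hy0 : 0 < (s.2 w₀).y := (s.2 w₀).y_pos
    have hgw : ∀ w, g (H3.toPair (s.2 w)) = (|A| * (s.2 w).y) ^ a := fun w => by
      rw [hg]
      refine Set.indicator_of_mem (s := Metric.closedBall (0 : ℂ) R ×ˢ Set.Ici c)
        (f := fun q : ℂ × ℝ => (|A| * q.2) ^ a) ?_
      exact ⟨mem_closedBall_zero_iff.mpr (hs.2 w).1, (hs.2 w).2.1⟩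
    simp only [hgw]
    rw [← Real.enorm_of_nonneg (pow_nonneg hy0.le _), enorm_le_iff_norm_le,
      Real.norm_of_nonneg (pow_nonneg hy0.le _),
      Real.norm_of_nonneg (Finset.prod_nonneg fun w _ =>
        Real.rpow_nonneg (mul_nonneg (abs_nonneg A) (s.2 w).y_pos.le) a)]
    calc (s.2 w₀).y ^ (2 * r - 1) = ∏ _w : InfinitePlace F, (s.2 w₀).y ^ a := by
          rw [Finset.prod_const, Finset.card_univ, ← hr, ← Real.rpow_natCast ((s.2 w₀).y ^ a),
            ← Real.rpow_mul hy0.le, har, Real.rpow_natCast]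
      _ ≤ ∏ w, (|A| * (s.2 w).y) ^ a := Finset.prod_le_prod
          (fun _ _ => Real.rpow_nonneg hy0.le a) fun w _ => Real.rpow_le_rpow hy0.le
            (((hs.2 w₀).2.2 w).trans
              (mul_le_mul_of_nonneg_right (le_abs_self A) (s.2 w).y_pos.le)) ha0
  · rw [Set.indicator_of_notMem hs]; exact zero_le

omit [IsTotallyComplex F] in
theorem lintegral_autKernel_le (W : QuotientWeight U) (f : TestFun U) {C : ℝ≥0∞}
    (hC : ∀ s, ∫⁻ t, ‖kernel f s t‖ₑ ∂volSpc U ≤ C) (s : Spc U) :
    ∫⁻ t, ‖autKernel f s t‖ₑ ∂qMeas W ≤ C := by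
  refine le_trans (lintegral_mono fun t => enorm_tsum_le_tsum_enorm) ?_
  rw [lintegral_unfold W (h := fun t => ‖kernel f s t‖ₑ) (measurable_kernel_right f s).enorm]
  exact hC s

/-- The kernel grows strictly slower than the volume of the box of translations. -/
def HasCuspBound (f : TestFun U) : Prop :=
  ∀ (X : Set (Ωf U)) (c A R : ℝ), X.Finite → 0 < c → ∃ C : ℝ, 0 ≤ C ∧
    ∀ s ∈ siegelSet U X c A R, ∀ (t : Spc U) (w₀ : InfinitePlace F),
      ‖autKernel f s t‖ ≤ C * (s.2 w₀).y ^ (2 * Fintype.card (InfinitePlace F) - 1)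

theorem hasCuspBound_of_killsConstant {f : TestFun U} (hf : KillsConstant f) : HasCuspBound f :=
  fun _ _ A R hX hc => exists_cusp_bound f hf hX hc A R

/-- Square integrability of the automorphic kernel. -/
theorem memLp_of_hasCuspBound (W : QuotientWeight U) (f : TestFun U) (hf : HasCuspBound f) :
    MemLp (fun z : Spc U × Spc U => autKernel f z.1 z.2) 2 ((qMeas W).prod (qMeas W)) := by
  have hm := measurable_autKernel f
  refine (memLp_two_iff_integrable_sq_norm hm.aestronglyMeasurable).mpr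
    ⟨(hm.norm.pow_const 2).aestronglyMeasurable, ?_⟩
  obtain ⟨C₁, hC₁, hl1⟩ := exists_l1_bound f
  obtain ⟨W₀, X, c, A, R, hX, hc, -, hzero, hone, -⟩ := exists_quotientWeight U
  obtain ⟨w₀⟩ := (inferInstance : Nonempty (InfinitePlace F))
  obtain ⟨C₂, hC₂0, hC₂⟩ := hf X c A R hX hc
  set k := 2 * Fintype.card (InfinitePlace F) - 1
  set h : Spc U × Spc U → ℝ≥0∞ := fun z => ‖autKernel f z.1 z.2‖ₑ * ‖autKernel f z.1 z.2‖ₑ with hh
  have hhm : Measurable h := hm.enorm.mul hm.enorm
  have heq : ∀ z : Spc U × Spc U, ‖‖autKernel f z.1 z.2‖ ^ 2‖ₑ = h z := fun z => by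
    rw [hh, enorm_pow, enorm_norm, sq]
  rw [hasFiniteIntegral_iff_enorm, lintegral_congr heq, lintegral_prod _ hhm.aemeasurable]
  set I : Spc U → ℝ≥0∞ := fun s => ∫⁻ t, h (s, t) ∂qMeas W with hI
  have hIm : Measurable I := hhm.lintegral_prod_right'
  have hIinv : ∀ (γ : PGLF F) s, I (γ • s) = I s := fun γ s => by
    simp only [hI, hh, autKernel_smul_left]
  show ∫⁻ s, I s ∂qMeas W < ⊤
  rw [lintegral_qMeas_congr W W₀ hIm hIinv, lintegral_qMeas W₀ hIm]
  have hle : ∀ s, (W₀.w s : ℝ≥0∞) * I s ≤ (siegelSet U X c A R).indicator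
      (fun s => ENNReal.ofReal C₂ * ENNReal.ofReal ((s.2 w₀).y ^ k) * C₁) s := by
    intro s
    by_cases hs : s ∈ siegelSet U X c A R
    · rw [Set.indicator_of_mem hs]
      refine le_trans (mul_le_mul' (ENNReal.coe_le_one_iff.mpr (hone s)) le_rfl) ?_
      rw [one_mul, hI]
      simp only [hh]
      refine le_trans (lintegral_mono (g := fun t => ENNReal.ofReal C₂ *
        ENNReal.ofReal ((s.2 w₀).y ^ k) * ‖autKernel f s t‖ₑ) fun t => mul_le_mul' ?_ le_rfl) ?_
      · rw [← ENNReal.ofReal_mul hC₂0, ← ofReal_norm]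
        exact ENNReal.ofReal_le_ofReal (hC₂ s hs t w₀)
      · rw [lintegral_const_mul _ (measurable_autKernel_right f s).enorm]
        exact mul_le_mul' le_rfl (lintegral_autKernel_le W f hl1 s)
    · simp [hzero s hs]
  refine (lintegral_mono hle).trans_lt ?_
  rw [lintegral_indicator (measurableSet_siegelSet U X c A R),
    lintegral_mul_const' _ _ hC₁, lintegral_const_mul' _ _ ENNReal.ofReal_ne_top]
  exact ENNReal.mul_lt_top (ENNReal.mul_lt_top ENNReal.ofReal_lt_top
    (lintegral_siegel_pow_ne_top hX hc A R w₀).lt_top) hC₁.lt_top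

theorem memLp_comp_swap {Y : Type*} [MeasurableSpace Y] {ν : Measure Y} [SFinite ν]
    {K : Y × Y → ℂ} (h : MemLp K 2 (ν.prod ν)) :
    MemLp (fun z : Y × Y => K (z.2, z.1)) 2 (ν.prod ν) :=
  h.comp_measurePreserving Measure.measurePreserving_swap

theorem integral_pair_fubini {Y : Type*} [MeasurableSpace Y] {ν : Measure Y} [SFinite ν]
    {K K' : Y × Y → ℂ} (h : MemLp K 2 (ν.prod ν)) (h' : MemLp K' 2 (ν.prod ν)) {σ : Y → Y}
    (hσ : MeasurePreserving σ ν ν) :
    ∫ z, K z * K' (z.2, σ z.1) ∂ν.prod ν = ∫ s, ∫ y, K (s, y) * K' (y, σ s) ∂ν ∂ν := by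
  have hQ : MeasurePreserving (fun z : Y × Y => (z.2, σ z.1)) (ν.prod ν) (ν.prod ν) :=
    ((MeasurePreserving.id ν).prod hσ).comp Measure.measurePreserving_swap
  exact integral_prod _ (h.integrable_mul (h'.comp_measurePreserving hQ))

theorem memLp_autKernel (W : QuotientWeight U) (f : TestFun U) (hf : KillsConstant f) :
    MemLp (fun z : Spc U × Spc U => autKernel f z.1 z.2) 2 ((qMeas W).prod (qMeas W)) :=
  memLp_of_hasCuspBound W f (hasCuspBound_of_killsConstant hf)

/-- A test function with a square integrable kernel, as an element of `L²`. -/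
def IsHS (W : QuotientWeight U) (f : TestFun U) : Prop :=
  MemLp (fun z : Spc U × Spc U => autKernel f z.1 z.2) 2 ((qMeas W).prod (qMeas W))

omit [IsTotallyComplex F] in
theorem IsHS.adjFun {W : QuotientWeight U} {f : TestFun U} (h : IsHS W f) :
    IsHS W (ResidualThree.adjFun f) := by
  have h1 : MemLp (fun z : Spc U × Spc U => autKernel f z.2 z.1) 2 ((qMeas W).prod (qMeas W)) :=
    memLp_comp_swap (K := fun z : Spc U × Spc U => autKernel f z.1 z.2) h
  refine h1.star.congr_norm (measurable_autKernel _).aestronglyMeasurable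
    (Eventually.of_forall fun z => ?_)
  rw [autKernel_adjFun]
  rfl

/-- The kernel in `L²`. -/
def kerL2 {W : QuotientWeight U} {f : TestFun U} (h : IsHS W f) :
    Lp ℂ 2 ((qMeas W).prod (qMeas W)) :=
  MemLp.toLp _ h

omit [IsTotallyComplex F] in
theorem coeFn_kerL2 {W : QuotientWeight U} {f : TestFun U} (h : IsHS W f) :
    kerL2 h =ᵐ[(qMeas W).prod (qMeas W)] fun z => autKernel f z.1 z.2 := MemLp.coeFn_toLp _

omit [IsTotallyComplex F] in
theorem adjK_kerL2 {W : QuotientWeight U} {f : TestFun U} (h : IsHS W f) :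
    adjK (kerL2 h) = kerL2 h.adjFun := by
  refine Lp.ext ?_
  filter_upwards [coeFn_adjK (kerL2 h), coeFn_kerL2 h.adjFun,
    Measure.measurePreserving_swap.quasiMeasurePreserving.ae_eq (coeFn_kerL2 h)] with z h1 h2 h3
  simp only [Function.comp_apply] at h3
  rw [h1, h2, h3, autKernel_adjFun]
  rfl

omit [IsTotallyComplex F] in
/-- The operator of a kernel. -/
theorem coeFn_opK_kerL2 {W : QuotientWeight U} {f : TestFun U} (h : IsHS W f)
    (v : Lp ℂ 2 (qMeas W)) :
    opK (kerL2 h) v =ᵐ[qMeas W] fun s => ∫ t, autKernel f s t * v t ∂qMeas W := by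
  filter_upwards [coeFn_opK (kerL2 h) v, Measure.ae_ae_of_ae_prod (coeFn_kerL2 h)] with s h1 h2
  rw [h1]
  refine integral_congr_ae ?_
  filter_upwards [h2] with t ht
  rw [ht]

/-- The pointwise composition of two kernels. -/
theorem integral_kerL2_comp {W : QuotientWeight U} {f g : TestFun U} (hf : IsHS W f)
    (hg : IsHS W g) :
    ∀ᵐ z : Spc U × Spc U ∂(qMeas W).prod (qMeas W),
      ∫ y, kerL2 hf (z.1, y) * kerL2 hg (y, z.2) ∂qMeas W = autKernel (convFun f g) z.1 z.2 := by
  have h1 := Measure.ae_ae_of_ae_prod (coeFn_kerL2 hf)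
  have h2 : ∀ᵐ t ∂qMeas W, ∀ᵐ y ∂qMeas W, kerL2 hg (y, t) = autKernel g y t :=
    Measure.ae_ae_of_ae_prod (Measure.measurePreserving_swap.quasiMeasurePreserving.ae
      (coeFn_kerL2 hg))
  filter_upwards [Measure.quasiMeasurePreserving_fst.ae h1,
    Measure.quasiMeasurePreserving_snd.ae h2] with z ha hb
  rw [← autKernel_convFun W f g z.1 z.2]
  refine integral_congr_ae ?_
  filter_upwards [ha, hb] with y e1 e2
  rw [e1, e2]

/-- Commuting compositions give commuting operators. -/
theorem commute_opK_kerL2 {W : QuotientWeight U} {f g : TestFun U} (hf : IsHS W f) (hg : IsHS W g)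
    (h : ∀ s t, autKernel (convFun f g) s t = autKernel (convFun g f) s t) :
    Commute (opK (kerL2 hf)) (opK (kerL2 hg)) := by
  refine opK_commute ?_
  filter_upwards [integral_kerL2_comp hf hg, integral_kerL2_comp hg hf] with z h1 h2
  rw [h1, h2, h]

/-- The trace pairing is the integral of the composed kernel on the twisted diagonal. -/
theorem integral_kerL2_pair {W : QuotientWeight U} {f g : TestFun U} (hf : IsHS W f) (hg : IsHS W g)
    (σ : Spc U → Spc U) (hσ : MeasurePreserving σ (qMeas W) (qMeas W)) :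
    ∫ z, kerL2 hf z * kerL2 hg (z.2, σ z.1) ∂(qMeas W).prod (qMeas W) =
      ∫ s, autKernel (convFun f g) s (σ s) ∂qMeas W := by
  have hQ : MeasurePreserving (fun z : Spc U × Spc U => (z.2, σ z.1))
      ((qMeas W).prod (qMeas W)) ((qMeas W).prod (qMeas W)) :=
    ((MeasurePreserving.id (qMeas W)).prod hσ).comp Measure.measurePreserving_swap
  have e : (fun z => kerL2 hf z * kerL2 hg (z.2, σ z.1)) =ᵐ[(qMeas W).prod (qMeas W)]
      fun z => autKernel f z.1 z.2 * autKernel g z.2 (σ z.1) := by
    filter_upwards [coeFn_kerL2 hf, hQ.quasiMeasurePreserving.ae_eq (coeFn_kerL2 hg)] with z h1 h2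
    simp only [Function.comp_apply] at h2
    rw [h1, h2]
  rw [integral_congr_ae e]
  refine (integral_pair_fubini (K := fun z : Spc U × Spc U => autKernel f z.1 z.2)
    (K' := fun z : Spc U × Spc U => autKernel g z.1 z.2) hf hg hσ).trans ?_
  exact integral_congr_ae (Eventually.of_forall fun s => autKernel_convFun W f g s (σ s))

end Kernel

/-- Commutation of the finite parts gives commutation of the compositions. -/
theorem kernel_convFun_comm (f g : TestFun U)
    (h : ∀ a ∈ f, ∀ b ∈ g, ∀ x, TestMonomial.convFin a b x = TestMonomial.convFin b a x)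
    (s t : Spc U) : kernel (convFun f g) s t = kernel (convFun g f) s t := by
  induction f with
  | nil =>
    have : convFun g ([] : TestFun U) = [] := by simp [convFun]
    rw [this]
    rfl
  | cons a f ih =>
    have hleft : kernel (convFun (a :: f) g) s t =
        kernel (g.map a.conv) s t + kernel (convFun f g) s t := by
      rw [convFun, List.flatMap_cons, kernel_append]; rfl
    have hright : ∀ g : TestFun U, kernel (convFun g (a :: f)) s t =
        kernel (g.map fun b => b.conv a) s t + kernel (convFun g f) s t := by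
      intro g
      induction g with
      | nil => simp [convFun, kernel_nil]
      | cons b g ihg =>
        rw [convFun, List.flatMap_cons, kernel_append, ← convFun, ihg, List.map_cons, kernel_cons,
          List.map_cons, kernel_cons, convFun, convFun, List.flatMap_cons, kernel_append]
        ring
    rw [hleft, hright, ih fun x hx => h x (List.mem_cons_of_mem a hx)]
    congr 1
    clear hleft hright ih
    induction g with
    | nil => rfl
    | cons b g ihg =>
      rw [List.map_cons, List.map_cons, kernel_cons, kernel_cons,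
        ihg fun x hx y hy => h x hx y (List.mem_cons_of_mem b hy),
        a.kernel_conv_comm b (h a List.mem_cons_self b List.mem_cons_self)]

theorem autKernel_convFun_comm (f g : TestFun U)
    (h : ∀ a ∈ f, ∀ b ∈ g, ∀ x, TestMonomial.convFin a b x = TestMonomial.convFin b a x)
    (s t : Spc U) : autKernel (convFun f g) s t = autKernel (convFun g f) s t :=
  tsum_congr fun _ => kernel_convFun_comm f g h _ _

end Fermat.Agent.ResidualThree
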