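import Fermat.Agent.ResidualThree.Automorphic.Approx
import Fermat.Agent.ResidualThree.Orbital.Weight
import Fermat.Agent.ResidualThree.Spherical.LogCoord

/-!
# The quotient of the space of a level

Countability of the rational group, invariance of the measure, and the measure `qMeas` of the
quotient attached to a weight: integrals of invariant functions do not depend on the weight, and
the total mass is not zero.
-/

noncomputable section

open IsDedekindDomain NumberField MeasureTheory Filter
open scoped ENNReal NNReal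

namespace Fermat.Agent.ResidualThree.Kernel

variable {F : Type} [Field F] [NumberField F]

variable (F) in
theorem countable_numberField : Countable F :=
  (Module.finBasis ℚ F).equivFun.toEquiv.countable_iff.mpr inferInstance

instance countable_pglf : Countable (PGLF F) := by
  have := countable_numberField F
  have : Countable (Matrix (Fin 2) (Fin 2) F) := inferInstanceAs (Countable (Fin 2 → Fin 2 → F))
  have : Countable (GL (Fin 2) F) :=
    Function.Injective.countable (f := fun g : GL (Fin 2) F => (g : Matrix (Fin 2) (Fin 2) F))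
      fun _ _ h => Units.ext h
  exact Quotient.countable

instance countable_Ωf (U : Level F) : Countable (Ωf U) := by
  have := countable_numberField F
  have : Countable Fˣ := Function.Injective.countable (f := ((↑) : Fˣ → F)) Units.val_injective
  obtain ⟨X, hX, -, hXrep⟩ := exists_finite_reps_borel (F := F)
  have := hX.to_subtype
  let piece : (Fˣ × F) × X → Set (Ωf U) := fun p =>
    {ω | ∃ k ∈ kmax F, ((diag F (upGL p.1.1 1 p.1.2) * p.2.1 * k : Gf F) : Ωf U) = ω}
  have hc : (⋃ p, piece p).Countable :=
    Set.countable_iUnion fun p => (finite_kmax_orbit U _).countable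
  refine Set.countable_univ_iff.mp (hc.mono fun ω _ => ?_)
  induction ω using QuotientGroup.induction_on with
  | H x =>
    obtain ⟨l, s, r, k, hr, hk, hx⟩ := hXrep x
    exact Set.mem_iUnion.mpr ⟨((l, s), ⟨r, hr⟩), k, hk, congrArg QuotientGroup.mk hx.symm⟩

instance (U : Level F) : MeasurableSingletonClass (Ωf U) := ⟨fun _ => trivial⟩

instance sigmaFinite_volSpc (U : Level F) : SigmaFinite (volSpc U) := by
  rw [volSpc]; infer_instance

/-- The action of `GL₂(F)` preserves the measure of the infinite part. -/
theorem measurePreserving_gl_smul_hyp (g : GL (Fin 2) F) :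
    MeasurePreserving (fun p : Hyp F => g • p) (Measure.pi fun _ : InfinitePlace F => H3.vol)
      (Measure.pi fun _ : InfinitePlace F => H3.vol) :=
  measurePreserving_pi (fun _ : InfinitePlace F => H3.vol) (fun _ => H3.vol)
    fun w => H3.measurePreserving_smul (toComplex w g)

theorem measurePreserving_gl_smul (U : Level F) (g : GL (Fin 2) F) :
    MeasurePreserving (fun s : Spc U => g • s) (volSpc U) (volSpc U) := by
  have h1 : MeasurePreserving (fun x : Ωf U => g • x) Measure.count Measure.count :=
    ⟨measurable_from_top, Measure.ext fun t ht => by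
      rw [Measure.map_apply measurable_from_top ht, Measure.count_apply (measurable_from_top ht),
        Measure.count_apply ht]
      congr 1
      rw [show (fun x : Ωf U => g • x) ⁻¹' t = (fun x : Ωf U => g⁻¹ • x) '' t from ?_]
      · exact (MulAction.injective g⁻¹).encard_image t
      · ext x
        simp only [Set.mem_preimage, Set.mem_image]
        exact ⟨fun h => ⟨g • x, h, inv_smul_smul g x⟩, fun ⟨y, hy, e⟩ =>
          e ▸ by rwa [smul_inv_smul]⟩⟩
  exact h1.prod (measurePreserving_gl_smul_hyp g)

theorem pgl_smul_eq (U : Level F) (γ : PGLF F) (s : Spc U) : γ • s = γ.out • s := by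
  conv_lhs => rw [← QuotientGroup.out_eq' γ]
  rfl

theorem measurePreserving_pgl_smul (U : Level F) (γ : PGLF F) :
    MeasurePreserving (fun s : Spc U => γ • s) (volSpc U) (volSpc U) := by
  rw [show (fun s : Spc U => γ • s) = fun s => γ.out • s from funext fun s => pgl_smul_eq U γ s]
  exact measurePreserving_gl_smul U γ.out

instance (U : Level F) : MeasurableConstSMul (PGLF F) (Spc U) :=
  ⟨fun γ => (measurePreserving_pgl_smul U γ).measurable⟩

instance (U : Level F) : SMulInvariantMeasure (PGLF F) (Spc U) (volSpc U) :=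
  ⟨fun γ _ hs => (measurePreserving_pgl_smul U γ).measure_preimage hs.nullMeasurableSet⟩

variable {U : Level F}

/-- The measure of the quotient given by a weight. -/
def qMeas (W : QuotientWeight U) : Measure (Spc U) :=
  (volSpc U).withDensity fun s => (W.w s : ℝ≥0∞)

instance (W : QuotientWeight U) : SigmaFinite (qMeas W) :=
  SigmaFinite.withDensity fun _ => W.w _

theorem isWeight_weight (W : QuotientWeight U) (S : Set (Spc U)) :
    Orbital.IsWeight (volSpc U) (⊤ : Subgroup (PGLF F)) (fun s => (W.w s : ℝ≥0∞)) S := by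
  refine ⟨measurable_coe_nnreal_ennreal.comp W.measurable, W.sum_eq.mono fun s hs _ => ?_⟩
  rw [← hs]
  exact Subgroup.topEquiv.toEquiv.tsum_eq (fun γ : PGLF F => (W.w (γ • s) : ℝ≥0∞))

theorem lintegral_qMeas (W : QuotientWeight U) {f : Spc U → ℝ≥0∞} (hf : Measurable f) :
    ∫⁻ s, f s ∂qMeas W = ∫⁻ s, (W.w s : ℝ≥0∞) * f s ∂volSpc U :=
  lintegral_withDensity_eq_lintegral_mul _ (measurable_coe_nnreal_ennreal.comp W.measurable) hf

theorem integral_qMeas (W : QuotientWeight U) (f : Spc U → ℂ) :
    ∫ s, f s ∂qMeas W = ∫ s, ((W.w s : ℝ) : ℂ) * f s ∂volSpc U := by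
  rw [qMeas, integral_withDensity_eq_integral_smul W.measurable]
  exact integral_congr_ae (Eventually.of_forall fun s => by simp [NNReal.smul_def])

theorem lintegral_qMeas_congr (W W' : QuotientWeight U) {f : Spc U → ℝ≥0∞} (hf : Measurable f)
    (hinv : ∀ (γ : PGLF F) s, f (γ • s) = f s) :
    ∫⁻ s, f s ∂qMeas W = ∫⁻ s, f s ∂qMeas W' := by
  rw [lintegral_qMeas W hf, lintegral_qMeas W' hf]
  exact Orbital.lintegral_weight_congr hf (fun h s => hinv (h : PGLF F) s) (isWeight_weight W _)
    (isWeight_weight W' _)

theorem integrable_qMeas_congr (W W' : QuotientWeight U) {f : Spc U → ℂ} (hf : Measurable f)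
    (hinv : ∀ (γ : PGLF F) s, f (γ • s) = f s) :
    Integrable f (qMeas W) ↔ Integrable f (qMeas W') := by
  have h := lintegral_qMeas_congr W W' (f := fun s => ‖f s‖ₑ) hf.enorm fun γ s => by rw [hinv]
  simp only [Integrable, hasFiniteIntegral_iff_enorm, h]
  exact and_congr_left' (iff_of_true hf.aestronglyMeasurable hf.aestronglyMeasurable)

theorem integral_qMeas_congr (W W' : QuotientWeight U) {f : Spc U → ℂ} (hf : Measurable f)
    (hinv : ∀ (γ : PGLF F) s, f (γ • s) = f s) :
    ∫ s, f s ∂qMeas W = ∫ s, f s ∂qMeas W' := by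
  by_cases hi : Integrable f (qMeas W)
  · have hfin : ∫⁻ s, (W.w s : ℝ≥0∞) * ‖f s‖ₑ ∂volSpc U ≠ ∞ := by
      rw [← lintegral_qMeas W hf.enorm]; exact hi.2.ne
    have h := Orbital.integral_weight_congr hf (fun h s => hinv (h : PGLF F) s)
      (isWeight_weight W {s | f s ≠ 0}) (isWeight_weight W' {s | f s ≠ 0}) hfin
    simp only [ENNReal.coe_toReal] at h
    rw [integral_qMeas, integral_qMeas, h]
  · rw [integral_undef hi, integral_undef (mt (integrable_qMeas_congr W W' hf hinv).mpr hi)]

theorem qMeas_univ_congr (W W' : QuotientWeight U) :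
    qMeas W Set.univ = qMeas W' Set.univ := by
  have h := lintegral_qMeas_congr W W' (f := fun _ => 1) measurable_const fun _ _ => rfl
  rwa [lintegral_one, lintegral_one] at h

theorem h3_vol_univ_ne_zero : H3.vol Set.univ ≠ 0 := by
  intro h
  have h2 := (H3.lintegral_vol fun _ => 1).symm
  rw [lintegral_one, h] at h2
  have hm : Measurable fun q : ℂ × ℝ => H3.volDensity q * 1 :=
    H3.measurable_volDensity.mul measurable_const
  rw [setLIntegral_eq_zero_iff H3.measurableSet_upperSet hm] at h2
  have hpos : ∀ q ∈ H3.upperSet, H3.volDensity q * 1 ≠ 0 := fun q hq => by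
    have := H3.mem_upperSet.mp hq
    simp [H3.volDensity, this]
  have h3 : ∀ᵐ q : ℂ × ℝ, q ∉ H3.upperSet := h2.mono fun q hq hq' => hpos q hq' (hq hq')
  have h4 : volume H3.upperSet = 0 := by
    simpa [ae_iff] using h3
  exact (H3.isOpen_upperSet.measure_pos volume ⟨(0, 1), H3.mem_upperSet.mpr one_pos⟩).ne' h4

theorem qMeas_univ_ne_zero (W : QuotientWeight U) : qMeas W Set.univ ≠ 0 := by
  intro h0
  have hw : ∀ᵐ s ∂volSpc U, (W.w s : ℝ≥0∞) = 0 := by
    have h1 : ∫⁻ s, (W.w s : ℝ≥0∞) * 1 ∂volSpc U = 0 := by
      rw [← lintegral_qMeas W measurable_const, lintegral_one, h0]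
    exact (lintegral_eq_zero_iff
      (f := fun s => (W.w s : ℝ≥0∞)) (measurable_coe_nnreal_ennreal.comp W.measurable)).mp
      (by simpa using h1)
  have hall : ∀ᵐ s ∂volSpc U, ∀ γ : PGLF F, (W.w (γ • s) : ℝ≥0∞) = 0 :=
    ae_all_iff.mpr fun γ => (measurePreserving_pgl_smul U γ).quasiMeasurePreserving.ae hw
  have hfalse : ∀ᵐ s ∂volSpc U, False := by
    filter_upwards [hall, W.sum_eq] with s h1 h2
    simp [h1] at h2
  rw [eventually_false_iff_eq_bot, ae_eq_bot] at hfalse
  have hcount : (Measure.count : Measure (Ωf U)) ≠ 0 := fun h => by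
    have := congrArg (fun μ : Measure (Ωf U) => μ {((1 : Gf F) : Ωf U)}) h
    simp at this
  rw [volSpc, ← Measure.measure_univ_eq_zero, ← Set.univ_prod_univ, Measure.prod_prod,
    mul_eq_zero] at hfalse
  rcases hfalse with h | h
  · exact hcount (Measure.measure_univ_eq_zero.mp h)
  · rw [Measure.pi_univ, Finset.prod_eq_zero_iff] at h
    obtain ⟨w, -, hw⟩ := h
    exact h3_vol_univ_ne_zero hw

end Fermat.Agent.ResidualThree.Kernel
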