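import Fermat.Agent.ResidualThree.Automorphic.Levels
import Fermat.Agent.ResidualThree.Kernel.Quotient

/-!
# Translations between the spaces of two levels

Right multiplication by `g` maps the finite part of a finer level onto that of a coarser one with
finite fibres of constant cardinality.
-/

noncomputable section

open IsDedekindDomain NumberField MeasureTheory Filter
open scoped ENNReal NNReal

namespace Fermat.Agent.ResidualThree.Kernel

variable {F : Type} [Field F] [NumberField F]

/-- The translate by `g` of the level `U'` is inside `U`. -/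
def TransRel (U' U : Level F) (g : Gf F) : Prop := ∀ j ∈ U'.group, g⁻¹ * j * g ∈ U.group

theorem transRel_of_le {U' U : Level F} (h : ∀ v, U'.J v ≤ U.J v) : TransRel U' U 1 := by
  intro j hj v
  simpa using h v (hj v)

theorem transRel_conjBy (U : Level F) (g : Gf F) : TransRel (U.conjBy g) U g :=
  fun _ hj v => Level.conjBy_mem (hj v)

variable {U U' : Level F} {g : Gf F}

/-- Right multiplication by `g` on the finite parts. -/
def trΩ (h : TransRel U' U g) : Ωf U' → Ωf U :=
  Quotient.map' (· * g) fun a b hab => by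
    rw [QuotientGroup.leftRel_apply] at hab ⊢
    rw [show (a * g)⁻¹ * (b * g) = g⁻¹ * (a⁻¹ * b) * g by group]
    exact h _ hab

theorem trΩ_mk (h : TransRel U' U g) (x : Gf F) :
    trΩ h (x : Ωf U') = ((x * g : Gf F) : Ωf U) := rfl

/-- The classes of `k * a`, for `k` in the maximal compact subgroup, are finite. -/
theorem finite_left_kmax_orbit (U' : Level F) (a : Gf F) :
    {ω : Ωf U' | ∃ k ∈ kmax F, ((k * a : Gf F) : Ωf U') = ω}.Finite := by
  have hrel : TransRel (U'.conjBy a) U' a := transRel_conjBy U' a
  refine ((finite_kmax_orbit (U'.conjBy a) 1).image (trΩ hrel)).subset ?_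
  rintro ω ⟨k, hk, rfl⟩
  exact ⟨_, ⟨k, hk, rfl⟩, by rw [one_mul, trΩ_mk]⟩

theorem finite_fibre (h : TransRel U' U g) (ω : Ωf U) : {ξ : Ωf U' | trΩ h ξ = ω}.Finite := by
  induction ω using QuotientGroup.induction_on with
  | H y =>
    refine ((finite_left_kmax_orbit U' g⁻¹).image fun ξ : Ωf U' => y • ξ).subset ?_
    intro ξ hξ
    induction ξ using QuotientGroup.induction_on with
    | H x =>
      rw [Set.mem_ofPred_eq, trΩ_mk, QuotientGroup.eq] at hξ
      have hk : y⁻¹ * x * g ∈ kmax F := by
        have := inv_mem (U.group_le_kmax hξ)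
        rwa [show ((x * g)⁻¹ * y)⁻¹ = y⁻¹ * x * g by group] at this
      refine ⟨_, ⟨_, hk, rfl⟩, ?_⟩
      show ((y * (y⁻¹ * x * g * g⁻¹) : Gf F) : Ωf U') = _
      congr 1
      group

theorem ncard_fibre (h : TransRel U' U g) (ω ω' : Ωf U) :
    {ξ : Ωf U' | trΩ h ξ = ω}.ncard = {ξ : Ωf U' | trΩ h ξ = ω'}.ncard := by
  induction ω using QuotientGroup.induction_on with
  | H y =>
    induction ω' using QuotientGroup.induction_on with
    | H y' =>
      have hsm : ∀ (z x : Gf F), trΩ h (z • (x : Ωf U')) = z • trΩ h (x : Ωf U') := fun z x => by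
        show ((z * x * g : Gf F) : Ωf U) = ((z * (x * g) : Gf F) : Ωf U)
        rw [mul_assoc]
      refine Set.ncard_congr (fun ξ _ => (y' * y⁻¹) • ξ) ?_ (fun a b _ _ e =>
        smul_left_cancel _ e) ?_
      · intro ξ hξ
        induction ξ using QuotientGroup.induction_on with
        | H x =>
          simp only [Set.mem_ofPred_eq] at hξ ⊢
          rw [hsm, hξ]
          show ((y' * y⁻¹ * y : Gf F) : Ωf U) = _
          rw [inv_mul_cancel_right]
      · intro ξ hξ
        refine ⟨(y' * y⁻¹)⁻¹ • ξ, ?_, smul_inv_smul _ _⟩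
        induction ξ using QuotientGroup.induction_on with
        | H x =>
          simp only [Set.mem_ofPred_eq] at hξ ⊢
          rw [hsm, hξ]
          show (((y' * y⁻¹)⁻¹ * y' : Gf F) : Ωf U) = _
          congr 1
          group

/-- The common cardinality of the fibres. -/
def trDegree (h : TransRel U' U g) : ℕ := {ξ : Ωf U' | trΩ h ξ = ((g : Gf F) : Ωf U)}.ncard

theorem trDegree_pos (h : TransRel U' U g) : 0 < trDegree h :=
  (Set.ncard_pos (finite_fibre h _)).mpr
    ⟨((1 : Gf F) : Ωf U'), by rw [Set.mem_ofPred_eq, trΩ_mk, one_mul]⟩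

theorem map_trΩ_count (h : TransRel U' U g) :
    (Measure.count : Measure (Ωf U')).map (trΩ h) = (trDegree h : ℝ≥0∞) • Measure.count := by
  refine Measure.ext_of_singleton fun ω => ?_
  rw [Measure.map_apply measurable_from_top (measurableSet_singleton ω), Measure.smul_apply,
    Measure.count_singleton,
    smul_eq_mul, mul_one,
    show trΩ h ⁻¹' {ω} = {ξ : Ωf U' | trΩ h ξ = ω} from rfl,
    Measure.count_apply_finite _ (finite_fibre h ω), trDegree, ncard_fibre h _ ω,
    Set.ncard_eq_toFinset_card _ (finite_fibre h ω)]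

/-- Translation of the spaces. -/
def trSpc (h : TransRel U' U g) : Spc U' → Spc U := Prod.map (trΩ h) id

theorem measurable_trSpc (h : TransRel U' U g) : Measurable (trSpc h) :=
  measurable_from_top.prodMap measurable_id

theorem trSpc_smul (h : TransRel U' U g) (γ : PGLF F) (s : Spc U') :
    trSpc h (γ • s) = γ • trSpc h s := by
  rw [pgl_smul_eq, pgl_smul_eq]
  obtain ⟨ξ, p⟩ := s
  refine Prod.ext ?_ rfl
  induction ξ using QuotientGroup.induction_on with
  | H x =>
    show ((diag F γ.out * x * g : Gf F) : Ωf U) = ((diag F γ.out * (x * g) : Gf F) : Ωf U)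
    rw [mul_assoc]

theorem map_trSpc (h : TransRel U' U g) :
    (volSpc U').map (trSpc h) = (trDegree h : ℝ≥0∞) • volSpc U := by
  rw [volSpc, volSpc, trSpc, ← Measure.map_prod_map _ _ measurable_from_top measurable_id,
    Measure.map_id, map_trΩ_count, Measure.prod_smul_left]

/-- The weight pulled back by a translation. -/
def pullWeight (h : TransRel U' U g) (W : QuotientWeight U) : QuotientWeight U' where
  w s := W.w (trSpc h s)
  measurable := W.measurable.comp (measurable_trSpc h)
  sum_eq := by
    have hac : (volSpc U').map (trSpc h) ≪ volSpc U := by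
      rw [map_trSpc]; exact Measure.smul_absolutelyContinuous
    refine (ae_of_ae_map (measurable_trSpc h).aemeasurable (hac.ae_le W.sum_eq)).mono fun s hs => ?_
    rw [← hs]
    simp only [trSpc_smul]

theorem map_qMeas_trSpc (h : TransRel U' U g) (W : QuotientWeight U) :
    (qMeas (pullWeight h W)).map (trSpc h) = (trDegree h : ℝ≥0∞) • qMeas W := by
  refine Measure.ext fun t ht => ?_
  have hw : Measurable fun s => (W.w s : ℝ≥0∞) := measurable_coe_nnreal_ennreal.comp W.measurable
  rw [Measure.map_apply (measurable_trSpc h) ht, Measure.smul_apply, qMeas, qMeas,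
    withDensity_apply _ (measurable_trSpc h ht), withDensity_apply _ ht,
    show (fun s => ((pullWeight h W).w s : ℝ≥0∞)) = fun s => (W.w (trSpc h s) : ℝ≥0∞) from rfl,
    ← setLIntegral_map ht hw (measurable_trSpc h), map_trSpc, setLIntegral_smul_measure]

theorem integral_qMeas_trSpc (h : TransRel U' U g) (W : QuotientWeight U) {f : Spc U → ℂ}
    (hf : Measurable f) :
    ∫ s, f (trSpc h s) ∂qMeas (pullWeight h W) = (trDegree h : ℝ) • ∫ s, f s ∂qMeas W := by
  rw [← integral_map (measurable_trSpc h).aemeasurable hf.aestronglyMeasurable, map_qMeas_trSpc,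
    integral_smul_measure]
  simp

theorem qMeas_pullWeight_univ (h : TransRel U' U g) (W : QuotientWeight U) :
    qMeas (pullWeight h W) Set.univ = (trDegree h : ℝ≥0∞) * qMeas W Set.univ := by
  have := congrArg (fun μ : Measure (Spc U) => μ Set.univ) (map_qMeas_trSpc h W)
  rwa [Measure.map_apply (measurable_trSpc h) MeasurableSet.univ, Set.preimage_univ,
    Measure.smul_apply, smul_eq_mul] at this

/-- The normalised integral over the quotient. -/
def qMean (W : QuotientWeight U) (f : Spc U → ℂ) : ℂ :=
  (qMeas W Set.univ).toReal⁻¹ • ∫ s, f s ∂qMeas W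

theorem qMean_congr (W W' : QuotientWeight U) {f : Spc U → ℂ} (hf : Measurable f)
    (hinv : ∀ (γ : PGLF F) s, f (γ • s) = f s) : qMean W f = qMean W' f := by
  rw [qMean, qMean, integral_qMeas_congr W W' hf hinv, qMeas_univ_congr W W']

theorem qMean_trSpc (h : TransRel U' U g) (W : QuotientWeight U) (W' : QuotientWeight U')
    {f : Spc U → ℂ} (hf : Measurable f) (hinv : ∀ (γ : PGLF F) s, f (γ • s) = f s) :
    qMean W' (fun s => f (trSpc h s)) = qMean W f := by
  rw [qMean_congr W' (pullWeight h W) (f := fun s => f (trSpc h s)) (hf.comp (measurable_trSpc h))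
    (fun γ s => by simp only [trSpc_smul, hinv]), qMean, qMean, integral_qMeas_trSpc h W hf,
    qMeas_pullWeight_univ, ENNReal.toReal_mul, ENNReal.toReal_natCast, smul_smul]
  congr 1
  have : (trDegree h : ℝ) ≠ 0 := by exact_mod_cast (trDegree_pos h).ne'
  rw [mul_inv]
  field_simp

end Fermat.Agent.ResidualThree.Kernel
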