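import Fermat.Agent.ResidualThree.Automorphic.Reduction
import Fermat.Agent.ResidualThree.Automorphic.TestFun
import Fermat.Agent.ResidualThree.Kernel.Refine
import Fermat.Agent.ResidualThree.Spherical.Inverse

/-!
# Kernels of test monomials

Invariance under the rational group, boundedness, measurability, adjoints and supports of the
kernel of a single test monomial, and the boxes of the quotient space in which they are
estimated.
-/

noncomputable section

open IsDedekindDomain NumberField MeasureTheory Filter Topology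
open scoped ENNReal NNReal ComplexConjugate

namespace Fermat.Agent.ResidualThree

variable {F : Type} [Field F] [NumberField F] {U : Level F}

namespace TestMonomial

variable (f : TestMonomial U)

theorem arch_radius (w : InfinitePlace F) : ∃ M : ℝ, 1 ≤ M ∧ ∀ c, f.arch w c ≠ 0 → c ≤ M := by
  obtain ⟨M, hM⟩ := (f.arch_support w).isCompact.bddAbove
  exact ⟨max M 1, le_max_right _ _, fun c hc => (hM (subset_tsupport _ hc)).trans (le_max_left _ _)⟩

theorem continuous_arch (w : InfinitePlace F) :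
    Continuous fun z : H3 × H3 => f.arch w (H3.coshDist z.1 z.2) := by
  obtain ⟨C, hC⟩ := f.arch_lipschitz w
  refine continuous_iff_continuousAt.mpr fun z₀ => ?_
  rw [ContinuousAt, tendsto_iff_norm_sub_tendsto_zero]
  have hcd : ∀ q₀ : H3, Continuous fun p : H3 => C * Real.sqrt (H3.coshDist p q₀ - 1) := fun q₀ =>
    continuous_const.mul (Real.continuous_sqrt.comp
      ((H3.continuous_coshDist.comp (continuous_id.prodMk continuous_const)).sub continuous_const))
  have hlim : Tendsto (fun z : H3 × H3 => C * Real.sqrt (H3.coshDist z.1 z₀.1 - 1) +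
      C * Real.sqrt (H3.coshDist z.2 z₀.2 - 1)) (𝓝 z₀) (𝓝 0) := by
    have h := (((hcd z₀.1).comp continuous_fst).add ((hcd z₀.2).comp continuous_snd)).tendsto z₀
    simpa [H3.coshDist_self, Function.comp_def, Pi.add_def] using h
  refine squeeze_zero (fun z => norm_nonneg _) (fun z => ?_) hlim
  have h1 := hC z.1 z.2 z₀.1
  have h2 := hC z.2 z₀.1 z₀.2
  rw [H3.coshDist_comm z.2 z₀.1, H3.coshDist_comm z₀.2 z₀.1] at h2
  exact (norm_sub_le_norm_sub_add_norm_sub _ (f.arch w (H3.coshDist z₀.1 z.2)) _).trans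
    (add_le_add h1 h2)

theorem arch_bound (w : InfinitePlace F) :
    ∃ C : ℝ, ∀ p q : H3, ‖f.arch w (H3.coshDist p q)‖ ≤ C := by
  obtain ⟨M, -, hM⟩ := f.arch_radius w
  have hc : Continuous fun q : H3 => f.arch w (H3.coshDist H3.base q) :=
    Continuous.comp (g := fun z : H3 × H3 => f.arch w (H3.coshDist z.1 z.2))
      (f := fun q : H3 => (H3.base, q)) (f.continuous_arch w)
      (continuous_const.prodMk continuous_id)
  have hs : HasCompactSupport fun q : H3 => f.arch w (H3.coshDist H3.base q) :=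
    HasCompactSupport.intro (H3.isCompact_ball_base M) fun q hq =>
      by_contra fun h => hq (hM _ h)
  obtain ⟨C, hC⟩ := hs.exists_bound_of_continuous hc
  refine ⟨C, fun p q => ?_⟩
  have e : H3.coshDist p q = H3.coshDist H3.base ((H3.upTo p)⁻¹ • q) := by
    conv_rhs => rw [← H3.coshDist_smul (H3.upTo p), smul_inv_smul, H3.upTo_smul_base]
  rw [e]
  exact hC _

theorem fin_out (g : Gf F) : f.fin (g : Ωf U).out = f.fin g := by
  obtain ⟨j, hj⟩ := QuotientGroup.mk_out_eq_mul U.group g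
  have h := f.biinvariant 1 j g (one_mem _) j.2
  rw [one_mul, ← hj] at h
  exact h

theorem fin_out_mul_out (x y : Gf F) :
    f.fin ((x : Ωf U).out⁻¹ * (y : Ωf U).out) = f.fin (x⁻¹ * y) := by
  obtain ⟨j, hj⟩ := QuotientGroup.mk_out_eq_mul U.group x
  obtain ⟨k, hk⟩ := QuotientGroup.mk_out_eq_mul U.group y
  rw [hj, hk, show (x * j)⁻¹ * (y * k) = (j : Gf F)⁻¹ * (x⁻¹ * y) * k by group]
  exact f.biinvariant _ _ _ (inv_mem j.2) k.2

theorem fin_bound : ∃ C : ℝ, ∀ g, ‖f.fin g‖ ≤ C := by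
  refine ⟨∑ y ∈ f.finite_support.toFinset, ‖f.fin y.out‖, fun g => ?_⟩
  by_cases h : f.fin g = 0
  · rw [h, norm_zero]; exact Finset.sum_nonneg fun _ _ => norm_nonneg _
  · rw [← f.fin_out g]
    refine Finset.single_le_sum (f := fun y : Ωf U => ‖f.fin y.out‖) (fun _ _ => norm_nonneg _) ?_
    rw [Set.Finite.mem_toFinset, Set.mem_ofPred_eq, f.fin_out]
    exact h

theorem kernel_mk (x y : Gf F) (p q : Hyp F) :
    f.kernel ((x : Ωf U), p) ((y : Ωf U), q) =
      f.fin (x⁻¹ * y) * ∏ w, f.arch w (H3.coshDist (p w) (q w)) := by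
  rw [TestMonomial.kernel, f.fin_out_mul_out]

theorem kernel_smul (g : GL (Fin 2) F) (s t : Spc U) : f.kernel (g • s) (g • t) = f.kernel s t := by
  obtain ⟨ξ, p⟩ := s
  obtain ⟨η, q⟩ := t
  induction ξ using QuotientGroup.induction_on with
  | H x =>
    induction η using QuotientGroup.induction_on with
    | H y =>
      show f.kernel (((diag F g * x : Gf F) : Ωf U), g • p) (((diag F g * y : Gf F) : Ωf U),
        g • q) = _
      rw [f.kernel_mk, f.kernel_mk, show (diag F g * x)⁻¹ * (diag F g * y) = x⁻¹ * y by group]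
      congr 1
      exact Finset.prod_congr rfl fun w _ =>
        congrArg (f.arch w) (H3.coshDist_smul (toComplex w g) (p w) (q w))

theorem kernel_pgl_smul (γ : PGLF F) (s t : Spc U) : f.kernel (γ • s) (γ • t) = f.kernel s t := by
  rw [Kernel.pgl_smul_eq, Kernel.pgl_smul_eq, f.kernel_smul]

theorem measurable_kernel : Measurable fun z : Spc U × Spc U => f.kernel z.1 z.2 := by
  set A : Ωf U × Ωf U → ℂ := fun z => f.fin (z.1.out⁻¹ * z.2.out) with hA
  have hAm : Measurable A := measurable_of_countable _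
  have hπ : Measurable fun z : Spc U × Spc U => (z.1.1, z.2.1) :=
    Measurable.prodMk (measurable_fst.comp measurable_fst) (measurable_fst.comp measurable_snd)
  have h1 : Measurable fun z : Spc U × Spc U => A (z.1.1, z.2.1) := hAm.comp hπ
  have h2 : ∀ w, Measurable fun z : Spc U × Spc U =>
      f.arch w (H3.coshDist (z.1.2 w) (z.2.2 w)) := fun w => by
    have hk : Measurable fun z : H3 × H3 => f.arch w (H3.coshDist z.1 z.2) :=
      (f.continuous_arch w).measurable
    have hp : Measurable fun z : Spc U × Spc U => (z.1.2 w, z.2.2 w) :=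
      Measurable.prodMk ((measurable_pi_apply w).comp (measurable_snd.comp measurable_fst))
        ((measurable_pi_apply w).comp (measurable_snd.comp measurable_snd))
    exact Measurable.comp (g := fun z : H3 × H3 => f.arch w (H3.coshDist z.1 z.2))
      (f := fun z : Spc U × Spc U => (z.1.2 w, z.2.2 w)) hk hp
  exact h1.mul (Finset.measurable_fun_prod _ fun w _ => h2 w)

theorem kernel_bound : ∃ C : ℝ, ∀ s t, ‖f.kernel s t‖ ≤ C := by
  obtain ⟨C₀, h₀⟩ := f.fin_bound
  choose C hC using f.arch_bound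
  refine ⟨C₀ * ∏ w, C w, fun s t => ?_⟩
  rw [TestMonomial.kernel, norm_mul, norm_prod]
  exact mul_le_mul (h₀ _) (Finset.prod_le_prod (fun _ _ => norm_nonneg _) fun w _ => hC w _ _)
    (Finset.prod_nonneg fun _ _ => norm_nonneg _) ((norm_nonneg _).trans (h₀ 1))

/-- The adjoint monomial. -/
def adj : TestMonomial U where
  fin g := conj (f.fin g⁻¹)
  biinvariant j₁ j₂ x h₁ h₂ := by
    rw [show (j₁ * x * j₂)⁻¹ = j₂⁻¹ * x⁻¹ * j₁⁻¹ by group,
      f.biinvariant _ _ _ (inv_mem h₂) (inv_mem h₁)]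
  finite_support := by
    refine (f.finite_support.biUnion fun z _ =>
      Kernel.finite_left_kmax_orbit U z.out⁻¹).subset fun y hy => ?_
    have hy' : f.fin y.out⁻¹ ≠ 0 := fun h => hy (by simp [h])
    set z : Ωf U := ((y.out⁻¹ : Gf F) : Ωf U) with hz
    refine Set.mem_biUnion (x := z) (by rw [Set.mem_ofPred_eq, hz, f.fin_out]; exact hy') ?_
    obtain ⟨j, hj⟩ := QuotientGroup.mk_out_eq_mul U.group y.out⁻¹
    refine ⟨(j : Gf F), U.group_le_kmax j.2, ?_⟩
    conv_rhs => rw [← QuotientGroup.out_eq' y]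
    rw [hz, hj, show (j : Gf F) * (y.out⁻¹ * (j : Gf F))⁻¹ = y.out by group]
  arch w c := conj (f.arch w c)
  arch_support w := (f.arch_support w).comp_left (map_zero _)
  arch_lipschitz w := by
    obtain ⟨C, hC⟩ := f.arch_lipschitz w
    exact ⟨C, fun p q r => by rw [← map_sub, RCLike.norm_conj]; exact hC p q r⟩

theorem kernel_adj (s t : Spc U) : f.adj.kernel s t = conj (f.kernel t s) := by
  show conj (f.fin (s.1.out⁻¹ * t.1.out)⁻¹) *
      ∏ w, conj (f.arch w (H3.coshDist (s.2 w) (t.2 w))) =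
    conj (f.fin (t.1.out⁻¹ * s.1.out) * ∏ w, f.arch w (H3.coshDist (t.2 w) (s.2 w)))
  rw [map_mul, map_prod, mul_inv_rev, inv_inv]
  congr 1
  exact Finset.prod_congr rfl fun w _ => by rw [H3.coshDist_comm]

end TestMonomial

/-- A box in the space. -/
def boxSet (U : Level F) (X : Set (Ωf U)) (c B R : ℝ) : Set (Spc U) :=
  {s | s.1 ∈ X ∧ ∀ w, ‖(s.2 w).z‖ ≤ R ∧ c ≤ (s.2 w).y ∧ (s.2 w).y ≤ B}

theorem boxSet_subset_siegelSet {X : Set (Ωf U)} {c B R : ℝ} (hc : 0 < c) :
    boxSet U X c B R ⊆ siegelSet U X c (B / c) R := by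
  rintro s ⟨h1, h2⟩
  refine ⟨h1, fun w => ⟨(h2 w).1, (h2 w).2.1, fun w' => ?_⟩⟩
  have hB : 0 ≤ B := hc.le.trans ((h2 w).2.1.trans (h2 w).2.2)
  calc (s.2 w).y ≤ B := (h2 w).2.2
    _ = B / c * c := (div_mul_cancel₀ B hc.ne').symm
    _ ≤ B / c * (s.2 w').y := mul_le_mul_of_nonneg_left (h2 w').2.1 (div_nonneg hB hc.le)

theorem boxSet_mono {X X' : Set (Ωf U)} {c c' B B' R R' : ℝ} (hX : X ⊆ X') (hc : c' ≤ c)
    (hB : B ≤ B') (hR : R ≤ R') : boxSet U X c B R ⊆ boxSet U X' c' B' R' :=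
  fun _ hs => ⟨hX hs.1, fun w => ⟨(hs.2 w).1.trans hR, hc.trans (hs.2 w).2.1,
    (hs.2 w).2.2.trans hB⟩⟩

theorem exists_mem_boxSet (s : Spc U) :
    ∃ (X : Set (Ωf U)) (c B R : ℝ), X.Finite ∧ 0 < c ∧ s ∈ boxSet U X c B R := by
  refine ⟨{s.1}, Finset.univ.inf' Finset.univ_nonempty (fun w => (s.2 w).y), ∑ w, (s.2 w).y,
    ∑ w, ‖(s.2 w).z‖, Set.finite_singleton _, (Finset.lt_inf'_iff _).mpr fun w _ => (s.2 w).y_pos,
    rfl, fun w => ⟨?_, Finset.inf'_le (fun w => (s.2 w).y) (Finset.mem_univ w), ?_⟩⟩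
  · exact Finset.single_le_sum (f := fun w => ‖(s.2 w).z‖) (fun _ _ => norm_nonneg _)
      (Finset.mem_univ w)
  · exact Finset.single_le_sum (f := fun w => (s.2 w).y) (fun w _ => (s.2 w).y_pos.le)
      (Finset.mem_univ w)

namespace H3

/-- The coordinates of a point at bounded distance. -/
theorem bounds_of_coshDist_le {p q : H3} {M : ℝ} (h : coshDist p q ≤ M) :
    q.y ≤ 2 * M * p.y ∧ p.y ≤ 2 * M * q.y ∧ ‖p.z - q.z‖ ^ 2 ≤ 2 * M * p.y * q.y := by
  have hp := p.y_pos
  have hq := q.y_pos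
  have h0 : Complex.normSq (p.z - q.z) + p.y ^ 2 + q.y ^ 2 ≤ M * (2 * p.y * q.y) := by
    rw [coshDist, div_le_iff₀ (by positivity)] at h
    exact h
  have hn := Complex.normSq_nonneg (p.z - q.z)
  rw [← Complex.normSq_eq_norm_sq]
  exact ⟨by nlinarith, by nlinarith, by nlinarith⟩

end H3

/-- The neighbours of a box under a monomial lie in a box. -/
theorem TestMonomial.exists_box_supset (f : TestMonomial U) {X : Set (Ωf U)} (hX : X.Finite)
    {c : ℝ} (hc : 0 < c) (B R : ℝ) :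
    ∃ (X' : Set (Ωf U)) (c' B' R' : ℝ), X'.Finite ∧ 0 < c' ∧
      ∀ s ∈ boxSet U X c B R, ∀ t, f.kernel s t ≠ 0 → t ∈ boxSet U X' c' B' R' := by
  choose M hM1 hM using f.arch_radius
  set N : ℝ := 2 * ∑ w, M w with hN
  have hMN : ∀ w, 2 * M w ≤ N := fun w => mul_le_mul_of_nonneg_left
    (Finset.single_le_sum (fun w _ => zero_le_one.trans (hM1 w)) (Finset.mem_univ w)) two_pos.le
  have hN0 : 0 < N := lt_of_lt_of_le (by have := hM1 Classical.ofNonempty; linarith)
    (hMN Classical.ofNonempty)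
  refine ⟨⋃ ξ ∈ X, (fun η => ξ.out • η) '' {y : Ωf U | f.fin y.out ≠ 0}, c / N, N * B,
    R + N * |B|, hX.biUnion fun ξ _ => f.finite_support.image _, div_pos hc hN0,
    fun s hs t ht => ?_⟩
  rw [TestMonomial.kernel, mul_ne_zero_iff, Finset.prod_ne_zero_iff] at ht
  refine ⟨Set.mem_biUnion hs.1 ⟨((s.1.out⁻¹ * t.1.out : Gf F) : Ωf U), ?_, ?_⟩, fun w => ?_⟩
  · rw [Set.mem_ofPred_eq, f.fin_out]; exact ht.1
  · show ((s.1.out * (s.1.out⁻¹ * t.1.out) : Gf F) : Ωf U) = t.1
    rw [mul_inv_cancel_left, QuotientGroup.out_eq']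
  obtain ⟨hz, hcy, hyB⟩ := hs.2 w
  obtain ⟨h1, h2, h3⟩ := H3.bounds_of_coshDist_le (hM w _ (ht.2 w (Finset.mem_univ w)))
  have hyp := (s.2 w).y_pos
  have hyq := (t.2 w).y_pos
  have hNy : 2 * M w * (s.2 w).y ≤ N * (s.2 w).y := mul_le_mul_of_nonneg_right (hMN w) hyp.le
  have hB0 : 0 < B := hyp.trans_le hyB
  refine ⟨?_, ?_, ?_⟩
  · have h4 : ‖(s.2 w).z - (t.2 w).z‖ ^ 2 ≤ (N * |B|) ^ 2 := by
      refine h3.trans ?_
      rw [abs_of_pos hB0]
      calc 2 * M w * (s.2 w).y * (t.2 w).y ≤ (N * B) * (N * B) := by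
            have e1 : 2 * M w * (s.2 w).y ≤ N * B :=
              hNy.trans (mul_le_mul_of_nonneg_left hyB hN0.le)
            exact mul_le_mul e1 (h1.trans e1) hyq.le (mul_nonneg hN0.le hB0.le)
        _ = (N * B) ^ 2 := by ring
    have h5 := abs_le_of_sq_le_sq' h4 (mul_nonneg hN0.le (abs_nonneg B))
    calc ‖(t.2 w).z‖ ≤ ‖(s.2 w).z‖ + ‖(s.2 w).z - (t.2 w).z‖ := norm_le_norm_add_norm_sub _ _
      _ ≤ R + N * |B| := add_le_add hz h5.2
  · rw [div_le_iff₀ hN0, mul_comm]
    exact hcy.trans (h2.trans (mul_le_mul_of_nonneg_right (hMN w) hyq.le))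
  · exact h1.trans (hNy.trans (mul_le_mul_of_nonneg_left hyB hN0.le))

/-- The neighbours of a box under a test function lie in a box. -/
theorem exists_box_supset (f : TestFun U) {X : Set (Ωf U)} (hX : X.Finite) {c : ℝ} (hc : 0 < c)
    (B R : ℝ) :
    ∃ (X' : Set (Ωf U)) (c' B' R' : ℝ), X'.Finite ∧ 0 < c' ∧
      ∀ s ∈ boxSet U X c B R, ∀ t, kernel f s t ≠ 0 → t ∈ boxSet U X' c' B' R' := by
  induction f with
  | nil => exact ⟨∅, 1, 0, 0, Set.finite_empty, one_pos, fun s _ t ht => absurd rfl ht⟩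
  | cons a f ih =>
    obtain ⟨X₁, c₁, B₁, R₁, hX₁, hc₁, h₁⟩ := a.exists_box_supset hX hc B R
    obtain ⟨X₂, c₂, B₂, R₂, hX₂, hc₂, h₂⟩ := ih
    refine ⟨X₁ ∪ X₂, min c₁ c₂, max B₁ B₂, max R₁ R₂, hX₁.union hX₂, lt_min hc₁ hc₂,
      fun s hs t ht => ?_⟩
    have e : kernel (a :: f) s t = a.kernel s t + kernel f s t := by
      rw [kernel, List.map_cons, List.sum_cons]; rfl
    by_cases ha : a.kernel s t = 0
    · rw [e, ha, zero_add] at ht
      exact boxSet_mono Set.subset_union_right (min_le_right _ _) (le_max_right _ _)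
        (le_max_right _ _) (h₂ s hs t ht)
    · exact boxSet_mono Set.subset_union_left (min_le_left _ _) (le_max_left _ _)
        (le_max_left _ _) (h₁ s hs t ha)

end Fermat.Agent.ResidualThree
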