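import Fermat.Agent.ResidualThree.Kernel.Refine

/-!
# The Petersson pairing

The normalised mean of `φ · conj ψ` over the quotient at a common level; it does not depend on the
level and is invariant under translation.
-/

noncomputable section

open IsDedekindDomain NumberField MeasureTheory Filter
open scoped ENNReal NNReal ComplexConjugate

namespace Fermat.Agent.ResidualThree

variable {F : Type} [Field F] [NumberField F]

/-- The invariant measure charges open sets. -/
instance isOpenPosMeasure_h3Vol : H3.vol.IsOpenPosMeasure := by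
  rw [H3.vol_eq_map_ofLog]
  have : ((volume : Measure (ℂ × ℝ)).withDensity
      fun q => ENNReal.ofReal (Real.exp (-(2 * q.2)))).IsOpenPosMeasure :=
    (withDensity_absolutelyContinuous' (μ := (volume : Measure (ℂ × ℝ)))
      (f := fun q => ENNReal.ofReal (Real.exp (-(2 * q.2)))) (by fun_prop)
      (Eventually.of_forall fun q => by simp [Real.exp_pos])).isOpenPosMeasure
  exact H3.continuous_ofLog.isOpenPosMeasure_map H3.logHomeo.surjective

/-- A bounded function. -/
def IsBoundedFn (φ : Gf F → Hyp F → ℂ) : Prop := ∃ C : ℝ, ∀ x p, ‖φ x p‖ ≤ C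

/-- The product `φ · conj ψ`. -/
def prodFn (φ ψ : Gf F → Hyp F → ℂ) : Gf F → Hyp F → ℂ := fun x p => φ x p * conj (ψ x p)

theorem IsAutomorphic.prodFn {U : Level F} {φ ψ : Gf F → Hyp F → ℂ} (hφ : IsAutomorphic U φ)
    (hψ : IsAutomorphic U ψ) : IsAutomorphic U (prodFn φ ψ) where
  left γ x y hxy p := by simp only [ResidualThree.prodFn, hφ.left γ x y hxy p, hψ.left γ x y hxy p]
  right x j hj := by funext p; simp only [ResidualThree.prodFn, hφ.right x j hj, hψ.right x j hj]
  continuous x := (hφ.continuous x).mul (Complex.continuous_conj.comp (hψ.continuous x))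

/-- A function read on the space of a level. -/
def onSpc (U : Level F) (φ : Gf F → Hyp F → ℂ) (s : Spc U) : ℂ := φ s.1.out s.2

theorem onSpc_mk {U : Level F} {φ : Gf F → Hyp F → ℂ} (hφ : IsAutomorphic U φ) (x : Gf F)
    (p : Hyp F) : onSpc U φ ((x : Ωf U), p) = φ x p := by
  obtain ⟨j, hj⟩ := QuotientGroup.mk_out_eq_mul U.group x
  show φ (Quotient.out (x : Ωf U)) p = φ x p
  rw [hj, hφ.right x j j.2]

theorem measurable_onSpc {U : Level F} {φ : Gf F → Hyp F → ℂ} (hφ : IsAutomorphic U φ) :
    Measurable (onSpc U φ) :=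
  measurable_from_prod_countable_right fun ω => (hφ.continuous ω.out).measurable

theorem onSpc_smul {U : Level F} {φ : Gf F → Hyp F → ℂ} (hφ : IsAutomorphic U φ) (γ : PGLF F)
    (s : Spc U) : onSpc U φ (γ • s) = onSpc U φ s := by
  obtain ⟨ξ, p⟩ := s
  rw [Kernel.pgl_smul_eq]
  induction ξ using QuotientGroup.induction_on with
  | H x =>
    show onSpc U φ (((diag F γ.out * x : Gf F) : Ωf U), γ.out • p) = _
    rw [onSpc_mk hφ, onSpc_mk hφ]
    exact hφ.left γ.out x (diag F γ.out * x) (fun v => rfl) p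

theorem onSpc_trSpc {U U' : Level F} {g : Gf F} (h : Kernel.TransRel U' U g)
    {φ : Gf F → Hyp F → ℂ} (hφ : IsAutomorphic U φ) (hφ' : IsAutomorphic U' (rightTr g φ)) :
    onSpc U' (rightTr g φ) = fun s => onSpc U φ (Kernel.trSpc h s) := by
  funext s
  obtain ⟨ξ, p⟩ := s
  induction ξ using QuotientGroup.induction_on with
  | H x =>
    rw [onSpc_mk hφ']
    show φ (x * g) p = onSpc U φ (((x * g : Gf F) : Ωf U), p)
    rw [onSpc_mk hφ]

open Kernel in
/-- The mean of an automorphic function does not depend on the level and is translation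
invariant. -/
theorem qMean_onSpc_trans {U U' : Level F} {g : Gf F} (h : TransRel U' U g)
    (W : QuotientWeight U) (W' : QuotientWeight U') {φ : Gf F → Hyp F → ℂ}
    (hφ : IsAutomorphic U φ) (hφ' : IsAutomorphic U' (rightTr g φ)) :
    qMean W' (onSpc U' (rightTr g φ)) = qMean W (onSpc U φ) := by
  rw [onSpc_trSpc h hφ hφ']
  exact qMean_trSpc h W W' (measurable_onSpc hφ) fun γ s => onSpc_smul hφ γ s

open Kernel in
theorem qMean_onSpc_congr {U U' : Level F} (W : QuotientWeight U) (W' : QuotientWeight U')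
    {φ : Gf F → Hyp F → ℂ} (hφ : IsAutomorphic U φ) (hφ' : IsAutomorphic U' φ) :
    qMean W' (onSpc U' φ) = qMean W (onSpc U φ) := by
  have h1 : TransRel (U.inter U') U 1 := transRel_of_le fun v => inf_le_left
  have h2 : TransRel (U.inter U') U' 1 := transRel_of_le fun v => inf_le_right
  have hm : IsAutomorphic (U.inter U') (rightTr 1 φ) := by
    rw [rightTr_one]; exact hφ.mono fun v => inf_le_left
  have e1 := qMean_onSpc_trans h1 W (pullWeight h1 W) hφ hm
  have e2 := qMean_onSpc_trans h2 W' (pullWeight h1 W) hφ' hm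
  rw [← e1, ← e2]

open Classical in
/-- The Petersson pairing: the normalised mean of `φ · conj ψ` at any common level. -/
def petersson (φ ψ : Gf F → Hyp F → ℂ) : ℂ :=
  if h : ∃ P : Σ U : Level F, QuotientWeight U, IsAutomorphic P.1 φ ∧ IsAutomorphic P.1 ψ then
    Kernel.qMean h.choose.2 (onSpc h.choose.1 (prodFn φ ψ))
  else 0

variable {U : Level F} {φ φ' ψ : Gf F → Hyp F → ℂ}

/-- The pairing is computed at any common level with any weight. -/
theorem petersson_eq (W : QuotientWeight U) (hφ : IsAutomorphic U φ) (hψ : IsAutomorphic U ψ) :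
    petersson φ ψ = Kernel.qMean W (onSpc U (prodFn φ ψ)) := by
  have h : ∃ P : Σ U : Level F, QuotientWeight U, IsAutomorphic P.1 φ ∧ IsAutomorphic P.1 ψ :=
    ⟨⟨U, W⟩, hφ, hψ⟩
  rw [petersson, dif_pos h]
  exact qMean_onSpc_congr W h.choose.2 (hφ.prodFn hψ) (h.choose_spec.1.prodFn h.choose_spec.2)

theorem petersson_conj_symm (φ ψ : Gf F → Hyp F → ℂ) :
    conj (petersson φ ψ) = petersson ψ φ := by
  by_cases h : ∃ P : Σ U : Level F, QuotientWeight U, IsAutomorphic P.1 φ ∧ IsAutomorphic P.1 ψ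
  · obtain ⟨⟨U, W⟩, hφ, hψ⟩ := h
    rw [petersson_eq W hφ hψ, petersson_eq W hψ hφ, Kernel.qMean, Kernel.qMean]
    rw [Complex.real_smul, Complex.real_smul, map_mul, Complex.conj_ofReal, ← integral_conj]
    congr 1
    refine integral_congr_ae (Eventually.of_forall fun s => ?_)
    simp [onSpc, prodFn, mul_comm]
  · have h' : ¬ ∃ P : Σ U : Level F, QuotientWeight U,
        IsAutomorphic P.1 ψ ∧ IsAutomorphic P.1 φ :=
      fun ⟨P, h1, h2⟩ => h ⟨P, h2, h1⟩
    rw [petersson, dif_neg h, petersson, dif_neg h', map_zero]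

theorem petersson_smul_left (W : QuotientWeight U) (hφ : IsAutomorphic U φ)
    (hψ : IsAutomorphic U ψ) (c : ℂ) : petersson (c • φ) ψ = c * petersson φ ψ := by
  rw [petersson_eq W (hφ.smul c) hψ, petersson_eq W hφ hψ, Kernel.qMean, Kernel.qMean,
    Complex.real_smul, Complex.real_smul, ← mul_assoc, mul_comm c, mul_assoc]
  congr 1
  rw [← integral_const_mul (μ := Kernel.qMeas W) c]
  refine integral_congr_ae (Eventually.of_forall fun s => ?_)
  simp [onSpc, prodFn, mul_assoc]

theorem integrable_onSpc_prodFn (W : QuotientWeight U) [IsFiniteMeasure (Kernel.qMeas W)]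
    (hφ : IsAutomorphic U φ) (hψ : IsAutomorphic U ψ) (bφ : IsBoundedFn φ) (bψ : IsBoundedFn ψ) :
    Integrable (onSpc U (prodFn φ ψ)) (Kernel.qMeas W) := by
  obtain ⟨C, hC⟩ := bφ
  obtain ⟨D, hD⟩ := bψ
  refine Integrable.of_bound (measurable_onSpc (hφ.prodFn hψ)).aestronglyMeasurable (C * D)
    (Eventually.of_forall fun s => ?_)
  rw [onSpc, prodFn, norm_mul, RCLike.norm_conj]
  exact mul_le_mul (hC _ _) (hD _ _) (norm_nonneg _) ((norm_nonneg _).trans (hC s.1.out s.2))

theorem petersson_add_left (W : QuotientWeight U) [IsFiniteMeasure (Kernel.qMeas W)]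
    (hφ : IsAutomorphic U φ) (hφ' : IsAutomorphic U φ') (hψ : IsAutomorphic U ψ)
    (bφ : IsBoundedFn φ) (bφ' : IsBoundedFn φ') (bψ : IsBoundedFn ψ) :
    petersson (φ + φ') ψ = petersson φ ψ + petersson φ' ψ := by
  rw [petersson_eq W (hφ.add hφ') hψ, petersson_eq W hφ hψ, petersson_eq W hφ' hψ, Kernel.qMean,
    Kernel.qMean, Kernel.qMean, ← smul_add,
    ← integral_add (integrable_onSpc_prodFn W hφ hψ bφ bψ)
      (integrable_onSpc_prodFn W hφ' hψ bφ' bψ)]
  congr 1
  refine integral_congr_ae (Eventually.of_forall fun s => ?_)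
  simp [onSpc, prodFn, add_mul]

/-- Right translation preserves the pairing. -/
theorem petersson_rightTr (W : QuotientWeight U) (hφ : IsAutomorphic U φ)
    (hψ : IsAutomorphic U ψ) (g : Gf F) :
    petersson (rightTr g φ) (rightTr g ψ) = petersson φ ψ := by
  rw [petersson_eq (Kernel.pullWeight (Kernel.transRel_conjBy U g) W) (hφ.rightTr g) (hψ.rightTr g),
    petersson_eq W hφ hψ,
    show prodFn (rightTr g φ) (rightTr g ψ) = rightTr g (prodFn φ ψ) from rfl]
  exact qMean_onSpc_trans (Kernel.transRel_conjBy U g) W _ (hφ.prodFn hψ)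
    ((hφ.prodFn hψ).rightTr g)

/-- The Petersson product is definite on bounded automorphic functions. -/
theorem eq_zero_of_petersson_self (W : QuotientWeight U) [IsFiniteMeasure (Kernel.qMeas W)]
    (hφ : IsAutomorphic U φ) (bφ : IsBoundedFn φ) (h : petersson φ φ = 0) : φ = 0 := by
  set G : Spc U → ℝ := fun s => Complex.normSq (onSpc U φ s) with hG
  have e : onSpc U (prodFn φ φ) = fun s => (G s : ℂ) := funext fun s => Complex.mul_conj _
  have hμ : (Kernel.qMeas W Set.univ).toReal ≠ 0 :=
    ENNReal.toReal_ne_zero.mpr ⟨Kernel.qMeas_univ_ne_zero W, measure_ne_top _ _⟩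
  have hint := integrable_onSpc_prodFn W hφ hφ bφ bφ
  rw [petersson_eq W hφ hφ, Kernel.qMean, smul_eq_zero, inv_eq_zero] at h
  have h0 := h.resolve_left hμ
  rw [e, integral_complex_ofReal, Complex.ofReal_eq_zero] at h0
  rw [e] at hint
  have hintR : Integrable G (Kernel.qMeas W) := by simpa using hint.re
  have hae := (integral_eq_zero_iff_of_nonneg (fun s => Complex.normSq_nonneg _) hintR).mp h0
  have hw : ∀ᵐ s ∂volSpc U, (W.w s : ℝ≥0∞) ≠ 0 → G s = 0 :=
    (ae_withDensity_iff (measurable_coe_nnreal_ennreal.comp W.measurable)).mp hae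
  have hall : ∀ᵐ s ∂volSpc U, ∀ γ : PGLF F, (W.w (γ • s) : ℝ≥0∞) ≠ 0 → G (γ • s) = 0 :=
    ae_all_iff.mpr fun γ =>
      (Kernel.measurePreserving_pgl_smul U γ).quasiMeasurePreserving.ae hw
  have hzero : ∀ᵐ s ∂volSpc U, onSpc U φ s = 0 := by
    filter_upwards [hall, W.sum_eq] with s h1 h2
    obtain ⟨γ, hγ⟩ : ∃ γ : PGLF F, (W.w (γ • s) : ℝ≥0∞) ≠ 0 := by
      by_contra hne
      push Not at hne
      simp [hne] at h2
    have := h1 γ hγ
    rw [hG] at this
    simp only [onSpc_smul hφ] at this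
    exact Complex.normSq_eq_zero.mp this
  funext x p
  rw [← onSpc_mk hφ x p]
  have hslice := (Measure.ae_ae_of_ae_prod hzero)
  rw [ae_iff, Measure.count_eq_zero_iff] at hslice
  have hω : ∀ᵐ q ∂(Measure.pi fun _ : InfinitePlace F => H3.vol),
      onSpc U φ ((x : Ωf U), q) = 0 := by
    by_contra hne
    exact Set.eq_empty_iff_forall_notMem.mp hslice (x : Ωf U) hne
  have hc : Continuous fun q : Hyp F => onSpc U φ ((x : Ωf U), q) :=
    hφ.continuous (x : Ωf U).out
  exact congrFun ((hc.ae_eq_iff_eq _ continuous_const).mp hω) p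

end Fermat.Agent.ResidualThree
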