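import Mathlib

/-!
# Separation of absolutely summable point masses

Point masses on a compact Hausdorff space which are killed by a separating, conjugation-closed
algebra of continuous functions have vanishing sums over each point.
-/

noncomputable section

open Filter Topology
open scoped ComplexConjugate

namespace Fermat.Agent.ResidualThree.Kernel

variable {S : Type*} [TopologicalSpace S] [CompactSpace S] [T2Space S]
variable {κ : Type*}

omit [T2Space S] in
theorem summable_mass_mul {b : κ → ℂ} (hb : Summable fun j => ‖b j‖) (φ : κ → S) (P : C(S, ℂ)) :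
    Summable fun j => b j * P (φ j) := by
  refine Summable.of_norm_bounded (hb.mul_right ‖P‖) fun j => ?_
  rw [norm_mul]
  exact mul_le_mul_of_nonneg_left (P.norm_coe_le_norm _) (norm_nonneg _)

/-- Point masses killed by a separating star subalgebra are killed by all continuous functions. -/
theorem tsum_mass_eq_zero_of_subalgebra {b : κ → ℂ} (hb : Summable fun j => ‖b j‖) (φ : κ → S)
    (A : StarSubalgebra ℂ C(S, ℂ)) (hA : A.SeparatesPoints)
    (h : ∀ P ∈ A, ∑' j, b j * P (φ j) = 0) (P : C(S, ℂ)) : ∑' j, b j * P (φ j) = 0 := by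
  have hdense : A.topologicalClosure = ⊤ :=
    ContinuousMap.starSubalgebra_topologicalClosure_eq_top_of_separatesPoints A hA
  set Λ : C(S, ℂ) → ℂ := fun P => ∑' j, b j * P (φ j) with hΛ
  have hlip : ∀ P Q : C(S, ℂ), ‖Λ P - Λ Q‖ ≤ (∑' j, ‖b j‖) * ‖P - Q‖ := by
    intro P Q
    rw [hΛ]
    simp only
    rw [← Summable.tsum_sub (summable_mass_mul hb φ P) (summable_mass_mul hb φ Q)]
    refine tsum_of_norm_bounded (hb.hasSum.mul_right ‖P - Q‖) fun j => ?_
    rw [← mul_sub, norm_mul]
    exact mul_le_mul_of_nonneg_left ((P - Q).norm_coe_le_norm (φ j)) (norm_nonneg _)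
  have hc : Continuous Λ := (LipschitzWith.of_dist_le_mul (K := (∑' j, ‖b j‖).toNNReal)
    fun P Q => by
      rw [dist_eq_norm, dist_eq_norm, Real.coe_toNNReal _ (tsum_nonneg fun j => norm_nonneg _)]
      exact hlip P Q).continuous
  have hP : P ∈ closure (A : Set C(S, ℂ)) := by
    rw [← StarSubalgebra.topologicalClosure_coe, hdense]
    trivial
  exact closure_minimal (fun Q hQ => h Q hQ) (isClosed_eq hc continuous_const) hP

/-- Point masses killed by every continuous function vanish point by point. -/
theorem tsum_fibre_eq_zero_of_continuous {b : κ → ℂ} (hb : Summable fun j => ‖b j‖) (φ : κ → S)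
    (h : ∀ P : C(S, ℂ), ∑' j, b j * P (φ j) = 0) (x : S) :
    ∑' j : {j // φ j = x}, b j = 0 := by
  classical
  refine norm_le_zero_iff.mp (le_of_forall_pos_le_add fun ε hε => ?_)
  rw [zero_add]
  obtain ⟨F, hF⟩ : ∃ F : Finset κ, ∑' j, ((F : Set κ)ᶜ).indicator (fun j => ‖b j‖) j < ε / 2 := by
    have h0 := (tendsto_order.mp (tendsto_tsum_compl_atTop_zero fun j => ‖b j‖)).2 _ (half_pos hε)
    obtain ⟨F, hF⟩ := h0.exists
    exact ⟨F, by rw [← tsum_subtype]; exact hF⟩
  -- a function which is one at `x` and zero at the other points of `F`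
  obtain ⟨g, hg0, hg1, hg01⟩ := exists_continuous_zero_one_of_isClosed
    (s := ((F.image φ).erase x : Set S)) (t := {x}) (Finset.finite_toSet _).isClosed
    isClosed_singleton (by simp)
  let P : C(S, ℂ) := ⟨fun s => ((g s : ℝ) : ℂ), Complex.continuous_ofReal.comp g.continuous⟩
  have hP := h P
  set ind : κ → ℂ := {j | φ j = x}.indicator b with hind
  have hsum : ∑' j : {j // φ j = x}, b j = ∑' j, ind j := tsum_subtype {j | φ j = x} b
  have hinds : Summable ind :=
    (Summable.of_norm hb).indicator _
  have hgs := summable_mass_mul hb φ P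
  have hdiff : ∑' j, ind j = ∑' j, (ind j - b j * P (φ j)) := by
    rw [Summable.tsum_sub hinds hgs, hP, sub_zero]
  rw [hsum, hdiff]
  have hbound : ∀ j, ‖ind j - b j * P (φ j)‖ ≤
      ((F : Set κ)ᶜ).indicator (fun j => ‖b j‖) j := by
    intro j
    by_cases hx : φ j = x
    · have : g (φ j) = 1 := hg1 (by simp [hx])
      simp only [hind, Set.indicator_of_mem (show j ∈ {j | φ j = x} from hx), P,
        ContinuousMap.coe_mk, this, Complex.ofReal_one, mul_one, sub_self, norm_zero]
      exact Set.indicator_nonneg (fun j _ => norm_nonneg _) j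
    · simp only [hind, Set.indicator_of_notMem (show j ∉ {j | φ j = x} from hx), zero_sub, norm_neg,
        norm_mul]
      by_cases hj : j ∈ F
      · have : g (φ j) = 0 := hg0 (Finset.mem_coe.mpr
          (Finset.mem_erase.mpr ⟨hx, Finset.mem_image_of_mem φ hj⟩))
        simp [P, this, hj]
      · rw [Set.indicator_of_mem (by simpa using hj)]
        refine mul_le_of_le_one_right (norm_nonneg _) ?_
        simp only [P, ContinuousMap.coe_mk, Complex.norm_real, Real.norm_eq_abs,
          abs_of_nonneg (hg01 (φ j)).1]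
        exact (hg01 (φ j)).2
  have htail : Summable fun j => ((F : Set κ)ᶜ).indicator (fun j => ‖b j‖) j := hb.indicator _
  calc ‖∑' j, (ind j - b j * P (φ j))‖
      ≤ ∑' j, ((F : Set κ)ᶜ).indicator (fun j => ‖b j‖) j :=
        tsum_of_norm_bounded htail.hasSum hbound
    _ ≤ ε := by linarith

/-- Separation: masses killed by a separating star subalgebra vanish point by point. -/
theorem tsum_fibre_eq_zero {b : κ → ℂ} (hb : Summable fun j => ‖b j‖) (φ : κ → S)
    (A : StarSubalgebra ℂ C(S, ℂ)) (hA : A.SeparatesPoints)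
    (h : ∀ P ∈ A, ∑' j, b j * P (φ j) = 0) (x : S) : ∑' j : {j // φ j = x}, b j = 0 :=
  tsum_fibre_eq_zero_of_continuous hb φ (tsum_mass_eq_zero_of_subalgebra hb φ A hA h) x

end Fermat.Agent.ResidualThree.Kernel
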