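import Fermat.Agent.ResidualThree.Kernel.L2
import Fermat.Agent.ResidualThree.Orbital.Kernels

/-!
# Integrability of twisted diagonals

Compositions inherit the bound in the cusp; twisted diagonals of such kernels are integrable over
the quotient, and those of arbitrary monomials over its truncations.  These are the inputs to
the geometric side of the twisted trace formula.
-/

noncomputable section

open IsDedekindDomain NumberField MeasureTheory Filter Topology
open scoped ENNReal NNReal ComplexConjugate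

namespace Fermat.Agent.ResidualThree

variable {F : Type} [Field F] [NumberField F] {U : Level F}

/-- The monomial of the absolute values. -/
def TestMonomial.absMono (f : TestMonomial U) : TestMonomial U where
  fin g := ((‖f.fin g‖ : ℝ) : ℂ)
  biinvariant j₁ j₂ x h₁ h₂ := by rw [f.biinvariant j₁ j₂ x h₁ h₂]
  finite_support := f.finite_support.subset fun y hy h => hy (by simp [h])
  arch w c := ((‖f.arch w c‖ : ℝ) : ℂ)
  arch_support w := (f.arch_support w).comp_left (g := fun z : ℂ => ((‖z‖ : ℝ) : ℂ)) (by simp)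
  arch_lipschitz w := by
    obtain ⟨C, hC⟩ := f.arch_lipschitz w
    refine ⟨C, fun p q r => le_trans ?_ (hC p q r)⟩
    rw [← Complex.ofReal_sub, Complex.norm_real, Real.norm_eq_abs]
    exact abs_norm_sub_norm_le _ _

theorem TestMonomial.kernel_absMono (f : TestMonomial U) (s t : Spc U) :
    f.absMono.kernel s t = ((‖f.kernel s t‖ : ℝ) : ℂ) := by
  simp only [TestMonomial.kernel, TestMonomial.absMono, norm_mul, norm_prod, Complex.ofReal_mul,
    Complex.ofReal_prod]

namespace Kernel

variable [IsTotallyComplex F]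

/-- The absolute sum of the translates is a finite automorphic kernel. -/
theorem tsum_enorm_eq (f : TestMonomial U) (s t : Spc U) :
    ∑' γ : PGLF F, ‖f.kernel s (γ • t)‖ₑ = ENNReal.ofReal (autKernel [f.absMono] s t).re := by
  have e : ∀ γ : PGLF F, kernel [f.absMono] s (γ • t) = ((‖f.kernel s (γ • t)‖ : ℝ) : ℂ) :=
    fun γ => by
    rw [kernel_cons, kernel_nil, add_zero, f.kernel_absMono]
  have hs : Summable fun γ : PGLF F => ‖f.kernel s (γ • t)‖ := by
    have h := Complex.reCLM.summable (summable_translates [f.absMono] s t)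
    simpa [e] using h
  rw [autKernel, tsum_congr e, ← Complex.ofReal_tsum, Complex.ofReal_re,
    ENNReal.ofReal_tsum_of_nonneg (fun γ => norm_nonneg _) hs]
  exact tsum_congr fun γ => (ofReal_norm _).symm

/-- Compositions inherit the bound in the cusp from the left factor. -/
theorem HasCuspBound.convFun {f : TestFun U} (hf : HasCuspBound f) (g : TestFun U) :
    HasCuspBound (ResidualThree.convFun f g) := by
  intro X c A R hX hc
  obtain ⟨W, -⟩ := exists_quotientWeight U
  obtain ⟨C, hC0, hC⟩ := hf X c A R hX hc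
  obtain ⟨D, hD, hD'⟩ := exists_l1_bound (ResidualThree.adjFun g)
  refine ⟨C * D.toReal, mul_nonneg hC0 ENNReal.toReal_nonneg, fun s hs t w₀ => ?_⟩
  rw [← autKernel_convFun W f g s t]
  set B := C * (s.2 w₀).y ^ (2 * Fintype.card (InfinitePlace F) - 1) with hB
  have hB0 : 0 ≤ B := mul_nonneg hC0 (pow_nonneg (s.2 w₀).y_pos.le _)
  have hg : ∫⁻ y, ‖autKernel g y t‖ₑ ∂qMeas W ≤ D := by
    refine le_trans (le_of_eq (lintegral_congr fun y => ?_))
      (lintegral_autKernel_le W (ResidualThree.adjFun g) hD' t)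
    rw [autKernel_adjFun, RCLike.enorm_conj]
  have h : ∫⁻ y, ‖autKernel f s y * autKernel g y t‖ₑ ∂qMeas W ≤ ENNReal.ofReal B * D := by
    refine le_trans (lintegral_mono (g := fun y => ENNReal.ofReal B * ‖autKernel g y t‖ₑ)
      fun y => ?_) ?_
    · rw [enorm_mul, ← ofReal_norm]
      exact mul_le_mul' (ENNReal.ofReal_le_ofReal (hC s hs y w₀)) le_rfl
    · rw [lintegral_const_mul' _ _ ENNReal.ofReal_ne_top]
      exact mul_le_mul' le_rfl hg
  have hne : ENNReal.ofReal B * D ≠ ⊤ := ENNReal.mul_ne_top ENNReal.ofReal_ne_top hD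
  calc ‖∫ y, autKernel f s y * autKernel g y t ∂qMeas W‖
      = (‖∫ y, autKernel f s y * autKernel g y t ∂qMeas W‖ₑ).toReal := (toReal_enorm _).symm
    _ ≤ (ENNReal.ofReal B * D).toReal :=
        ENNReal.toReal_mono hne ((enorm_integral_le_lintegral_enorm _).trans h)
    _ = C * D.toReal * (s.2 w₀).y ^ (2 * Fintype.card (InfinitePlace F) - 1) := by
        rw [ENNReal.toReal_mul, ENNReal.toReal_ofReal hB0, hB]; ring

/-- A twist of the space commutes with the group up to an automorphism. -/
def IsTwist (σ : Spc U → Spc U) : Prop :=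
  ∀ γ : PGLF F, ∃ γ' : PGLF F, ∀ s, σ (γ • s) = γ' • σ s

omit [IsTotallyComplex F] in
theorem autKernel_twist_smul (f : TestFun U) {σ : Spc U → Spc U} (hσ : IsTwist σ) (γ : PGLF F)
    (s : Spc U) : autKernel f (γ • s) (σ (γ • s)) = autKernel f s (σ s) := by
  obtain ⟨γ', h⟩ := hσ γ
  rw [h s, autKernel_smul_left, autKernel_smul_right]

omit [IsTotallyComplex F] in
theorem measurable_autKernel_twist (f : TestFun U) {σ : Spc U → Spc U} (hσ : Measurable σ) :
    Measurable fun s => autKernel f s (σ s) :=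
  Measurable.comp (g := fun z : Spc U × Spc U => autKernel f z.1 z.2)
    (f := fun s : Spc U => (s, σ s)) (measurable_autKernel f) (measurable_id.prodMk hσ)

/-- The twisted diagonal is integrable over the quotient. -/
theorem integrable_twisted_diag (W : QuotientWeight U) {f : TestFun U} (hf : HasCuspBound f)
    {σ : Spc U → Spc U} (hσm : Measurable σ) (hσ : IsTwist σ) :
    Integrable (fun s => autKernel f s (σ s)) (qMeas W) := by
  obtain ⟨W₀, X, c, A, R, hX, hc, -, hzero, hone, -⟩ := exists_quotientWeight U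
  obtain ⟨w₀⟩ := (inferInstance : Nonempty (InfinitePlace F))
  obtain ⟨C, hC0, hC⟩ := hf X c A R hX hc
  have hm := measurable_autKernel_twist f hσm
  rw [integrable_qMeas_congr W W₀ hm fun γ s => autKernel_twist_smul f hσ γ s]
  refine ⟨hm.aestronglyMeasurable, ?_⟩
  rw [hasFiniteIntegral_iff_enorm,
    lintegral_qMeas W₀ (f := fun s => ‖autKernel f s (σ s)‖ₑ) hm.enorm]
  refine lt_of_le_of_lt (lintegral_mono (g := (siegelSet U X c A R).indicator fun s =>
    ENNReal.ofReal C * ENNReal.ofReal ((s.2 w₀).y ^ (2 * Fintype.card (InfinitePlace F) - 1)))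
    fun s => ?_) ?_
  · by_cases hs : s ∈ siegelSet U X c A R
    · rw [Set.indicator_of_mem hs, ← one_mul (ENNReal.ofReal C * _)]
      refine mul_le_mul' (ENNReal.coe_le_one_iff.mpr (hone s)) ?_
      rw [← ENNReal.ofReal_mul hC0, ← ofReal_norm]
      exact ENNReal.ofReal_le_ofReal (hC s hs _ w₀)
    · simp [hzero s hs]
  · rw [lintegral_indicator (measurableSet_siegelSet U X c A R),
      lintegral_const_mul' _ _ ENNReal.ofReal_ne_top]
    exact ENNReal.mul_lt_top ENNReal.ofReal_lt_top
      (lintegral_siegel_pow_ne_top hX hc A R w₀).lt_top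

omit [IsTotallyComplex F] in
/-- Integrability against the weight. -/
theorem integrable_weight_mul_iff (W : QuotientWeight U) (φ : Spc U → ℂ) :
    Integrable (fun s => (W.w s : ℂ) * φ s) (volSpc U) ↔ Integrable φ (qMeas W) := by
  rw [qMeas, integrable_withDensity_iff_integrable_smul W.measurable]
  refine integrable_congr (Eventually.of_forall fun s => ?_)
  simp [NNReal.smul_def]

/-- Boxes go into boxes. -/
def MapsBoxes (σ : Spc U → Spc U) : Prop :=
  ∀ (X : Set (Ωf U)) (c B R : ℝ), X.Finite → 0 < c → ∃ (X' : Set (Ωf U)) (c' B' R' : ℝ),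
    X'.Finite ∧ 0 < c' ∧ ∀ s ∈ boxSet U X c B R, σ s ∈ boxSet U X' c' B' R'

omit [IsTotallyComplex F] in
theorem mapsBoxes_id : MapsBoxes (id : Spc U → Spc U) :=
  fun X c B R hX hc => ⟨X, c, B, R, hX, hc, fun _ hs => hs⟩

omit [IsTotallyComplex F] in
theorem isTwist_id : IsTwist (id : Spc U → Spc U) := fun γ => ⟨γ, fun _ => rfl⟩

omit [IsTotallyComplex F] in
/-- A Siegel set meets a truncation in a box. -/
theorem exists_box_of_truncated {X : Set (Ωf U)} (hX : X.Finite) {c : ℝ} (hc : 0 < c) (A R T : ℝ) :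
    ∃ B : ℝ, siegelSet U X c A R ∩ Orbital.truncated U T ⊆ boxSet U X c B R := by
  classical
  refine ⟨1 + ∑ ω ∈ hX.toFinset, |T| / (topFin ω.out * (c ^ 2) ^
    (Fintype.card (InfinitePlace F) - 1)),
    fun s hs => ⟨hs.1.1, fun w => ⟨(hs.1.2 w).1, (hs.1.2 w).2.1, ?_⟩⟩⟩
  have h := hs.2 (topRow F) topRow_ne_zero
  rw [height_topRow] at h
  have hy := (s.2 w).y_pos
  have hfin := topFin_pos s.1.out
  set d := topFin s.1.out * (c ^ 2) ^ (Fintype.card (InfinitePlace F) - 1) with hd
  have hd0 : 0 < d := mul_pos hfin (pow_pos (pow_pos hc 2) _)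
  have h1 : d * (s.2 w).y ^ 2 ≤ |T| := by
    refine le_trans ?_ (h.trans (le_abs_self T))
    rw [hd, mul_assoc]
    refine mul_le_mul_of_nonneg_left ?_ hfin.le
    rw [← Finset.mul_prod_erase Finset.univ _ (Finset.mem_univ w), mul_comm]
    refine mul_le_mul_of_nonneg_left ?_ (sq_nonneg _)
    refine le_trans (le_of_eq ?_) (Finset.prod_le_prod (f := fun _ : InfinitePlace F => c ^ 2)
      (fun _ _ => sq_nonneg c) fun w' _ => pow_le_pow_left₀ hc.le (hs.1.2 w').2.1 2)
    rw [Finset.prod_const, Finset.card_erase_of_mem (Finset.mem_univ w), Finset.card_univ]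
  have h2 : (s.2 w).y ^ 2 ≤ ∑ ω ∈ hX.toFinset,
      |T| / (topFin ω.out * (c ^ 2) ^ (Fintype.card (InfinitePlace F) - 1)) := by
    refine le_trans ?_ (Finset.single_le_sum (f := fun ω : Ωf U =>
      |T| / (topFin ω.out * (c ^ 2) ^ (Fintype.card (InfinitePlace F) - 1)))
      (fun ω _ => div_nonneg (abs_nonneg T) (mul_nonneg (topFin_pos _).le
        (pow_nonneg (sq_nonneg c) _))) (hX.mem_toFinset.mpr hs.1.1))
    rw [le_div_iff₀ hd0, mul_comm]
    exact h1
  nlinarith [sq_nonneg ((s.2 w).y - 1)]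

/-- Twisted diagonals of monomials are absolutely integrable over truncations. -/
theorem lintegral_truncated_ne_top (W : QuotientWeight U) (f : TestMonomial U)
    {σ : Spc U → Spc U} (hσm : Measurable σ) (hσ : IsTwist σ) (hσb : MapsBoxes σ) (T : ℝ) :
    ∫⁻ s in Orbital.truncated U T, (W.w s : ℝ≥0∞) * ∑' γ : PGLF F, ‖f.kernel s (γ • σ s)‖ₑ
      ∂volSpc U ≠ ⊤ := by
  obtain ⟨W₀, X, c, A, R, hX, hc, -, hzero, hone, -⟩ := exists_quotientWeight U
  obtain ⟨B, hB⟩ := exists_box_of_truncated hX hc A R T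
  obtain ⟨X', c', B', R', hX', hc', hσ'⟩ := hσb X c B R hX hc
  obtain ⟨C, hC⟩ := autKernel_bound_box [f.absMono] hX hX' hc hc' B B' R R'
  set J : Spc U → ℝ≥0∞ := (Orbital.truncated U T).indicator
    fun s => ENNReal.ofReal (autKernel [f.absMono] s (σ s)).re with hJ
  have hre : Measurable fun s => ENNReal.ofReal (autKernel [f.absMono] s (σ s)).re :=
    (Complex.measurable_re.comp (measurable_autKernel_twist [f.absMono] hσm)).ennreal_ofReal
  have hJm : Measurable J := hre.indicator (Orbital.measurableSet_truncated U T)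
  have hJinv : ∀ (γ : PGLF F) s, J (γ • s) = J s := fun γ s => by
    by_cases hs : s ∈ Orbital.truncated U T
    · rw [hJ, Set.indicator_of_mem hs,
        Set.indicator_of_mem ((Orbital.smul_mem_truncated_iff_pgl γ).mpr hs),
        autKernel_twist_smul _ hσ]
    · rw [hJ, Set.indicator_of_notMem hs,
        Set.indicator_of_notMem (mt (Orbital.smul_mem_truncated_iff_pgl γ).mp hs)]
  have e : ∫⁻ s in Orbital.truncated U T, (W.w s : ℝ≥0∞) * ∑' γ : PGLF F, ‖f.kernel s (γ • σ s)‖ₑ
      ∂volSpc U = ∫⁻ s, J s ∂qMeas W := by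
    rw [lintegral_qMeas W hJm, ← lintegral_indicator (Orbital.measurableSet_truncated U T)]
    refine lintegral_congr fun s => ?_
    by_cases hs : s ∈ Orbital.truncated U T
    · rw [hJ, Set.indicator_of_mem hs, Set.indicator_of_mem hs, tsum_enorm_eq]
    · rw [hJ, Set.indicator_of_notMem hs, Set.indicator_of_notMem hs, mul_zero]
  rw [e, lintegral_qMeas_congr W W₀ hJm hJinv, lintegral_qMeas W₀ hJm]
  refine ne_top_of_le_ne_top (b := ENNReal.ofReal |C| * volSpc U (boxSet U X c B R))
    (ENNReal.mul_ne_top ENNReal.ofReal_ne_top (volSpc_boxSet_lt_top hX hc B R).ne) ?_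
  rw [← measure_toMeasurable (boxSet U X c B R), ← setLIntegral_const,
    ← lintegral_indicator (measurableSet_toMeasurable _ _)]
  refine lintegral_mono fun s => ?_
  by_cases hs : s ∈ siegelSet U X c A R ∩ Orbital.truncated U T
  · rw [Set.indicator_of_mem (subset_toMeasurable _ _ (hB hs)), hJ, Set.indicator_of_mem hs.2,
      ← one_mul (ENNReal.ofReal |C|)]
    refine mul_le_mul' (ENNReal.coe_le_one_iff.mpr (hone s)) (ENNReal.ofReal_le_ofReal ?_)
    exact (Complex.re_le_norm _).trans ((hC s (hB hs) _ (hσ' s (hB hs))).trans (le_abs_self C))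
  · rcases not_and_or.mp hs with h | h
    · simp [hzero s h]
    · simp [hJ, Set.indicator_of_notMem h]

end Kernel

namespace Orbital

variable {K L : Type} [Field K] [NumberField K] [Field L] [NumberField L] [Algebra K L]
  (τ : CubicAut K L) {UL : Level L} (hU : IsStableLevel τ.σ.toRingEquiv UL)

omit [NumberField K] in
theorem isTwist_autSpc : Kernel.IsTwist (autSpc τ hU) :=
  fun γ => ⟨autPGL τ γ, fun s => autSpc_smul_pgl τ hU γ s⟩

omit [NumberField K] in
theorem mapsBoxes_autSpc : Kernel.MapsBoxes (autSpc τ hU) := by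
  intro X c B R hX hc
  refine ⟨autΩ τ.σ.toRingEquiv UL hU '' X, c, B, R, hX.image _, hc, fun s hs =>
    ⟨⟨s.1, hs.1, rfl⟩, fun w => ?_⟩⟩
  show ‖(coord _ s.2).z‖ ≤ R ∧ c ≤ (coord _ s.2).y ∧ (coord _ s.2).y ≤ B
  unfold coord
  split_ifs
  · exact hs.2 _
  · refine ⟨?_, (hs.2 _).2.1, (hs.2 _).2.2⟩
    show ‖(starRingEnd ℂ) _‖ ≤ R
    rw [RCLike.norm_conj]
    exact (hs.2 _).1

end Orbital

end Fermat.Agent.ResidualThree
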