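import Fermat.Agent.ResidualThree.Kernel.Image

/-!
# Eigenfunctions of automorphic kernels are bounded

A cuspidal automorphic function of moderate growth which is reproduced by a test function gains one
power of the height at each step: its mean over a period box vanishes, and the kernel moves little
over the box.
-/

noncomputable section

open IsDedekindDomain NumberField MeasureTheory Filter Topology
open scoped ENNReal NNReal

namespace Fermat.Agent.ResidualThree

variable {F : Type} [Field F] [NumberField F] {U : Level F}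

/-- Growth at most the `j`-th power of each height on every Siegel set. -/
def HasGrowth (U : Level F) (φ : Gf F → Hyp F → ℂ) (j : ℕ) : Prop :=
  ∀ (X : Set (Ωf U)) (c A R : ℝ), X.Finite → 0 < c → ∃ C : ℝ, 0 ≤ C ∧
    ∀ s ∈ siegelSet U X c A R, ∀ w₀ : InfinitePlace F, ‖onSpc U φ s‖ ≤ C * (s.2 w₀).y ^ j

namespace Kernel

/-- The balls around a point, over a finite set of classes. -/
def ballSet (U : Level F) (X : Set (Ωf U)) (p : Hyp F) (M : ℝ) : Set (Spc U) :=
  X ×ˢ Set.univ.pi fun w => H3.ball (p w) M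

theorem vol_ball (p : H3) (M : ℝ) : H3.vol (H3.ball p M) = H3.vol (H3.ball H3.base M) := by
  rw [← (H3.measurePreserving_smul (H3.upTo p)).measure_preimage
    (H3.isCompact_ball p M).measurableSet.nullMeasurableSet]
  congr 1
  ext q
  show H3.coshDist p (H3.upTo p • q) ≤ M ↔ H3.coshDist H3.base q ≤ M
  rw [show H3.coshDist p (H3.upTo p • q) = H3.coshDist H3.base q by
    conv_rhs => rw [← H3.coshDist_smul (H3.upTo p), H3.upTo_smul_base]]

theorem exists_volume_ballSet {X : Set (Ωf U)} (hX : X.Finite) (M : ℝ) :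
    ∃ V : ℝ≥0∞, V ≠ ⊤ ∧ ∀ p, MeasurableSet (ballSet U X p M) ∧
      volSpc U (ballSet U X p M) = V := by
  refine ⟨Measure.count X * H3.vol (H3.ball H3.base M) ^ Fintype.card (InfinitePlace F),
    ENNReal.mul_ne_top (Measure.count_apply_lt_top.mpr hX).ne
      (ENNReal.pow_ne_top (H3.isCompact_ball_base M).measure_lt_top.ne), fun p => ⟨?_, ?_⟩⟩
  · exact (show MeasurableSet X from trivial).prod
      (MeasurableSet.univ_pi fun w => (H3.isCompact_ball (p w) M).measurableSet)
  · rw [ballSet, volSpc, Measure.prod_prod, Measure.pi_pi]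
    simp only [vol_ball, Finset.prod_const, Finset.card_univ]

variable [IsTotallyComplex F]

omit [IsTotallyComplex F] in
/-- A period fixing the class of `ω.out` is a period of an automorphic function there. -/
theorem isPeriodAt_of_fixes {φ : Gf F → Hyp F → ℂ} (hφ : IsAutomorphic U φ) {ω : Ωf U} {m : ℕ}
    (hfix : ∀ (b : 𝓞 F) (g : GL (Fin 2) F),
      (g : Matrix (Fin 2) (Fin 2) F) = !![1, (m : F) * (b : F); 0, 1] →
        g • ((ω.out : Gf F) : Ωf U) = ((ω.out : Gf F) : Ωf U)) :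
    IsPeriodAt φ ω.out m := fun b q => by
  have hg : ((upGL 1 1 ((m : F) * (b : F)) : GL (Fin 2) F) : Matrix (Fin 2) (Fin 2) F) =
      !![1, (m : F) * (b : F); 0, 1] := by simp
  have e := onSpc_smul hφ ((upGL 1 1 ((m : F) * (b : F)) : GL (Fin 2) F) : PGLF F)
    (((ω.out : Gf F) : Ωf U), q)
  rw [mk_smul_spc] at e
  rw [← onSpc_mk hφ ω.out q, ← e, ← onSpc_mk hφ ω.out]
  refine congrArg (onSpc U φ) (Prod.ext ?_ ?_)
  · exact (hfix b _ hg).symm
  · funext w
    refine H3.ext ?_ ?_
    · show (q w).z + _ = ((upGL 1 1 ((m : F) * (b : F)) • q) w).z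
      rw [upGL_smul_z]
      simp
    · show (q w).y = ((upGL 1 1 ((m : F) * (b : F)) • q) w).y
      rw [upGL_smul_y]
      simp

/-- Growth near the points of a Siegel set: a translation by a period brings a neighbour into a
larger Siegel set. -/
theorem exists_growth_near {φ : Gf F → Hyp F → ℂ} (hφ : IsAutomorphic U φ) {j : ℕ}
    (hj : HasGrowth U φ j) {X' : Set (Ωf U)} (hX' : X'.Finite) {c M : ℝ} (hc : 0 < c) (hM : 1 ≤ M)
    (A : ℝ) :
    ∃ C : ℝ, 0 ≤ C ∧ ∀ s : Spc U, (∀ w, c ≤ (s.2 w).y ∧ ∀ w', (s.2 w).y ≤ A * (s.2 w').y) →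
      ∀ (q : Hyp F) (t : Spc U), (∀ w, (q w).y = (s.2 w).y) → t ∈ ballSet U X' q M →
        ∀ w₀, ‖onSpc U φ t‖ ≤ C * (s.2 w₀).y ^ j := by
  obtain ⟨m', hm', hfix'⟩ := exists_fixing_period (U := U) hX'
  obtain ⟨R', hR'⟩ := exists_translate_le F m' hm'
  obtain ⟨C, hC0, hC⟩ := hj X' (c / (2 * M)) (4 * M * M * |A|) R' hX' (by positivity)
  refine ⟨C * (2 * M) ^ j, by positivity, fun s hs q t hq ht w₀ => ?_⟩
  have hb : ∀ w, (t.2 w).y ≤ 2 * M * (s.2 w).y ∧ (s.2 w).y ≤ 2 * M * (t.2 w).y := fun w => by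
    obtain ⟨h1, h2, -⟩ := H3.bounds_of_coshDist_le (ht.2 w (Set.mem_univ w))
    rw [hq w] at h1 h2
    exact ⟨h1, h2⟩
  obtain ⟨b, hb'⟩ := hR' fun w => (t.2 w).z
  set g : GL (Fin 2) F := upGL 1 1 ((m' : F) * (b : F))
  have hg : (g : Matrix (Fin 2) (Fin 2) F) = !![1, (m' : F) * (b : F); 0, 1] := by simp [g]
  have h1 : (g • t).1 = t.1 := hfix' _ ht.1 b g hg
  have hy : ∀ w, ((g • t).2 w).y = (t.2 w).y := fun w => by
    show ((g • t.2) w).y = _
    rw [upGL_smul_y]; simp
  have hmem : g • t ∈ siegelSet U X' (c / (2 * M)) (4 * M * M * |A|) R' := by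
    refine ⟨h1 ▸ ht.1, fun w => ⟨?_, ?_, fun w' => ?_⟩⟩
    · show ‖((g • t.2) w).z‖ ≤ R'
      rw [upGL_smul_z]
      simpa using hb' w
    · rw [hy, div_le_iff₀ (by positivity)]
      exact (hs w).1.trans ((hb w).2.trans (le_of_eq (mul_comm _ _)))
    · rw [hy, hy]
      calc (t.2 w).y ≤ 2 * M * (s.2 w).y := (hb w).1
        _ ≤ 2 * M * (|A| * (2 * M * (t.2 w').y)) := by
          refine mul_le_mul_of_nonneg_left ?_ (by positivity)
          exact ((hs w).2 w').trans (mul_le_mul (le_abs_self A) (hb w').2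
            (s.2 w').y_pos.le (abs_nonneg A))
        _ = 4 * M * M * |A| * (t.2 w').y := by ring
  rw [show onSpc U φ t = onSpc U φ (g • t) by rw [← onSpc_smul hφ (g : PGLF F) t, mk_smul_spc],
    mul_assoc, ← mul_pow]
  refine (hC _ hmem w₀).trans (mul_le_mul_of_nonneg_left (pow_le_pow_left₀ ?_ ?_ _) hC0)
  · exact ((g • t).2 w₀).y_pos.le
  · rw [hy]; exact (hb w₀).1

/-- Each step of the bootstrap. -/
theorem _root_.Fermat.Agent.ResidualThree.HasGrowth.step {φ : Gf F → Hyp F → ℂ}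
    (hφ : IsAutomorphic U φ)
    (hcusp : IsCuspidal φ)
    (f : TestFun U) (K : ℂ)
    (hrep : ∀ s, onSpc U φ s = K * ∫ t, kernel f s t * onSpc U φ t ∂volSpc U) {j : ℕ}
    (hj : HasGrowth U φ (j + 1)) : HasGrowth U φ j := by
  classical
  intro X c A R hX hc
  obtain ⟨X', M, hX', hM, hrad⟩ := exists_radius f hX
  obtain ⟨m, hm, hfix⟩ := exists_fixing_period (U := U) hX
  obtain ⟨P, hP0, hP⟩ := norm_boxPt_le (F := F) m
  obtain ⟨L, hL0, hL⟩ := exists_kernel_lipschitz f
  obtain ⟨V, hV, hball⟩ := exists_volume_ballSet hX' M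
  obtain ⟨C, hC0, hnear⟩ := exists_growth_near hφ hj hX' hc hM A
  set n := Fintype.card (InfinitePlace F) with hn
  set D : ℝ := L * (n * (P * |A|)) * C
  refine ⟨‖K‖ * (2 * V.toReal * D), by positivity, fun s hs w₀ => ?_⟩
  set y₀ := (s.2 w₀).y
  have hy0 : 0 < y₀ := (s.2 w₀).y_pos
  have hφm := measurable_onSpc hφ
  have hbox : ∀ X : Set (Ωf U), ∀ c B R : ℝ, X.Finite → 0 < c →
      ∃ C : ℝ, ∀ t ∈ boxSet U X c B R, ‖onSpc U φ t‖ ≤ C := by
    intro Y d B S hY hd
    obtain ⟨E, hE0, hE⟩ := hj Y d (B / d) S hY hd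
    refine ⟨E * B ^ (j + 1), fun t ht => (hE t (boxSet_subset_siegelSet hd ht) w₀).trans ?_⟩
    exact mul_le_mul_of_nonneg_left (pow_le_pow_left₀ (t.2 w₀).y_pos.le (ht.2 w₀).2.2 _) hE0
  -- the kernel moves little
  set sr : (BasisIx F → ℝ) → Spc U := fun r => (s.1, horoShift (boxPt m r) s.2) with hsr
  have hdiff : ∀ r ∈ Set.Icc (0 : BasisIx F → ℝ) 1,
      ‖onSpc U φ s - onSpc U φ (sr r)‖ ≤ ‖K‖ * (2 * V.toReal * D) * y₀ ^ j := by
    intro r hr
    set p' := horoShift (boxPt m r) s.2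
    have hlip : ∀ t, ‖kernel f s t - kernel f (sr r) t‖ ≤ L * (n * (P * |A| / y₀)) := fun t => by
      refine (hL s.1 s.2 p' t).trans (mul_le_mul_of_nonneg_left ?_ hL0)
      refine le_trans (Finset.sum_le_card_nsmul _ _ (P * |A| / y₀) fun w _ => ?_)
        (le_of_eq (by rw [Finset.card_univ, ← hn, nsmul_eq_mul]))
      refine (sqrt_coshDist_shift_le (s.2 w) (boxPt m r w)).trans ((div_le_div_of_nonneg_right
        (hP r hr w) (s.2 w).y_pos.le).trans ?_)
      rw [div_le_div_iff₀ (s.2 w).y_pos hy0, mul_assoc]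
      exact mul_le_mul_of_nonneg_left (((hs.2 w₀).2.2 w).trans
        (mul_le_mul_of_nonneg_right (le_abs_self A) (s.2 w).y_pos.le)) hP0
    set E : ℝ := L * (n * (P * |A| / y₀)) * (C * y₀ ^ (j + 1)) with hE
    have hE0 : 0 ≤ E := by positivity
    set G : Spc U → ℝ := fun t =>
      (ballSet U X' s.2 M).indicator (fun _ => E) t + (ballSet U X' p' M).indicator (fun _ => E) t
    have hGi : ∀ q, Integrable ((ballSet U X' q M).indicator fun _ => E) (volSpc U) := fun q =>
      (integrableOn_const (by rw [(hball q).2]; exact hV)).integrable_indicator (hball q).1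
    have hle : ∀ t, ‖(kernel f s t - kernel f (sr r) t) * onSpc U φ t‖ ≤ G t := by
      intro t
      have h0 : ∀ q, 0 ≤ (ballSet U X' q M).indicator (fun _ => E) t := fun q =>
        Set.indicator_nonneg (fun _ _ => hE0) t
      by_cases h : kernel f s t = 0 ∧ kernel f (sr r) t = 0
      · rw [h.1, h.2, sub_zero, zero_mul, norm_zero]
        exact add_nonneg (h0 _) (h0 _)
      rw [norm_mul]
      rcases not_and_or.mp h with h | h
      · obtain ⟨ha, hb⟩ := hrad s t hs.1 h
        have hmem : t ∈ ballSet U X' s.2 M := ⟨ha, fun w _ => hb w⟩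
        refine le_trans ?_ (le_add_of_nonneg_right (h0 _))
        rw [Set.indicator_of_mem hmem]
        exact mul_le_mul (hlip t) (hnear s (fun w => (hs.2 w).2) s.2 t (fun w => rfl) hmem w₀)
          (norm_nonneg _) (by positivity)
      · obtain ⟨ha, hb⟩ := hrad (sr r) t hs.1 h
        have hmem : t ∈ ballSet U X' p' M := ⟨ha, fun w _ => hb w⟩
        refine le_trans ?_ (le_add_of_nonneg_left (h0 _))
        rw [Set.indicator_of_mem hmem]
        exact mul_le_mul (hlip t) (hnear s (fun w => (hs.2 w).2) p' t (fun w => rfl) hmem w₀)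
          (norm_nonneg _) (by positivity)
    have hG : ∫ t, G t ∂volSpc U = 2 * V.toReal * E := by
      rw [integral_add (hGi _) (hGi _), integral_indicator_const _ (hball _).1,
        integral_indicator_const _ (hball _).1, measureReal_def, measureReal_def, (hball _).2,
        (hball _).2, smul_eq_mul]
      ring
    rw [hrep s, hrep (sr r), ← mul_sub, ← integral_sub (integrable_kernel_mul f s hφm hbox)
      (integrable_kernel_mul f _ hφm hbox), norm_mul]
    simp only [← sub_mul]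
    refine (mul_le_mul_of_nonneg_left ((norm_integral_le_of_norm_le ((hGi _).add (hGi _))
      (Eventually.of_forall hle)).trans hG.le) (norm_nonneg K)).trans (le_of_eq ?_)
    rw [hE, pow_succ]
    field_simp
    ring
  -- the mean over the box vanishes
  set ω := s.1 with hω
  have hper : IsPeriodAt φ ω.out m :=
    isPeriodAt_of_fixes hφ (hfix _ (by rw [QuotientGroup.out_eq']; exact hs.1))
  exact norm_le_of_setIntegral_eq_zero
    ((hφ.continuous ω.out).comp
      (continuous_horoShift.comp ((continuous_boxPt m).prodMk continuous_const)))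
    (hcusp ω.out s.2 m hm hper) hdiff

/-- Growth zero is boundedness. -/
theorem _root_.Fermat.Agent.ResidualThree.HasGrowth.isBoundedFn {φ : Gf F → Hyp F → ℂ}
    (hφ : IsAutomorphic U φ)
    (h : HasGrowth U φ 0) : IsBoundedFn φ := by
  obtain ⟨X, c, A, R, hX, hc, hcov⟩ := exists_siegel_cover U
  obtain ⟨w₀⟩ := (inferInstance : Nonempty (InfinitePlace F))
  obtain ⟨C, -, hC⟩ := h X c A R hX hc
  refine ⟨C, fun x p => ?_⟩
  obtain ⟨g, hg⟩ := hcov ((x : Ωf U), p)
  have := hC _ hg w₀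
  rw [← mk_smul_spc, onSpc_smul hφ, onSpc_mk hφ, pow_zero, mul_one] at this
  exact this

/-- A cuspidal function of moderate growth reproduced by a test function is bounded. -/
theorem isBoundedFn_of_reproduced {φ : Gf F → Hyp F → ℂ} (hφ : IsAutomorphic U φ)
    (hcusp : IsCuspidal φ) (f : TestFun U) (K : ℂ)
    (hrep : ∀ s, onSpc U φ s = K * ∫ t, kernel f s t * onSpc U φ t ∂volSpc U) {j : ℕ}
    (hj : HasGrowth U φ j) : IsBoundedFn φ := by
  induction j with
  | zero => exact hj.isBoundedFn hφ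
  | succ j ih => exact ih (hj.step hφ hcusp f K hrep)

omit [IsTotallyComplex F] in
theorem onSpc_smul_fn (c : ℂ) (φ : Gf F → Hyp F → ℂ) (s : Spc U) :
    onSpc U (c • φ) s = c * onSpc U φ s := rfl

/-- An eigenvector of the operator of a test function killing constants is a bounded cuspidal
automorphic function, and an eigenfunction everywhere. -/
theorem exists_eigenFn {W : QuotientWeight U} {f : TestFun U} (hf : KillsConstant f) (h : IsHS W f)
    {v : Lp ℂ 2 (qMeas W)} {χ : ℂ} (hχ : χ ≠ 0) (hv : opK (kerL2 h) v = χ • v) :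
    ∃ φ : Gf F → Hyp F → ℂ, IsAutomorphic U φ ∧ IsCuspidal φ ∧ IsBoundedFn φ ∧
      (v : Spc U → ℂ) =ᵐ[qMeas W] onSpc U φ ∧
      ∀ s, ∫ t, kernel f s t * onSpc U φ t ∂volSpc U = χ * onSpc U φ s := by
  have hvi := integrable_lp W v
  set ψ := imageFn W f (v : Spc U → ℂ) with hψdef
  have hψ : IsAutomorphic U ψ := isAutomorphic_imageFn W f hvi
  have hψc : IsCuspidal ψ := isCuspidal_imageFn W hf hvi
  set φ := χ⁻¹ • ψ with hφdef
  have hφ : IsAutomorphic U φ := hψ.smul χ⁻¹
  have hφc : IsCuspidal φ := fun x p m hm hper => by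
    have hper' : ∀ (b : 𝓞 F) (q : Hyp F),
        ψ x (horoShift (fun w => (m : ℂ) * w.embedding (b : F)) q) = ψ x q := fun b q =>
      mul_left_cancel₀ (inv_ne_zero hχ) (hper b q)
    simp only [hφdef, Pi.smul_apply, smul_eq_mul, integral_const_mul, hψc x p m hm hper', mul_zero]
  have hae : (v : Spc U → ℂ) =ᵐ[qMeas W] onSpc U φ := by
    have h2 := opK_kerL2_ae_imageFn h v
    rw [hv] at h2
    filter_upwards [h2, Lp.coeFn_smul χ v] with s h2 h3
    rw [h3, Pi.smul_apply, smul_eq_mul] at h2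
    rw [hφdef, onSpc_smul_fn, hψdef, ← h2, inv_mul_cancel_left₀ hχ]
  have hgrow : HasGrowth U φ (2 * Fintype.card (InfinitePlace F) - 1) := by
    intro X c A R hX hc
    obtain ⟨C, hC0, hC⟩ := exists_cusp_bound f hf hX hc A R
    set N := ∫ t, ‖(v : Spc U → ℂ) t‖ ∂qMeas W
    refine ⟨‖χ⁻¹‖ * (C * N), by positivity, fun s hs w₀ => ?_⟩
    rw [hφdef, onSpc_smul_fn, norm_mul, mul_assoc ‖χ⁻¹‖, hψdef, onSpc_imageFn]
    refine mul_le_mul_of_nonneg_left ?_ (norm_nonneg _)
    refine (norm_integral_le_of_norm_le (g := fun t =>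
      C * (s.2 w₀).y ^ (2 * Fintype.card (InfinitePlace F) - 1) * ‖(v : Spc U → ℂ) t‖)
      (hvi.norm.const_mul _) (Eventually.of_forall fun t => ?_)).trans (le_of_eq ?_)
    · rw [norm_mul]
      exact mul_le_mul_of_nonneg_right (hC s hs t w₀) (norm_nonneg _)
    · rw [integral_const_mul]
      ring
  have heig : ∀ s, ∫ t, kernel f s t * onSpc U φ t ∂volSpc U = χ * onSpc U φ s := fun s => by
    obtain ⟨w₀⟩ := (inferInstance : Nonempty (InfinitePlace F))
    rw [← integral_autKernel_mul W f s (measurable_onSpc hφ) (onSpc_smul hφ) fun X c B R hX hc => by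
      obtain ⟨E, hE0, hE⟩ := hgrow X c (B / c) R hX hc
      exact ⟨E * B ^ (2 * Fintype.card (InfinitePlace F) - 1), fun t ht =>
        (hE t (boxSet_subset_siegelSet hc ht) w₀).trans (mul_le_mul_of_nonneg_left
          (pow_le_pow_left₀ (t.2 w₀).y_pos.le (ht.2 w₀).2.2 _) hE0)⟩]
    rw [hφdef, onSpc_smul_fn, mul_inv_cancel_left₀ hχ, hψdef, onSpc_imageFn]
    exact integral_congr_ae (hae.mono fun t ht => by simp only [ht, hφdef, hψdef])
  refine ⟨φ, hφ, hφc, ?_, hae, heig⟩
  exact isBoundedFn_of_reproduced hφ hφc f χ⁻¹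
    (fun s => by rw [heig s, inv_mul_cancel_left₀ hχ]) hgrow

end Kernel

end Fermat.Agent.ResidualThree
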