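import Fermat.Agent.ResidualThree.Kernel.Integral

/-!
# Simultaneous diagonalisation of a commuting family of compact operators

A family of compact operators, pairwise commuting and closed under adjoints, has a Hilbert basis
of joint eigenvectors; for Hilbert–Schmidt kernels the eigencharacters are square summable.
-/

noncomputable section

open scoped ComplexConjugate InnerProductSpace
open Module End

namespace Fermat.Agent.ResidualThree.Kernel

universe u v

variable {ι : Type v} {H : Type u} [NormedAddCommGroup H] [InnerProductSpace ℂ H] [CompleteSpace H]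

/-- A compact, commuting, adjoint-closed family of operators. -/
structure IsSpectralFamily (T : ι → H →L[ℂ] H) : Prop where
  compact : ∀ i, IsCompactOperator (T i)
  commute : ∀ i j, Commute (T i) (T j)
  adjoint_mem : ∀ i, ∃ j, T j = ContinuousLinearMap.adjoint (T i)

omit [CompleteSpace H] in
/-- A nonzero finite-dimensional stable subspace contains a joint eigenvector. -/
theorem exists_joint_eigvector_of_finite {T : ι → H →L[ℂ] H} (hT : ∀ i j, Commute (T i) (T j))
    (V : Submodule ℂ H) [FiniteDimensional ℂ V] (hV : V ≠ ⊥) (hinv : ∀ i, ∀ v ∈ V, T i v ∈ V) :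
    ∃ v ∈ V, v ≠ 0 ∧ ∀ i, ∃ c : ℂ, T i v = c • v := by
  induction hn : finrank ℂ V using Nat.strong_induction_on generalizing V with
  | h n ih =>
    by_cases hall : ∀ i, ∃ c : ℂ, ∀ v ∈ V, T i v = c • v
    · obtain ⟨v, hv, hv0⟩ := Submodule.exists_mem_ne_zero_of_ne_bot hV
      exact ⟨v, hv, hv0, fun i => ⟨(hall i).choose, (hall i).choose_spec v hv⟩⟩
    · push Not at hall
      obtain ⟨i, hi⟩ := hall
      have : Nontrivial V := Submodule.nontrivial_iff_ne_bot.mpr hV
      obtain ⟨c, hc⟩ := End.exists_eigenvalue ((T i : H →ₗ[ℂ] H).restrict (hinv i))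
      obtain ⟨w, hw⟩ := hc.exists_hasEigenvector
      let V' : Submodule ℂ H := V ⊓ eigenspace (T i : H →ₗ[ℂ] H) c
      have hw' : (w : H) ∈ V' := ⟨w.2,
        mem_eigenspace_iff.mpr (congrArg Subtype.val hw.apply_eq_smul)⟩
      have hV' : V' ≠ ⊥ := fun h => hw.2 (Subtype.ext ((Submodule.eq_bot_iff V').mp h _ hw'))
      have hlt : V' < V := by
        refine lt_of_le_of_ne inf_le_left fun h => ?_
        obtain ⟨v, hv, hne⟩ := hi c
        exact hne (mem_eigenspace_iff.mp ((h.symm ▸ hv : v ∈ V').2))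
      have : FiniteDimensional ℂ V' := Submodule.finiteDimensional_of_le inf_le_left
      have hinv' : ∀ j, ∀ v ∈ V', T j v ∈ V' := fun j v hv => ⟨hinv j v hv.1, by
        have e : T i v = c • v := mem_eigenspace_iff.mp hv.2
        refine mem_eigenspace_iff.mpr ?_
        show T i (T j v) = c • T j v
        rw [show T i (T j v) = T j (T i v) from
          DFunLike.congr_fun (hT i j).eq v, e, map_smul]⟩
      obtain ⟨v, hv, h0, hev⟩ := ih _ (hn ▸ Submodule.finrank_lt_finrank_of_lt hlt) V' hV' hinv' rfl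
      exact ⟨v, hv.1, h0, hev⟩

/-- An operator vanishes at `v` when both of its symmetric parts do. -/
theorem eq_zero_of_symm_parts {T : H →L[ℂ] H} {v : H}
    (h1 : (T + ContinuousLinearMap.adjoint T) v = 0)
    (h2 : (Complex.I • (T - ContinuousLinearMap.adjoint T)) v = 0) : T v = 0 := by
  simp only [add_apply, smul_apply, sub_apply] at h1 h2
  have h3 : T v - ContinuousLinearMap.adjoint T v = 0 :=
    (smul_eq_zero.mp h2).resolve_left Complex.I_ne_zero
  have h4 : (2 : ℂ) • T v = 0 := by
    rw [two_smul]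
    calc T v + T v = (T v + ContinuousLinearMap.adjoint T v) +
          (T v - ContinuousLinearMap.adjoint T v) := by abel
      _ = 0 := by rw [h1, h3, add_zero]
  exact (smul_eq_zero.mp h4).resolve_left two_ne_zero

/-- A nonzero invariant closed subspace of a spectral family contains a joint eigenvector. -/
theorem IsSpectralFamily.exists_eigvector {T : ι → H →L[ℂ] H} (hT : IsSpectralFamily T)
    (M : Submodule ℂ H) [M.HasOrthogonalProjection] (hM : M ≠ ⊥)
    (hinv : ∀ i, ∀ v ∈ M, T i v ∈ M) :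
    ∃ v ∈ M, v ≠ 0 ∧ ∀ i, ∃ c : ℂ, T i v = c • v := by
  by_cases h0 : ∀ i, ∀ v ∈ M, T i v = 0
  · obtain ⟨v, hv, hv0⟩ := Submodule.exists_mem_ne_zero_of_ne_bot hM
    exact ⟨v, hv, hv0, fun i => ⟨0, by rw [h0 i v hv, zero_smul]⟩⟩
  push Not at h0
  obtain ⟨i, v, hv, hne⟩ := h0
  obtain ⟨i', hi'⟩ := hT.adjoint_mem i
  -- a symmetric member of the generated algebra, not vanishing at `v`
  obtain ⟨A, hAsymm, hAc, hAcomm, hAinv, hAv⟩ : ∃ A : H →L[ℂ] H,
      (A : H →ₗ[ℂ] H).IsSymmetric ∧ IsCompactOperator A ∧ (∀ j, Commute A (T j)) ∧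
        (∀ w ∈ M, A w ∈ M) ∧ A v ≠ 0 := by
    have hc1 : ∀ j, Commute (T i + T i') (T j) := fun j =>
      (hT.commute i j).add_left (hT.commute i' j)
    have hc2 : ∀ j, Commute (Complex.I • (T i - T i')) (T j) := fun j =>
      ((hT.commute i j).sub_left (hT.commute i' j)).smul_left _
    have hs1 : IsSelfAdjoint (T i + T i') := by
      rw [hi', ← ContinuousLinearMap.star_eq_adjoint]
      exact IsSelfAdjoint.add_star_self _
    have hs2 : IsSelfAdjoint (Complex.I • (T i - T i')) := by
      rw [hi', ← ContinuousLinearMap.star_eq_adjoint]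
      rw [IsSelfAdjoint, star_smul, star_sub, star_star, Complex.star_def, Complex.conj_I, neg_smul,
        ← smul_neg, neg_sub]
    by_cases h1 : (T i + T i') v = 0
    · refine ⟨Complex.I • (T i - T i'), ContinuousLinearMap.isSelfAdjoint_iff_isSymmetric.mp hs2,
        ((hT.compact i).sub (hT.compact i')).smul Complex.I, hc2,
        fun w hw => M.smul_mem _ (M.sub_mem (hinv i w hw) (hinv i' w hw)), fun h2 => hne ?_⟩
      exact eq_zero_of_symm_parts (hi' ▸ h1) (hi' ▸ h2)
    · exact ⟨T i + T i', ContinuousLinearMap.isSelfAdjoint_iff_isSymmetric.mp hs1,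
        (hT.compact i).add (hT.compact i'), hc1,
        fun w hw => M.add_mem (hinv i w hw) (hinv i' w hw), h1⟩
  -- an eigenvector which is not orthogonal to `A v`
  obtain ⟨c, e, he, hip⟩ : ∃ (c : ℂ) (e : H),
      e ∈ eigenspace (A : End ℂ H) c ∧ ⟪e, A v⟫_ℂ ≠ 0 := by
    by_contra hno
    push Not at hno
    have hbot := ContinuousLinearMap.orthogonalComplement_iSup_eigenspaces_eq_bot hAc hAsymm
    refine hAv ((Submodule.eq_bot_iff _).mp hbot _ ?_)
    rw [← Submodule.iInf_orthogonal, Submodule.mem_iInf]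
    exact fun c w hw => hno c w hw
  have hAe : A e = c • e := mem_eigenspace_iff.mp he
  have hc : c ≠ 0 := fun h => hip (by
    rw [← show ⟪A e, v⟫_ℂ = ⟪e, A v⟫_ℂ from hAsymm e v, hAe, h, zero_smul, inner_zero_left])
  -- its projection is again an eigenvector
  set p := M.starProjection e with hp
  have hpM : p ∈ M := M.starProjection_apply_mem e
  have hq : e - p ∈ Mᗮ := M.sub_starProjection_mem_orthogonal e
  have hAq : A (e - p) ∈ Mᗮ := fun w hw => by
    rw [show ⟪w, A (e - p)⟫_ℂ = ⟪A w, e - p⟫_ℂ from (hAsymm w (e - p)).symm]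
    exact hq _ (hAinv w hw)
  have hAp : A p = c • p := by
    have h1 : A p - c • p ∈ M := M.sub_mem (hAinv p hpM) (M.smul_mem _ hpM)
    have h2 : A p - c • p ∈ Mᗮ := by
      have : A p - c • p = -(A (e - p) - c • (e - p)) := by
        rw [map_sub, hAe, smul_sub]; abel
      rw [this]
      exact Mᗮ.neg_mem (Mᗮ.sub_mem hAq (Mᗮ.smul_mem _ hq))
    exact sub_eq_zero.mp (Submodule.disjoint_def.mp M.orthogonal_disjoint _ h1 h2)
  have hp0 : p ≠ 0 := fun h => hip (by
    have : e ∈ Mᗮ := by simpa [h] using hq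
    exact (Submodule.mem_orthogonal' _ _).mp this _ (hAinv v hv))
  have := ContinuousLinearMap.finite_dimensional_eigenspace hAc c hc
  let V : Submodule ℂ H := M ⊓ eigenspace (A : End ℂ H) c
  have : FiniteDimensional ℂ V := Submodule.finiteDimensional_of_le inf_le_right
  have hV : V ≠ ⊥ := fun h =>
    hp0 ((Submodule.eq_bot_iff V).mp h p ⟨hpM, mem_eigenspace_iff.mpr hAp⟩)
  obtain ⟨w, hw, hw0, hev⟩ := exists_joint_eigvector_of_finite hT.commute V hV fun j x hx =>
    ⟨hinv j x hx.1, mem_eigenspace_iff.mpr (show A (T j x) = c • T j x by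
      rw [show A (T j x) = T j (A x) from DFunLike.congr_fun (hAcomm j).eq x,
        show A x = c • x from mem_eigenspace_iff.mp hx.2, map_smul])⟩
  exact ⟨w, hw.1, hw0, hev⟩

/-- A Hilbert basis of joint eigenvectors. -/
theorem IsSpectralFamily.exists_eigenbasis {T : ι → H →L[ℂ] H} (hT : IsSpectralFamily T) :
    ∃ (κ : Set H) (b : HilbertBasis κ ℂ H) (χ : κ → ι → ℂ),
      ∀ j i, T i (b j) = χ j i • b j := by
  let P : Set (Set H) := {s | Orthonormal ℂ (Subtype.val : s → H) ∧
    ∀ v ∈ s, ∀ i, ∃ c : ℂ, T i v = c • v}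
  obtain ⟨w, -, ⟨hw, hev⟩, hmax⟩ := zorn_subset_nonempty P (fun c hc cc _ =>
    ⟨⋃₀ c, ⟨orthonormal_sUnion_of_directed cc.directedOn fun x hx => (hc hx).1,
      fun v ⟨s, hs, hvs⟩ => (hc hs).2 v hvs⟩, fun _ => Set.subset_sUnion_of_mem⟩) ∅
    ⟨orthonormal_empty ℂ H, fun v hv => absurd hv (Set.notMem_empty v)⟩
  have hbot : (Submodule.span ℂ (Set.range (Subtype.val : w → H)))ᗮ = ⊥ := by
    rw [Subtype.range_coe]
    by_contra hne
    have hinv : ∀ i, ∀ x ∈ (Submodule.span ℂ w)ᗮ, T i x ∈ (Submodule.span ℂ w)ᗮ := by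
      intro i x hx
      obtain ⟨i', hi'⟩ := hT.adjoint_mem i
      intro u hu
      rw [← ContinuousLinearMap.adjoint_inner_left, ← hi']
      refine hx _ ?_
      induction hu using Submodule.span_induction with
      | mem y hy =>
        obtain ⟨c, hc⟩ := hev y hy i'
        rw [hc]; exact Submodule.smul_mem _ _ (Submodule.subset_span hy)
      | zero => simp
      | add y z _ _ h1 h2 => rw [map_add]; exact Submodule.add_mem _ h1 h2
      | smul a y _ h1 => rw [map_smul]; exact Submodule.smul_mem _ _ h1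
    obtain ⟨v, hv, hv0, hvev⟩ := hT.exists_eigvector _ hne hinv
    set v' : H := (‖v‖⁻¹ : ℂ) • v
    have hv' : v' ∈ (Submodule.span ℂ w)ᗮ := Submodule.smul_mem _ _ hv
    have hn : ‖v'‖ = 1 := norm_smul_inv_norm hv0
    have hnot : v' ∉ w := fun h => by
      have h1 := hv' v' (Submodule.subset_span h)
      rw [inner_self_eq_norm_sq_to_K, hn] at h1
      simp at h1
    have hins : insert v' w ∈ P := by
      refine ⟨?_, ?_⟩
      · classical
        rw [orthonormal_subtype_iff_ite] at hw ⊢
        intro a ha b hb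
        rcases Set.mem_insert_iff.mp ha with rfl | ha' <;>
          rcases Set.mem_insert_iff.mp hb with rfl | hb'
        · simp [inner_self_eq_norm_sq_to_K, hn]
        · rw [if_neg (fun h : v' = b => hnot (h ▸ hb')), ← inner_conj_symm,
            hv' b (Submodule.subset_span hb'), map_zero]
        · rw [if_neg (fun h : a = v' => hnot (h ▸ ha')), hv' a (Submodule.subset_span ha')]
        · exact hw a ha' b hb'
      · rintro u (rfl | hu) i
        · obtain ⟨c, hc⟩ := hvev i
          exact ⟨c, by rw [map_smul, hc, smul_comm]⟩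
        · exact hev u hu i
    exact hnot (hmax hins (Set.subset_insert v' w) (Set.mem_insert v' w))
  refine ⟨w, HilbertBasis.mkOfOrthogonalEqBot hw hbot,
    fun j i => (hev j.1 j.2 i).choose, fun j i => ?_⟩
  rw [HilbertBasis.coe_mkOfOrthogonalEqBot]
  exact (hev j.1 j.2 i).choose_spec

/-- On a joint eigenbasis the adjoint acts by the conjugate character. -/
theorem adjoint_eigen {κ : Type*} (b : HilbertBasis κ ℂ H) {A : H →L[ℂ] H} {c : κ → ℂ}
    (h : ∀ j, A (b j) = c j • b j) (j : κ) :
    ContinuousLinearMap.adjoint A (b j) = conj (c j) • b j := by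
  classical
  refine b.repr.injective (lp.ext (funext fun k => ?_))
  rw [HilbertBasis.repr_apply_apply, HilbertBasis.repr_apply_apply,
    ContinuousLinearMap.adjoint_inner_right, h, inner_smul_left, inner_smul_right,
    orthonormal_iff_ite.mp b.orthonormal]
  by_cases hk : k = j
  · subst hk; rfl
  · simp [if_neg hk]

section Trace

open MeasureTheory

variable {X : Type*} [MeasurableSpace X] {μ : Measure X} [SigmaFinite μ]

/-- The characters are square summable. -/
theorem summable_norm_sq_char {κ : Type*} (b : HilbertBasis κ ℂ (Lp ℂ 2 μ))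
    (K : Lp ℂ 2 (μ.prod μ)) {c : κ → ℂ} (h : ∀ j, opK K (b j) = c j • b j) :
    Summable fun j => ‖c j‖ ^ 2 := by
  refine (hasSum_norm_sq_opK b K).summable.congr fun j => ?_
  rw [h, norm_smul, b.orthonormal.1 j, mul_one]

/-- A commuting, adjoint-closed family of kernels has a joint eigenbasis. -/
theorem exists_eigenbasis_kernels {κ₀ : Type*} (K : κ₀ → Lp ℂ 2 (μ.prod μ))
    (hcomm : ∀ i j, Commute (opK (K i)) (opK (K j))) (hadj : ∀ i, ∃ j, K j = adjK (K i)) :
    ∃ (κ : Set (Lp ℂ 2 μ)) (b : HilbertBasis κ ℂ (Lp ℂ 2 μ)) (χ : κ → κ₀ → ℂ),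
      ∀ j i, opK (K i) (b j) = χ j i • b j := by
  refine IsSpectralFamily.exists_eigenbasis ⟨fun i => isCompactOperator_opK _, hcomm, fun i => ?_⟩
  obtain ⟨j, hj⟩ := hadj i
  exact ⟨j, by rw [hj, opK_adjK]⟩

end Trace

end Fermat.Agent.ResidualThree.Kernel
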