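import Fermat.Agent.ResidualThree.Automorphic.Weight
import Fermat.Agent.ResidualThree.Kernel.Monomial

/-!
# Automorphic kernels

The periodised kernel is a finite sum at every point, invariant in both variables; unfolding.
-/

noncomputable section

open IsDedekindDomain NumberField MeasureTheory Filter Topology
open scoped ENNReal NNReal ComplexConjugate

namespace Fermat.Agent.ResidualThree

variable {F : Type} [Field F] [NumberField F] {U : Level F}

theorem kernel_nil (s t : Spc U) : kernel ([] : TestFun U) s t = 0 := rfl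

theorem kernel_cons (a : TestMonomial U) (f : TestFun U) (s t : Spc U) :
    kernel (a :: f) s t = a.kernel s t + kernel f s t := by
  rw [kernel, List.map_cons, List.sum_cons]; rfl

theorem kernel_append (f g : TestFun U) (s t : Spc U) :
    kernel (f ++ g) s t = kernel f s t + kernel g s t := by
  induction f with
  | nil => simp [kernel_nil]
  | cons a f ih => rw [List.cons_append, kernel_cons, kernel_cons, ih, add_assoc]

theorem kernel_pgl_smul (f : TestFun U) (γ : PGLF F) (s t : Spc U) :
    kernel f (γ • s) (γ • t) = kernel f s t := by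
  induction f with
  | nil => rw [kernel_nil, kernel_nil]
  | cons a f ih => rw [kernel_cons, kernel_cons, ih, a.kernel_pgl_smul]

theorem measurable_kernel (f : TestFun U) :
    Measurable fun z : Spc U × Spc U => kernel f z.1 z.2 := by
  induction f with
  | nil => exact measurable_const (a := (0 : ℂ))
  | cons a f ih =>
    simp only [kernel_cons]
    exact a.measurable_kernel.add ih

theorem measurable_kernel_right (f : TestFun U) (s : Spc U) : Measurable (kernel f s) :=
  Measurable.comp (g := fun z : Spc U × Spc U => kernel f z.1 z.2)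
    (f := fun t : Spc U => (s, t)) (measurable_kernel f) (measurable_const.prodMk measurable_id)

theorem kernel_bound (f : TestFun U) : ∃ C : ℝ, 0 ≤ C ∧ ∀ s t, ‖kernel f s t‖ ≤ C := by
  induction f with
  | nil => exact ⟨0, le_rfl, fun s t => by rw [kernel_nil, norm_zero]⟩
  | cons a f ih =>
    obtain ⟨C, hC⟩ := a.kernel_bound
    obtain ⟨D, hD0, hD⟩ := ih
    refine ⟨max C 0 + D, add_nonneg (le_max_right _ _) hD0, fun s t => ?_⟩
    rw [kernel_cons]
    exact (norm_add_le _ _).trans (add_le_add ((hC s t).trans (le_max_left _ _)) (hD s t))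

/-- The adjoint test function. -/
def adjFun (f : TestFun U) : TestFun U := f.map TestMonomial.adj

theorem kernel_adjFun (f : TestFun U) (s t : Spc U) :
    kernel (adjFun f) s t = conj (kernel f t s) := by
  induction f with
  | nil => simp [adjFun, kernel_nil]
  | cons a f ih =>
    rw [adjFun, List.map_cons, kernel_cons, kernel_cons, a.kernel_adj, map_add, ← ih]
    rfl

theorem autKernel_smul_right (f : TestFun U) (γ : PGLF F) (s t : Spc U) :
    autKernel f s (γ • t) = autKernel f s t := by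
  simp only [autKernel, ← mul_smul]
  exact (Equiv.mulRight γ).tsum_eq fun δ => kernel f s (δ • t)

theorem autKernel_smul_left (f : TestFun U) (γ : PGLF F) (s t : Spc U) :
    autKernel f (γ • s) t = autKernel f s t := by
  simp only [autKernel]
  rw [← (Equiv.mulLeft γ).tsum_eq fun δ => kernel f (γ • s) (δ • t)]
  refine tsum_congr fun δ => ?_
  rw [Equiv.coe_mulLeft, mul_smul, kernel_pgl_smul]

theorem autKernel_adjFun (f : TestFun U) (s t : Spc U) :
    autKernel (adjFun f) s t = conj (autKernel f t s) := by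
  simp only [autKernel, Complex.conj_tsum]
  rw [← (Equiv.inv (PGLF F)).tsum_eq]
  refine tsum_congr fun δ => ?_
  rw [Equiv.inv_apply, kernel_adjFun, ← kernel_pgl_smul f δ, smul_inv_smul]

theorem measurable_autKernel_right (f : TestFun U) (s : Spc U) : Measurable (autKernel f s) :=
  Measurable.tsum fun γ => (measurable_kernel_right f s).comp (measurable_const_smul γ)

theorem measurable_autKernel (f : TestFun U) :
    Measurable fun z : Spc U × Spc U => autKernel f z.1 z.2 := by
  refine Measurable.tsum fun γ => ?_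
  exact Measurable.comp (g := fun z : Spc U × Spc U => kernel f z.1 z.2)
    (f := fun z : Spc U × Spc U => (z.1, γ • z.2)) (measurable_kernel f)
    (measurable_fst.prodMk ((measurable_const_smul γ).comp measurable_snd))

section Finite

variable [IsTotallyComplex F]

/-- The translates between two boxes are finite. -/
theorem finite_box_pairs {X X' : Set (Ωf U)} (hX : X.Finite) (hX' : X'.Finite) {c c' : ℝ}
    (hc : 0 < c) (hc' : 0 < c') (B B' R R' : ℝ) :
    {γ : PGLF F | ∃ s ∈ boxSet U X c B R, γ • s ∈ boxSet U X' c' B' R'}.Finite := by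
  refine (finite_siegel_pairs hX hX' hc hc' (B / c) (B' / c') R R').subset ?_
  rintro γ ⟨s, hs, hs'⟩
  exact ⟨s, boxSet_subset_siegelSet hc hs, boxSet_subset_siegelSet hc' hs'⟩

/-- On a pair of boxes only finitely many translates contribute. -/
theorem exists_finset_translates (f : TestFun U) {X Y : Set (Ωf U)} (hX : X.Finite) (hY : Y.Finite)
    {c d : ℝ} (hc : 0 < c) (hd : 0 < d) (B B' R R' : ℝ) :
    ∃ G : Finset (PGLF F), ∀ s ∈ boxSet U X c B R, ∀ t ∈ boxSet U Y d B' R', ∀ γ,
      kernel f s (γ • t) ≠ 0 → γ ∈ G := by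
  obtain ⟨X', c', B'', R'', hX', hc', h⟩ := exists_box_supset f hX hc B R
  exact ⟨(finite_box_pairs hY hX' hd hc' B' B'' R' R'').toFinset, fun s hs t ht γ hγ =>
    (Set.Finite.mem_toFinset _).mpr ⟨t, ht, h s hs _ hγ⟩⟩

theorem finite_translates (f : TestFun U) (s t : Spc U) :
    {γ : PGLF F | kernel f s (γ • t) ≠ 0}.Finite := by
  obtain ⟨X, c, B, R, hX, hc, hs⟩ := exists_mem_boxSet s
  obtain ⟨Y, d, B', R', hY, hd, ht⟩ := exists_mem_boxSet t
  obtain ⟨G, hG⟩ := exists_finset_translates f hX hY hc hd B B' R R'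
  exact G.finite_toSet.subset fun γ hγ => hG s hs t ht γ hγ

theorem summable_translates (f : TestFun U) (s t : Spc U) :
    Summable fun γ : PGLF F => kernel f s (γ • t) :=
  summable_of_hasFiniteSupport (finite_translates f s t)

theorem autKernel_cons (a : TestMonomial U) (f : TestFun U) (s t : Spc U) :
    autKernel (a :: f) s t = autKernel [a] s t + autKernel f s t := by
  simp only [autKernel]
  rw [← (summable_translates [a] s t).tsum_add (summable_translates f s t)]
  exact tsum_congr fun γ => by rw [kernel_cons, kernel_cons, kernel_nil, add_zero]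

omit [IsTotallyComplex F] in
theorem volSpc_boxSet_lt_top {X : Set (Ωf U)} (hX : X.Finite) {c : ℝ} (hc : 0 < c) (B R : ℝ) :
    volSpc U (boxSet U X c B R) < ⊤ :=
  (measure_mono (boxSet_subset_siegelSet hc)).trans_lt (volSpc_siegelSet_lt_top hX hc (B / c) R)

omit [IsTotallyComplex F] in
/-- A kernel is integrable against bounded functions in the second variable. -/
theorem integrable_kernel_mul (f : TestFun U) (s : Spc U) {φ : Spc U → ℂ} (hφ : Measurable φ)
    (hb : ∀ X : Set (Ωf U), ∀ c B R : ℝ, X.Finite → 0 < c →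
      ∃ C : ℝ, ∀ t ∈ boxSet U X c B R, ‖φ t‖ ≤ C) :
    Integrable (fun t => kernel f s t * φ t) (volSpc U) := by
  obtain ⟨X, c, B, R, hX, hc, hs⟩ := exists_mem_boxSet s
  obtain ⟨X', c', B', R', hX', hc', h⟩ := exists_box_supset f hX hc B R
  obtain ⟨C, hC⟩ := hb X' c' B' R' hX' hc'
  obtain ⟨D, hD0, hD⟩ := kernel_bound f
  set S := toMeasurable (volSpc U) (boxSet U X' c' B' R') with hS
  have hSf : volSpc U S < ⊤ := by
    rw [hS, measure_toMeasurable]; exact volSpc_boxSet_lt_top hX' hc' B' R'
  have hsupp : ∀ t, t ∉ S → kernel f s t * φ t = 0 := fun t ht => by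
    by_contra hne
    exact ht (subset_toMeasurable _ _ (h s hs t (left_ne_zero_of_mul hne)))
  refine IntegrableOn.integrable_of_forall_notMem_eq_zero (s := S) ?_ hsupp
  refine IntegrableOn.of_bound hSf ((measurable_kernel_right f s).mul hφ).aestronglyMeasurable
    (D * |C|) (Eventually.of_forall fun t => ?_)
  rw [norm_mul]
  by_cases hk : kernel f s t = 0
  · rw [hk, norm_zero, zero_mul]; positivity
  · exact mul_le_mul (hD s t) ((hC t (h s hs t hk)).trans (le_abs_self C)) (norm_nonneg _) hD0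

/-- The automorphic kernel is bounded on boxes. -/
theorem autKernel_bound_box (f : TestFun U) {X Y : Set (Ωf U)} (hX : X.Finite) (hY : Y.Finite)
    {c d : ℝ} (hc : 0 < c) (hd : 0 < d) (B B' R R' : ℝ) :
    ∃ C : ℝ, ∀ s ∈ boxSet U X c B R, ∀ t ∈ boxSet U Y d B' R', ‖autKernel f s t‖ ≤ C := by
  obtain ⟨G, hG⟩ := exists_finset_translates f hX hY hc hd B B' R R'
  obtain ⟨D, -, hD⟩ := kernel_bound f
  refine ⟨G.card * D, fun s hs t ht => ?_⟩
  rw [autKernel, tsum_eq_sum (s := G) fun γ hγ => by_contra fun h => hγ (hG s hs t ht γ h)]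
  refine (norm_sum_le _ _).trans ?_
  simpa using Finset.sum_le_card_nsmul G _ D fun γ _ => hD s (γ • t)

theorem autKernel_bound_left (f : TestFun U) (t : Spc U) (X : Set (Ωf U)) (c B R : ℝ)
    (hX : X.Finite) (hc : 0 < c) :
    ∃ C : ℝ, ∀ s ∈ boxSet U X c B R, ‖autKernel f s t‖ ≤ C := by
  obtain ⟨Y, d, B', R', hY, hd, ht⟩ := exists_mem_boxSet t
  obtain ⟨C, hC⟩ := autKernel_bound_box f hX hY hc hd B B' R R'
  exact ⟨C, fun s hs => hC s hs t ht⟩

end Finite

namespace Kernel

/-- Unfolding a periodised integrable function. -/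
theorem integral_unfold (W : QuotientWeight U) {h : Spc U → ℂ} (hm : Measurable h)
    (hi : Integrable h (volSpc U)) :
    ∫ s, ∑' γ : PGLF F, h (γ • s) ∂qMeas W = ∫ s, h s ∂volSpc U := by
  have hw : Measurable fun s => ((W.w s : ℝ) : ℂ) :=
    Complex.measurable_ofReal.comp (measurable_coe_nnreal_real.comp W.measurable)
  have hwe : Measurable fun s => (W.w s : ℝ≥0∞) :=
    measurable_coe_nnreal_ennreal.comp W.measurable
  have hne : ∀ s, ‖((W.w s : ℝ) : ℂ)‖ₑ = (W.w s : ℝ≥0∞) := fun s => by
    rw [← ofReal_norm, Complex.norm_real, Real.norm_of_nonneg (W.w s).coe_nonneg,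
      ENNReal.ofReal_coe_nnreal]
  have hterm : ∀ γ : PGLF F, Measurable fun s => ((W.w s : ℝ) : ℂ) * h (γ • s) := fun γ =>
    hw.mul (hm.comp (measurable_const_smul γ))
  have hterm' : ∀ γ : PGLF F, Measurable fun s => ((W.w (γ⁻¹ • s) : ℝ) : ℂ) * h s := fun γ =>
    (hw.comp (measurable_const_smul γ⁻¹)).mul hm
  have hmove : ∀ γ : PGLF F, ∫⁻ s, ‖((W.w s : ℝ) : ℂ) * h (γ • s)‖ₑ ∂volSpc U =
      ∫⁻ s, (W.w (γ⁻¹ • s) : ℝ≥0∞) * ‖h s‖ₑ ∂volSpc U := fun γ => by
    rw [← Orbital.lintegral_comp_smul γ⁻¹ _ (hterm γ).enorm]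
    refine lintegral_congr fun s => ?_
    rw [smul_inv_smul, enorm_mul, hne]
  have hfin : ∑' γ : PGLF F, ∫⁻ s, ‖((W.w (γ⁻¹ • s) : ℝ) : ℂ) * h s‖ₑ ∂volSpc U ≠ ⊤ := by
    rw [← lintegral_tsum fun γ => (hterm' γ).enorm.aemeasurable]
    refine ne_top_of_le_ne_top hi.2.ne (lintegral_mono_ae ?_)
    filter_upwards [W.sum_eq] with s hs
    simp only [enorm_mul, hne]
    rw [ENNReal.tsum_mul_right, ← (Equiv.inv (PGLF F)).tsum_eq]
    simp [hs]
  have hfin' : ∑' γ : PGLF F, ∫⁻ s, ‖((W.w s : ℝ) : ℂ) * h (γ • s)‖ₑ ∂volSpc U ≠ ⊤ := by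
    simp only [hmove]
    simpa only [enorm_mul, hne] using hfin
  rw [integral_qMeas]
  calc ∫ s, ((W.w s : ℝ) : ℂ) * ∑' γ : PGLF F, h (γ • s) ∂volSpc U
      = ∫ s, ∑' γ : PGLF F, ((W.w s : ℝ) : ℂ) * h (γ • s) ∂volSpc U := by
        simp only [tsum_mul_left]
    _ = ∑' γ : PGLF F, ∫ s, ((W.w s : ℝ) : ℂ) * h (γ • s) ∂volSpc U :=
        integral_tsum (fun γ => (hterm γ).aestronglyMeasurable) hfin'
    _ = ∑' γ : PGLF F, ∫ s, ((W.w (γ⁻¹ • s) : ℝ) : ℂ) * h s ∂volSpc U := by
        refine tsum_congr fun γ => ?_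
        rw [← Orbital.integral_comp_smul γ⁻¹]
        simp only [smul_inv_smul]
    _ = ∫ s, ∑' γ : PGLF F, ((W.w (γ⁻¹ • s) : ℝ) : ℂ) * h s ∂volSpc U :=
        (integral_tsum (fun γ => (hterm' γ).aestronglyMeasurable) hfin).symm
    _ = ∫ s, h s ∂volSpc U := by
        refine integral_congr_ae (W.sum_eq.mono fun s hs => ?_)
        simp only
        rw [tsum_mul_right, ← (Equiv.inv (PGLF F)).tsum_eq]
        simp only [Equiv.inv_apply, inv_inv]
        have hne' : ∀ γ : PGLF F, (W.w (γ • s) : ℝ≥0∞) ≠ ⊤ := fun γ => ENNReal.coe_ne_top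
        have h1 := congrArg ENNReal.toReal hs
        rw [ENNReal.tsum_toReal_eq hne', ENNReal.toReal_one] at h1
        simp only [ENNReal.coe_toReal] at h1
        rw [← Complex.ofReal_tsum, h1, Complex.ofReal_one, one_mul]

variable [IsTotallyComplex F]

omit [IsTotallyComplex F] in
/-- Integration of an invariant function against an automorphic kernel is unfolded. -/
theorem integral_autKernel_mul (W : QuotientWeight U) (f : TestFun U) (s : Spc U) {φ : Spc U → ℂ}
    (hφ : Measurable φ) (hinv : ∀ (γ : PGLF F) t, φ (γ • t) = φ t)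
    (hb : ∀ X : Set (Ωf U), ∀ c B R : ℝ, X.Finite → 0 < c →
      ∃ C : ℝ, ∀ t ∈ boxSet U X c B R, ‖φ t‖ ≤ C) :
    ∫ t, autKernel f s t * φ t ∂qMeas W = ∫ t, kernel f s t * φ t ∂volSpc U := by
  rw [← integral_unfold W (h := fun t => kernel f s t * φ t) ((measurable_kernel_right f s).mul hφ)
    (integrable_kernel_mul f s hφ hb)]
  refine integral_congr_ae (Eventually.of_forall fun t => ?_)
  simp only [hinv, tsum_mul_right]
  rfl

end Kernel

end Fermat.Agent.ResidualThree
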