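import Mathlib

/-!
# Square-integrable kernels as operators

A kernel `K ∈ L²(μ × μ)` acts on `L²(μ)` as a compact operator of norm at most `‖K‖`, and the
inner product of two kernels is the sum of the inner products of the images of a Hilbert basis.
-/

noncomputable section

open MeasureTheory Filter Topology
open scoped ComplexConjugate InnerProductSpace ENNReal

namespace Fermat.Agent.ResidualThree.Kernel

variable {X : Type*} [MeasurableSpace X] {μ : Measure X} [SigmaFinite μ]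

omit [SigmaFinite μ] in
theorem memLp_tens (g h : Lp ℂ 2 μ) :
    MemLp (fun z : X × X => g z.1 * conj (h z.2)) 2 (μ.prod μ) := by
  have hm : AEStronglyMeasurable (fun z : X × X => g z.1 * conj (h z.2)) (μ.prod μ) :=
    (Lp.aestronglyMeasurable g).comp_fst.mul
      (Complex.continuous_conj.comp_aestronglyMeasurable (Lp.aestronglyMeasurable h).comp_snd)
  refine (memLp_two_iff_integrable_sq_norm hm).mpr ?_
  have hg := (memLp_two_iff_integrable_sq_norm (Lp.aestronglyMeasurable g)).mp (Lp.memLp g)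
  have hh := (memLp_two_iff_integrable_sq_norm (Lp.aestronglyMeasurable h)).mp (Lp.memLp h)
  simpa [mul_pow] using hg.mul_prod hh

/-- The kernel `g ⊗ h̄`. -/
def tens (g h : Lp ℂ 2 μ) : Lp ℂ 2 (μ.prod μ) := (memLp_tens g h).toLp _

omit [SigmaFinite μ] in
theorem coeFn_tens (g h : Lp ℂ 2 μ) :
    tens g h =ᵐ[μ.prod μ] fun z => g z.1 * conj (h z.2) := MemLp.coeFn_toLp _

theorem inner_tens_tens (a b c d : Lp ℂ 2 μ) :
    ⟪tens a b, tens c d⟫_ℂ = ⟪a, c⟫_ℂ * ⟪d, b⟫_ℂ := by
  rw [L2.inner_def, L2.inner_def, L2.inner_def]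
  have e : (fun z : X × X => ⟪(tens a b : X × X → ℂ) z, (tens c d : X × X → ℂ) z⟫_ℂ) =ᵐ[μ.prod μ]
      fun z => ⟪a z.1, c z.1⟫_ℂ * ⟪d z.2, b z.2⟫_ℂ := by
    filter_upwards [coeFn_tens a b, coeFn_tens c d] with z h1 h2
    rw [h1, h2]
    simp only [RCLike.inner_apply, map_mul, Complex.conj_conj]
    ring
  rw [integral_congr_ae e,
    integral_prod_mul (fun x => ⟪a x, c x⟫_ℂ) (fun y => ⟪d y, b y⟫_ℂ)]

theorem norm_tens (g h : Lp ℂ 2 μ) : ‖tens g h‖ = ‖g‖ * ‖h‖ := by
  have h1 : ((‖tens g h‖ : ℂ)) ^ 2 = ((‖g‖ * ‖h‖ : ℝ) : ℂ) ^ 2 := by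
    have := inner_tens_tens g h g h
    rw [inner_self_eq_norm_sq_to_K, inner_self_eq_norm_sq_to_K, inner_self_eq_norm_sq_to_K] at this
    push_cast
    simpa [mul_pow] using this
  have h2 : ‖tens g h‖ ^ 2 = (‖g‖ * ‖h‖) ^ 2 := by exact_mod_cast h1
  exact (pow_left_inj₀ (norm_nonneg _) (by positivity) two_ne_zero).mp h2

omit [SigmaFinite μ] in
theorem tens_add_left (g g' h : Lp ℂ 2 μ) : tens (g + g') h = tens g h + tens g' h := by
  refine Lp.ext ?_
  filter_upwards [coeFn_tens (g + g') h, Lp.coeFn_add (tens g h) (tens g' h), coeFn_tens g h,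
    coeFn_tens g' h, Measure.quasiMeasurePreserving_fst.ae_eq (Lp.coeFn_add g g')]
    with z h1 h2 h3 h4 h5
  simp only [Function.comp_apply, Pi.add_apply] at h5
  rw [h1, h2, Pi.add_apply, h3, h4, h5, add_mul]

omit [SigmaFinite μ] in
theorem tens_add_right (g h h' : Lp ℂ 2 μ) : tens g (h + h') = tens g h + tens g h' := by
  refine Lp.ext ?_
  filter_upwards [coeFn_tens g (h + h'), Lp.coeFn_add (tens g h) (tens g h'), coeFn_tens g h,
    coeFn_tens g h', Measure.quasiMeasurePreserving_snd.ae_eq (Lp.coeFn_add h h')]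
    with z h1 h2 h3 h4 h5
  simp only [Function.comp_apply, Pi.add_apply] at h5
  rw [h1, h2, Pi.add_apply, h3, h4, h5, map_add, mul_add]

omit [SigmaFinite μ] in
theorem tens_smul_left (c : ℂ) (g h : Lp ℂ 2 μ) : tens (c • g) h = c • tens g h := by
  refine Lp.ext ?_
  filter_upwards [coeFn_tens (c • g) h, Lp.coeFn_smul c (tens g h), coeFn_tens g h,
    Measure.quasiMeasurePreserving_fst.ae_eq (Lp.coeFn_smul c g)] with z h1 h2 h3 h4
  simp only [Function.comp_apply, Pi.smul_apply] at h4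
  rw [h1, h2, Pi.smul_apply, h3, h4, smul_eq_mul, smul_eq_mul, mul_assoc]

omit [SigmaFinite μ] in
theorem tens_smul_right (c : ℂ) (g h : Lp ℂ 2 μ) : tens g (c • h) = conj c • tens g h := by
  refine Lp.ext ?_
  filter_upwards [coeFn_tens g (c • h), Lp.coeFn_smul (conj c) (tens g h), coeFn_tens g h,
    Measure.quasiMeasurePreserving_snd.ae_eq (Lp.coeFn_smul c h)] with z h1 h2 h3 h4
  simp only [Function.comp_apply, Pi.smul_apply] at h4
  rw [h1, h2, Pi.smul_apply, h3, h4, smul_eq_mul, smul_eq_mul, map_mul]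
  ring

/-- The sesquilinear form of a kernel. -/
def kerForm (K : Lp ℂ 2 (μ.prod μ)) : Lp ℂ 2 μ →L⋆[ℂ] Lp ℂ 2 μ →L[ℂ] ℂ :=
  LinearMap.mkContinuous₂
    (LinearMap.mk₂'ₛₗ (starRingEnd ℂ) (RingHom.id ℂ) (fun v w => ⟪K, tens w v⟫_ℂ)
      (fun v v' w => by simp [tens_add_right, inner_add_right])
      (fun c v w => by simp [tens_smul_right, inner_smul_right])
      (fun v w w' => by simp [tens_add_left, inner_add_right])
      (fun c v w => by simp [tens_smul_left, inner_smul_right]))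
    ‖K‖ fun v w => by
      refine (norm_inner_le_norm (𝕜 := ℂ) K (tens w v)).trans (le_of_eq ?_)
      rw [norm_tens]; ring

/-- The operator with kernel `K`. -/
def opK (K : Lp ℂ 2 (μ.prod μ)) : Lp ℂ 2 μ →L[ℂ] Lp ℂ 2 μ :=
  InnerProductSpace.continuousLinearMapOfBilin (kerForm K)

theorem inner_opK_left (K : Lp ℂ 2 (μ.prod μ)) (v w : Lp ℂ 2 μ) :
    ⟪opK K v, w⟫_ℂ = ⟪K, tens w v⟫_ℂ :=
  InnerProductSpace.continuousLinearMapOfBilin_apply _ _ _

theorem inner_opK (K : Lp ℂ 2 (μ.prod μ)) (v w : Lp ℂ 2 μ) :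
    ⟪w, opK K v⟫_ℂ = ⟪tens w v, K⟫_ℂ := by
  rw [← inner_conj_symm, inner_opK_left, inner_conj_symm]

theorem opK_add (K K' : Lp ℂ 2 (μ.prod μ)) : opK (K + K') = opK K + opK K' :=
  ContinuousLinearMap.ext fun v => ext_inner_left ℂ fun w => by
    simp [inner_opK, inner_add_right]

theorem opK_smul (c : ℂ) (K : Lp ℂ 2 (μ.prod μ)) : opK (c • K) = c • opK K :=
  ContinuousLinearMap.ext fun v => ext_inner_left ℂ fun w => by
    simp [inner_opK, inner_smul_right]

theorem norm_opK_le (K : Lp ℂ 2 (μ.prod μ)) : ‖opK K‖ ≤ ‖K‖ := by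
  refine ContinuousLinearMap.opNorm_le_bound _ (norm_nonneg _) fun v => ?_
  rcases eq_or_lt_of_le (norm_nonneg (opK K v)) with h | h
  · rw [← h]; positivity
  · have h1 : ‖opK K v‖ * ‖opK K v‖ ≤ ‖K‖ * ‖v‖ * ‖opK K v‖ := by
      calc ‖opK K v‖ * ‖opK K v‖ = ‖⟪opK K v, opK K v⟫_ℂ‖ := by
            rw [inner_self_eq_norm_sq_to_K]
            simp [sq]
        _ = ‖⟪tens (opK K v) v, K⟫_ℂ‖ := by rw [inner_opK]
        _ ≤ ‖tens (opK K v) v‖ * ‖K‖ := norm_inner_le_norm _ _
        _ = ‖K‖ * ‖v‖ * ‖opK K v‖ := by rw [norm_tens]; ring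
    exact le_of_mul_le_mul_right h1 h

/-- `K ↦ opK K`, as a bounded linear map. -/
def opKL : Lp ℂ 2 (μ.prod μ) →L[ℂ] (Lp ℂ 2 μ →L[ℂ] Lp ℂ 2 μ) :=
  LinearMap.mkContinuous ⟨⟨opK, opK_add⟩, opK_smul⟩ 1 fun K => by
    rw [one_mul]; exact norm_opK_le K

theorem opKL_apply (K : Lp ℂ 2 (μ.prod μ)) : opKL K = opK K := rfl

theorem opK_tens (g h v : Lp ℂ 2 μ) : opK (tens g h) v = ⟪h, v⟫_ℂ • g :=
  ext_inner_left ℂ fun w => by rw [inner_opK, inner_tens_tens, inner_smul_right, mul_comm]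

/-- A kernel orthogonal to every `tens g h` vanishes. -/
theorem eq_zero_of_inner_tens_eq_zero (K : Lp ℂ 2 (μ.prod μ))
    (h : ∀ g h : Lp ℂ 2 μ, ⟪tens g h, K⟫_ℂ = 0) : K = 0 := by
  set T : ℕ → Set X := spanningSets μ
  have hTm : ∀ n, MeasurableSet (T n) := measurableSet_spanningSets μ
  have hTf : ∀ n, μ (T n) ≠ ∞ := fun n => (measure_spanningSets_lt_top μ n).ne
  suffices h0 : ∀ n, (K : X × X → ℂ) =ᵐ[(μ.prod μ).restrict (T n ×ˢ T n)] 0 by
    refine Lp.ext (Filter.EventuallyEq.trans ?_ (Lp.coeFn_zero ℂ 2 (μ.prod μ)).symm)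
    have hu : (⋃ n, T n ×ˢ T n) = Set.univ := by
      refine Set.eq_univ_of_forall fun z => ?_
      obtain ⟨a, ha⟩ := Set.mem_iUnion.mp ((iUnion_spanningSets μ).symm ▸ Set.mem_univ z.1)
      obtain ⟨b, hb⟩ := Set.mem_iUnion.mp ((iUnion_spanningSets μ).symm ▸ Set.mem_univ z.2)
      exact Set.mem_iUnion.mpr ⟨max a b, monotone_spanningSets μ (le_max_left _ _) ha,
        monotone_spanningSets μ (le_max_right _ _) hb⟩
    have h1 := (ae_restrict_iUnion_iff _ (fun z => (K : X × X → ℂ) z = (0 : X × X → ℂ) z)).mpr h0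
    rwa [hu, Measure.restrict_univ] at h1
  intro n
  set ν := (μ.prod μ).restrict (T n ×ˢ T n) with hν
  have : IsFiniteMeasure ν := ⟨by
    rw [hν, Measure.restrict_apply_univ, Measure.prod_prod]
    exact ENNReal.mul_lt_top (hTf n).lt_top (hTf n).lt_top⟩
  have hint : Integrable (K : X × X → ℂ) ν :=
    ((Lp.memLp K).restrict (T n ×ˢ T n)).integrable (by norm_num)
  have hrect : ∀ A B : Set X, MeasurableSet A → MeasurableSet B →
      ∫ z in A ×ˢ B, K z ∂ν = 0 := by
    intro A B hA hB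
    have hA' := hA.inter (hTm n)
    have hB' := hB.inter (hTm n)
    have hfA : μ (A ∩ T n) ≠ ∞ := measure_ne_top_of_subset Set.inter_subset_right (hTf n)
    have hfB : μ (B ∩ T n) ≠ ∞ := measure_ne_top_of_subset Set.inter_subset_right (hTf n)
    have hf : (μ.prod μ) ((A ∩ T n) ×ˢ (B ∩ T n)) ≠ ∞ := by
      rw [Measure.prod_prod]; exact ENNReal.mul_ne_top hfA hfB
    have e : tens (indicatorConstLp 2 hA' hfA (1 : ℂ)) (indicatorConstLp 2 hB' hfB (1 : ℂ)) =
        indicatorConstLp 2 (hA'.prod hB') hf (1 : ℂ) := by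
      refine Lp.ext ((coeFn_tens _ _).trans (Filter.EventuallyEq.trans ?_
        indicatorConstLp_coeFn.symm))
      filter_upwards [Measure.quasiMeasurePreserving_fst.ae_eq
          (indicatorConstLp_coeFn (p := 2) (hs := hA') (hμs := hfA) (c := (1 : ℂ))),
        Measure.quasiMeasurePreserving_snd.ae_eq
          (indicatorConstLp_coeFn (p := 2) (hs := hB') (hμs := hfB) (c := (1 : ℂ)))] with z h1 h2
      change indicatorConstLp 2 hA' hfA (1 : ℂ) z.1 = _ at h1
      change indicatorConstLp 2 hB' hfB (1 : ℂ) z.2 = _ at h2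
      rw [h1, h2]
      by_cases p : z.1 ∈ A ∩ T n <;> by_cases q : z.2 ∈ B ∩ T n <;> simp [p, q]
    have := h (indicatorConstLp 2 hA' hfA (1 : ℂ)) (indicatorConstLp 2 hB' hfB (1 : ℂ))
    rw [e, L2.inner_indicatorConstLp_one] at this
    rw [hν, Measure.restrict_restrict (hA.prod hB), Set.prod_inter_prod]
    exact this
  refine (hint.ae_eq_zero_of_forall_setIntegral_eq_zero fun s hs hfin => ?_)
  clear hfin
  induction s, hs using MeasurableSpace.induction_on_inter generateFrom_prod.symm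
    isPiSystem_prod with
  | empty => simp
  | basic t ht =>
    obtain ⟨A, hA, B, hB, rfl⟩ := ht
    exact hrect A B hA hB
  | compl t htm ht =>
    have h1 : ∫ z, K z ∂ν = 0 := by simpa using hrect Set.univ Set.univ .univ .univ
    rw [setIntegral_compl htm hint, h1, ht, sub_zero]
  | iUnion f hd hm hf =>
    rw [integral_iUnion hm hd hint.integrableOn]
    simp [hf]

theorem opK_injective {K K' : Lp ℂ 2 (μ.prod μ)} (h : opK K = opK K') : K = K' :=
  sub_eq_zero.mp <| eq_zero_of_inner_tens_eq_zero _ fun g v => by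
    rw [inner_sub_right, ← inner_opK, ← inner_opK, h, sub_self]

section Basis

variable {ι : Type*} (b : HilbertBasis ι ℂ (Lp ℂ 2 μ))

/-- The products of two members of a Hilbert basis. -/
def tensFamily (ij : ι × ι) : Lp ℂ 2 (μ.prod μ) := tens (b ij.1) (b ij.2)

theorem orthonormal_tensFamily : Orthonormal ℂ (tensFamily b) := by
  classical
  rw [orthonormal_iff_ite]
  intro i j
  rw [tensFamily, tensFamily, inner_tens_tens, orthonormal_iff_ite.mp b.orthonormal,
    orthonormal_iff_ite.mp b.orthonormal]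
  by_cases h1 : i.1 = j.1 <;> by_cases h2 : i.2 = j.2 <;> simp [h1, h2, Prod.ext_iff, eq_comm]

theorem orthogonal_span_tensFamily :
    (Submodule.span ℂ (Set.range (tensFamily b)))ᗮ = ⊥ := by
  rw [Submodule.eq_bot_iff]
  intro K hK
  have h0 : ∀ i j, ⟪tens (b i) (b j), K⟫_ℂ = 0 := fun i j =>
    hK _ (Submodule.subset_span ⟨(i, j), rfl⟩)
  refine opK_injective (K' := 0) ?_
  have hz : ∀ j, opK K (b j) = 0 := fun j => by
    have e : ∀ i, b.repr (opK K (b j)) i = 0 := fun i => by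
      rw [HilbertBasis.repr_apply_apply, inner_opK, h0]
    exact (b.hasSum_repr (opK K (b j))).unique (by simp [e])
  have : opK K = 0 := by
    refine ContinuousLinearMap.ext_on
      (Submodule.dense_iff_topologicalClosure_eq_top.mpr b.dense_span) ?_
    rintro _ ⟨j, rfl⟩
    simpa using hz j
  rw [this, ← opKL_apply, map_zero]

/-- The Hilbert basis of kernels made from a Hilbert basis. -/
def tensBasis : HilbertBasis (ι × ι) ℂ (Lp ℂ 2 (μ.prod μ)) :=
  HilbertBasis.mkOfOrthogonalEqBot (orthonormal_tensFamily b) (orthogonal_span_tensFamily b)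

theorem tensBasis_apply (ij : ι × ι) : tensBasis b ij = tens (b ij.1) (b ij.2) :=
  congrFun (HilbertBasis.coe_mkOfOrthogonalEqBot _ _) ij

/-- The inner product of two kernels through their operators. -/
theorem hasSum_inner_opK (A B : Lp ℂ 2 (μ.prod μ)) :
    HasSum (fun j => ⟪opK A (b j), opK B (b j)⟫_ℂ) ⟪A, B⟫_ℂ := by
  have h := ((Equiv.prodComm ι ι).hasSum_iff).mpr ((tensBasis b).hasSum_inner_mul_inner A B)
  refine h.prod_fiberwise fun j => ?_
  refine (b.hasSum_inner_mul_inner (opK A (b j)) (opK B (b j))).congr_fun fun i => ?_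
  simp [tensBasis_apply, inner_opK, inner_opK_left]

theorem hasSum_norm_sq_opK (K : Lp ℂ 2 (μ.prod μ)) :
    HasSum (fun j => ‖opK K (b j)‖ ^ 2) (‖K‖ ^ 2) := by
  simpa [inner_self_eq_norm_sq_to_K, ← Complex.ofReal_pow] using
    (Complex.hasSum_re (hasSum_inner_opK b K K))

include b in
theorem isCompactOperator_opK_of_basis (K : Lp ℂ 2 (μ.prod μ)) : IsCompactOperator (opK K) := by
  have hc : IsClosed {K : Lp ℂ 2 (μ.prod μ) | IsCompactOperator (opK K)} :=
    isClosed_setOfPred_isCompactOperator.preimage opKL.continuous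
  let M : Submodule ℂ (Lp ℂ 2 (μ.prod μ)) :=
    { carrier := {K | IsCompactOperator (opK K)}
      zero_mem' := by
        show IsCompactOperator (opK 0)
        rw [← opKL_apply, map_zero]
        exact isCompactOperator_zero
      add_mem' := fun {x y} hx hy => by
        show IsCompactOperator (opK (x + y))
        rw [opK_add]; exact hx.add hy
      smul_mem' := fun c x hx => by
        show IsCompactOperator (opK (c • x))
        rw [opK_smul]; exact hx.smul c }
  have hs : Submodule.span ℂ (Set.range (tensBasis b)) ≤ M := by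
    rw [Submodule.span_le]
    rintro _ ⟨ij, rfl⟩
    show IsCompactOperator (opK (tensBasis b ij))
    rw [tensBasis_apply]
    have e : (opK (tens (b ij.1) (b ij.2)) : Lp ℂ 2 μ → Lp ℂ 2 μ) =
        (fun c : ℂ => c • b ij.1) ∘ (innerSL ℂ (b ij.2)) := funext fun v => opK_tens _ _ v
    rw [e]
    exact (isCompactOperator_of_locallyCompactSpace_dom (innerSL ℂ (b ij.2))).continuous_comp
      (continuous_id.smul continuous_const)
  have := Submodule.topologicalClosure_minimal _ hs hc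
  rw [(tensBasis b).dense_span, top_le_iff] at this
  have hK : K ∈ M := by rw [this]; exact Submodule.mem_top
  exact hK

end Basis

theorem isCompactOperator_opK (K : Lp ℂ 2 (μ.prod μ)) : IsCompactOperator (opK K) := by
  obtain ⟨w, b, -⟩ := exists_hilbertBasis ℂ (Lp ℂ 2 μ)
  exact isCompactOperator_opK_of_basis b K

end Fermat.Agent.ResidualThree.Kernel
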