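import Fermat.Agent.ResidualThree.Automorphic.Forms
import Fermat.Agent.ResidualThree.Kernel.Diag
import Fermat.Agent.ResidualThree.Kernel.Petersson

/-!
# Images of automorphic kernels

For an integrable function on the quotient the integral against an automorphic kernel is
automorphic; when the test function kills constants its constant terms vanish.
-/

noncomputable section

open IsDedekindDomain NumberField MeasureTheory Filter Topology
open scoped ENNReal NNReal ComplexConjugate

namespace Fermat.Agent.ResidualThree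

variable {F : Type} [Field F] [NumberField F] {U : Level F}

/-- The upper triangular classes as a subgroup. -/
def borelSub (F : Type) [Field F] : Subgroup (PGLF F) where
  carrier := borelClasses F
  one_mem' := ⟨1, by simp, rfl⟩
  mul_mem' := by
    rintro _ _ ⟨g, hg, rfl⟩ ⟨h, hh, rfl⟩
    refine ⟨g * h, ?_, rfl⟩
    simp only [Set.mem_ofPred_eq] at hg hh ⊢
    rw [Units.val_mul, Matrix.mul_apply, Fin.sum_univ_two, hg, hh, zero_mul, mul_zero, add_zero]
  inv_mem' := by
    rintro _ ⟨g, hg, rfl⟩
    refine ⟨g⁻¹, ?_, rfl⟩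
    simp only [Set.mem_ofPred_eq] at hg ⊢
    obtain ⟨a, d, t, rfl⟩ := eq_upGL_of_apply_eq_zero hg
    rw [upGL_inv]
    simp

namespace Kernel

variable [IsTotallyComplex F]

omit [IsTotallyComplex F] in
/-- Translates of a point over a period box lie in a box. -/
theorem exists_box_shift (s : Spc U) (m : ℕ) :
    ∃ (X : Set (Ωf U)) (c B R : ℝ), X.Finite ∧ 0 < c ∧
      ∀ r ∈ Set.Icc (0 : BasisIx F → ℝ) 1, (s.1, horoShift (boxPt m r) s.2) ∈ boxSet U X c B R := by
  obtain ⟨X, c, B, R, hX, hc, hs⟩ := exists_mem_boxSet s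
  obtain ⟨P, -, hP⟩ := norm_boxPt_le (F := F) m
  exact ⟨X, c, B, R + P, hX, hc, fun r hr => ⟨hs.1, fun w => ⟨(norm_add_le _ _).trans
    (add_le_add (hs.2 w).1 (hP r hr w)), (hs.2 w).2.1, (hs.2 w).2.2⟩⟩⟩

/-- Periodised kernels of test functions killing constants have mean zero over period boxes. -/
theorem integral_autKernel_shift_eq_zero (f : TestFun U) (hf : KillsConstant f) (s t : Spc U)
    {m : ℕ} (hm : 0 < m) (hfix : ∀ (b : 𝓞 F) (g : GL (Fin 2) F),
      (g : Matrix (Fin 2) (Fin 2) F) = !![1, (m : F) * (b : F); 0, 1] → g • s.1 = s.1) :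
    ∫ r in Set.Icc (0 : BasisIx F → ℝ) 1, autKernel f (s.1, horoShift (boxPt m r) s.2) t = 0 := by
  classical
  obtain ⟨X, c, B, R, hX, hc, hbox⟩ := exists_box_shift s m
  obtain ⟨Y, d, B', R', hY, hd, ht⟩ := exists_mem_boxSet t
  obtain ⟨G, hG⟩ := exists_finset_translates f hX hY hc hd B B' R R'
  set rep : PGLF F → PGLF F :=
    fun γ => (Quotient.mk (QuotientGroup.rightRel (borelSub F)) γ).out with hrep
  have hrep1 : ∀ γ, γ * (rep γ)⁻¹ ∈ borelSub F := fun γ => by
    have := Quotient.mk_out (s := QuotientGroup.rightRel (borelSub F)) γ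
    exact QuotientGroup.rightRel_apply.mp this
  have hrep2 : ∀ b ∈ borelSub F, ∀ γ, rep (b * γ) = rep γ := fun b hb γ => by
    simp only [hrep]
    congr 1
    refine Quotient.sound ?_
    show (QuotientGroup.rightRel (borelSub F)).r (b * γ) γ
    rw [QuotientGroup.rightRel_apply, mul_inv_rev, mul_inv_cancel_left]
    exact inv_mem hb
  have hidem : ∀ γ, rep (rep γ) = rep γ := fun γ => by
    conv_rhs => rw [← hrep2 _ (inv_mem (hrep1 γ)) γ, mul_inv_rev, inv_inv, mul_assoc,
      inv_mul_cancel, mul_one]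
  set sr : (BasisIx F → ℝ) → Spc U := fun r => (s.1, horoShift (boxPt m r) s.2) with hsr
  have hcont : ∀ u, Continuous fun r => kernel f (sr r) u := fun u =>
    (continuous_kernel_left f s.1 u).comp
      (continuous_horoShift.comp ((continuous_boxPt m).prodMk continuous_const))
  -- the part in one coset
  have hpart : ∀ δ ∈ G.image rep, ∀ r ∈ Set.Icc (0 : BasisIx F → ℝ) 1,
      ∑' b : borelClasses F, kernel f (sr r) ((b : PGLF F) • δ • t) =
        ∑ γ ∈ G.filter (fun γ => rep γ = δ), kernel f (sr r) (γ • t) := by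
    intro δ hδ r hr
    obtain ⟨γ₀, -, rfl⟩ := Finset.mem_image.mp hδ
    set δ := rep γ₀ with hδdef
    set S : Finset (borelClasses F) :=
      ((G.filter fun γ => rep γ = δ).image fun γ => γ * δ⁻¹).subtype (· ∈ borelClasses F) with hS
    rw [tsum_eq_sum (s := S) fun b hb => by
      by_contra hne
      rw [← mul_smul] at hne
      refine hb (Finset.mem_subtype.mpr (Finset.mem_image.mpr ⟨(b : PGLF F) * δ,
        Finset.mem_filter.mpr ⟨hG _ (hbox r hr) _ ht _ hne, ?_⟩, mul_inv_cancel_right _ _⟩))
      rw [hrep2 _ b.2, hδdef, hidem]]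
    refine Finset.sum_bij (fun b _ => (b : PGLF F) * δ) (fun b hb => ?_) (fun a _ b _ e =>
      Subtype.ext (mul_right_cancel e)) (fun γ hγ => ?_) fun b _ => by rw [mul_smul]
    · obtain ⟨γ, hγ, e⟩ := Finset.mem_image.mp (Finset.mem_subtype.mp hb)
      rw [← e, inv_mul_cancel_right]
      exact hγ
    · have hmem : γ * δ⁻¹ ∈ borelClasses F := by
        rw [← (Finset.mem_filter.mp hγ).2]
        exact hrep1 γ
      exact ⟨⟨γ * δ⁻¹, hmem⟩, Finset.mem_subtype.mpr (Finset.mem_image_of_mem _ hγ),
        inv_mul_cancel_right _ _⟩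
  have htot : ∀ r ∈ Set.Icc (0 : BasisIx F → ℝ) 1, autKernel f (sr r) t =
      ∑ δ ∈ G.image rep, ∑ γ ∈ G.filter (fun γ => rep γ = δ), kernel f (sr r) (γ • t) := by
    intro r hr
    rw [autKernel, tsum_eq_sum (s := G) fun γ hγ => by_contra fun h =>
      hγ (hG _ (hbox r hr) _ ht γ h)]
    exact (Finset.sum_fiberwise_of_maps_to (fun γ hγ => Finset.mem_image_of_mem rep hγ) _).symm
  rw [setIntegral_congr_fun measurableSet_Icc htot, integral_finsetSum _ fun δ _ =>
    (continuous_finsetSum _ fun γ _ => hcont _).continuousOn.integrableOn_Icc]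
  refine Finset.sum_eq_zero fun δ hδ => ?_
  rw [← setIntegral_congr_fun measurableSet_Icc (hpart δ hδ)]
  exact hf s (δ • t) m hm hfix

/-- The automorphic kernel is bounded on a box, uniformly in the other variable. -/
theorem autKernel_bound_box_left (f : TestFun U) {X : Set (Ωf U)} (hX : X.Finite) {c : ℝ}
    (hc : 0 < c) (B R : ℝ) :
    ∃ C : ℝ, 0 ≤ C ∧ ∀ s ∈ boxSet U X c B R, ∀ t, ‖autKernel f s t‖ ≤ C := by
  obtain ⟨X', c', B', R', hX', hc', h⟩ := exists_box_supset f hX hc B R
  obtain ⟨C, hC⟩ := autKernel_bound_box f hX hX' hc hc' B B' R R'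
  refine ⟨|C|, abs_nonneg C, fun s hs t => ?_⟩
  by_cases hall : ∃ γ : PGLF F, kernel f s (γ • t) ≠ 0
  · obtain ⟨γ, hγ⟩ := hall
    rw [← autKernel_smul_right f γ]
    exact (hC s hs _ (h s hs _ hγ)).trans (le_abs_self C)
  · push Not at hall
    rw [autKernel, tsum_congr hall, tsum_zero, norm_zero]
    exact abs_nonneg C

omit [IsTotallyComplex F] in
/-- Every point has a box around it. -/
theorem exists_box_nhds (p : Hyp F) :
    ∃ c B R : ℝ, 0 < c ∧ ∀ᶠ q in 𝓝 p, ∀ w, ‖(q w).z‖ ≤ R ∧ c ≤ (q w).y ∧ (q w).y ≤ B := by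
  classical
  set c := Finset.univ.inf' Finset.univ_nonempty (fun w => (p w).y) with hcdef
  have hc : 0 < c := (Finset.lt_inf'_iff _).mpr fun w _ => (p w).y_pos
  refine ⟨c / 2, ∑ w, (p w).y + 1, ∑ w, ‖(p w).z‖ + 1, half_pos hc,
    Filter.eventually_all.mpr fun w => ?_⟩
  have hz : Continuous fun q : Hyp F => ‖(q w).z‖ :=
    continuous_norm.comp (H3.continuous_z.comp (continuous_apply w))
  have hy : Continuous fun q : Hyp F => (q w).y := H3.continuous_y.comp (continuous_apply w)
  have h1 : ‖(p w).z‖ < ∑ w, ‖(p w).z‖ + 1 := lt_add_of_le_of_pos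
    (Finset.single_le_sum (f := fun w => ‖(p w).z‖) (fun _ _ => norm_nonneg _) (Finset.mem_univ w))
    one_pos
  have h2 : (p w).y < ∑ w, (p w).y + 1 := lt_add_of_le_of_pos
    (Finset.single_le_sum (f := fun w => (p w).y) (fun w _ => (p w).y_pos.le) (Finset.mem_univ w))
    one_pos
  have h3 : c / 2 < (p w).y := (half_lt_self hc).trans_le
    (Finset.inf'_le (fun w => (p w).y) (Finset.mem_univ w))
  filter_upwards [hz.continuousAt.eventually_lt continuousAt_const h1,
    continuousAt_const.eventually_lt hy.continuousAt h3,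
    hy.continuousAt.eventually_lt continuousAt_const h2] with q e1 e2 e3
  exact ⟨e1.le, e2.le, e3.le⟩

theorem continuous_autKernel_left (f : TestFun U) (ξ : Ωf U) (t : Spc U) :
    Continuous fun p : Hyp F => autKernel f (ξ, p) t := by
  refine continuous_iff_continuousAt.mpr fun p => ?_
  obtain ⟨c, B, R, hc, hev⟩ := exists_box_nhds p
  obtain ⟨Y, d, B', R', hY, hd, ht⟩ := exists_mem_boxSet t
  obtain ⟨G, hG⟩ := exists_finset_translates f (Set.finite_singleton ξ) hY hc hd B B' R R'
  have hc' : Continuous fun q : Hyp F => ∑ γ ∈ G, kernel f (ξ, q) (γ • t) :=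
    continuous_finsetSum _ fun γ _ => continuous_kernel_left f ξ _
  refine hc'.continuousAt.congr (hev.mono fun q hq => ?_)
  simp only [autKernel]
  exact (tsum_eq_sum (s := G) fun γ hγ =>
    by_contra fun h => hγ (hG _ ⟨Set.mem_singleton _, hq⟩ _ ht γ h)).symm

/-- The integral against the automorphic kernel. -/
def imageFn (W : QuotientWeight U) (f : TestFun U) (v : Spc U → ℂ) : Gf F → Hyp F → ℂ :=
  fun x p => ∫ t, autKernel f ((x : Ωf U), p) t * v t ∂qMeas W

omit [IsTotallyComplex F] in
theorem onSpc_imageFn (W : QuotientWeight U) (f : TestFun U) (v : Spc U → ℂ) (s : Spc U) :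
    onSpc U (imageFn W f v) s = ∫ t, autKernel f s t * v t ∂qMeas W := by
  rw [onSpc, imageFn, QuotientGroup.out_eq']

theorem isAutomorphic_imageFn (W : QuotientWeight U) (f : TestFun U) {v : Spc U → ℂ}
    (hv : Integrable v (qMeas W)) : IsAutomorphic U (imageFn W f v) where
  left γ x y hxy p := by
    have hy : y = diag F γ * x := Subtype.ext (funext hxy)
    have e : (((y : Gf F) : Ωf U), γ • p) = (γ : PGLF F) • (((x : Gf F) : Ωf U), p) := by
      rw [hy, mk_smul_spc]; rfl
    simp only [imageFn, e, autKernel_smul_left]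
  right x j hj := by
    funext p
    simp only [imageFn]
    rw [show ((x * j : Gf F) : Ωf U) = (x : Ωf U) by
      rw [QuotientGroup.eq, mul_inv_rev, inv_mul_cancel_right]; exact inv_mem (fun w => hj w)]
  continuous x := by
    refine continuous_iff_continuousAt.mpr fun p => ?_
    obtain ⟨c, B, R, hc, hev⟩ := exists_box_nhds p
    obtain ⟨C, -, hC⟩ := autKernel_bound_box_left f (Set.finite_singleton (x : Ωf U)) hc B R
    refine continuousAt_of_dominated (bound := fun t => C * ‖v t‖)
      (Eventually.of_forall fun q => ((measurable_autKernel_right f _).aestronglyMeasurable.mul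
        hv.aestronglyMeasurable)) (hev.mono fun q hq => Eventually.of_forall fun t => ?_)
      (hv.norm.const_mul C) (Eventually.of_forall fun t =>
        ((continuous_autKernel_left f _ t).mul continuous_const).continuousAt)
    rw [norm_mul]
    exact mul_le_mul_of_nonneg_right (hC _ ⟨Set.mem_singleton _, hq⟩ t) (norm_nonneg _)

theorem isCuspidal_imageFn (W : QuotientWeight U) {f : TestFun U} (hf : KillsConstant f)
    {v : Spc U → ℂ} (hv : Integrable v (qMeas W)) : IsCuspidal (imageFn W f v) := by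
  have hφ := isAutomorphic_imageFn W f hv
  refine (isCuspidal_iff hφ).mpr fun x p => ?_
  obtain ⟨m, hm, hfix⟩ := exists_fixing_period (U := U) (Set.finite_singleton ((x : Ωf U)))
  have hper : IsPeriodAt (imageFn W f v) x m := fun b q => by
    have hg : ((unipHom F ((m : F) * (b : F))) : Matrix (Fin 2) (Fin 2) F) =
        !![1, (m : F) * (b : F); 0, 1] := coe_unipHom _
    have e : (((x : Gf F) : Ωf U), horoShift (fun w => (m : ℂ) * w.embedding (b : F)) q) =
        (unipHom F ((m : F) * (b : F)) : PGLF F) • (((x : Gf F) : Ωf U), q) := by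
      rw [mk_smul_spc]
      refine Prod.ext (hfix _ rfl b _ hg).symm ?_
      show _ = unipHom F ((m : F) * (b : F)) • q
      rw [unipHom_smul_hyp]
      rw [show (fun w : InfinitePlace F => (m : ℂ) * w.embedding (b : F)) =
        archVec ((m : F) * (b : F)) by funext w; simp [archVec]]
    simp only [imageFn, e, autKernel_smul_left]
  have hcp : HasCommonPeriod (imageFn W f v) 0 x m := ⟨hm, hper, fun b => by simp [traceExp]⟩
  rw [fourierCoeff_eq (hφ.continuous _) p hcp, boxMean_zero]
  simp only [imageFn]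
  obtain ⟨X, c, B, R, hX, hc, hbox⟩ := exists_box_shift (U := U) ((x : Ωf U), p) m
  obtain ⟨C, hC0, hC⟩ := autKernel_bound_box_left f hX hc B R
  set Φ : (BasisIx F → ℝ) → Spc U → ℂ := fun r t =>
    autKernel f ((x : Ωf U), horoShift (boxPt m r) p) t with hΦ
  have hΦm : Measurable fun z : (BasisIx F → ℝ) × Spc U => Φ z.1 z.2 := by
    have h1 : Measurable fun z : (BasisIx F → ℝ) × Spc U =>
        ((((x : Gf F) : Ωf U), horoShift (boxPt m z.1) p) : Spc U) :=
      measurable_const.prodMk ((continuous_horoShift.comp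
        ((continuous_boxPt m).prodMk continuous_const)).measurable.comp measurable_fst)
    exact Measurable.comp (g := fun z : Spc U × Spc U => autKernel f z.1 z.2)
      (f := fun z : (BasisIx F → ℝ) × Spc U =>
        ((((x : Gf F) : Ωf U), horoShift (boxPt m z.1) p), z.2)) (measurable_autKernel f)
      (h1.prodMk measurable_snd)
  have hfin : IsFiniteMeasure (volume.restrict (Set.Icc (0 : BasisIx F → ℝ) 1)) :=
    ⟨by rw [Measure.restrict_apply_univ]; exact isCompact_Icc.measure_lt_top⟩
  have hint : Integrable (Function.uncurry fun r t => Φ r t * v t)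
      ((volume.restrict (Set.Icc (0 : BasisIx F → ℝ) 1)).prod (qMeas W)) := by
    refine ((integrable_const C).mul_prod hv.norm).mono'
      (hΦm.aestronglyMeasurable.mul hv.aestronglyMeasurable.comp_snd) ?_
    filter_upwards [Measure.quasiMeasurePreserving_fst.ae (ae_restrict_mem measurableSet_Icc)]
      with z hz
    show ‖Φ z.1 z.2 * v z.2‖ ≤ C * ‖v z.2‖
    rw [norm_mul]
    exact mul_le_mul_of_nonneg_right (hC _ (hbox z.1 hz) z.2) (norm_nonneg _)
  rw [integral_integral_swap hint]
  refine integral_eq_zero_of_ae (Eventually.of_forall fun t => ?_)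
  show ∫ r in Set.Icc (0 : BasisIx F → ℝ) 1, Φ r t * v t = 0
  rw [integral_mul_const, hΦ]
  simp only
  rw [integral_autKernel_shift_eq_zero f hf ((x : Ωf U), p) t hm (hfix _ rfl), zero_mul]

omit [IsTotallyComplex F] in
/-- The operator is the integral against the automorphic kernel. -/
theorem opK_kerL2_ae_imageFn {W : QuotientWeight U} {f : TestFun U} (h : IsHS W f)
    (v : Lp ℂ 2 (qMeas W)) :
    (opK (kerL2 h) v : Spc U → ℂ) =ᵐ[qMeas W] onSpc U (imageFn W f v) := by
  filter_upwards [coeFn_opK_kerL2 h v] with s hs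
  rw [hs, onSpc_imageFn]

theorem integrable_lp (W : QuotientWeight U) (v : Lp ℂ 2 (qMeas W)) :
    Integrable (v : Spc U → ℂ) (qMeas W) :=
  (Lp.memLp v).integrable one_le_two

end Kernel

end Fermat.Agent.ResidualThree
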